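import Fermat.Agent.LT.Aleph.Kill
import Fermat.Agent.LT.CT

/-!
# The boundary: constant terms as functions on a commutative group

`Bdry F D V`: the structure at infinity of a `GL (Fin 2) F`-set `D` (think of `GL₂(𝔸_f) / U`): a
commutative group `C0` (finite ideles modulo an open compact subgroup) acting on the `N(F)`-orbits.
-/

set_option autoImplicit false

open scoped BigOperators
open MeasureTheory NumberField

noncomputable section

namespace Fermat.Agent.LT.Aleph

/-- The diagonal matrix `(a, 0; 0, 1)`. -/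
def aF {F : Type} [Field F] (a : Fˣ) : GL (Fin 2) F :=
  Matrix.GeneralLinearGroup.mkOfDetNeZero !![(a : F), 0; 0, 1] (by simp)

lemma coe_aF {F : Type} [Field F] (a : Fˣ) :
    (aF a : Matrix (Fin 2) (Fin 2) F) = !![(a : F), 0; 0, 1] := rfl

lemma aF_mul {F : Type} [Field F] (a b : Fˣ) : aF (a * b) = aF a * aF b := by
  apply Units.ext
  rw [Units.val_mul, coe_aF, coe_aF, coe_aF, Matrix.mul_fin_two]
  simp

lemma aF_mul_nb {F : Type} [Field F] (a : Fˣ) (b : F) : aF a * nb b = nb (a * b) * aF a := by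
  apply Units.ext
  rw [Units.val_mul, Units.val_mul, coe_aF, coe_nb, coe_nb, Matrix.mul_fin_two, Matrix.mul_fin_two]
  simp

/-- The structure at the boundary of a `GL (Fin 2) F`-set. -/
structure Bdry (F : Type) [Field F] [NumberField F] (D : Type) [MulAction (GL (Fin 2) F) D]
    (V : Type) where
  /-- finite ideles modulo an open compact subgroup -/
  C0 : Type
  [inst : CommGroup C0]
  i0 : Fˣ →* C0
  fin : i0.range.FiniteIndex
  nm : C0 →* ℝ
  nm_pos : ∀ c, 0 < nm c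
  nm_i0 : ∀ a : Fˣ, nm (i0 a) * ∏ w : InfinitePlace F, w a ^ 2 = 1
  p : V → C0
  q : V → ℝ
  q_pos : ∀ v, 0 < q v
  nm_p : ∀ v, nm (p v) = (q v)⁻¹
  row : V → D → D →₀ ℂ
  row_smul : ∀ v (g : GL (Fin 2) F) d, row v (g • d) = (row v d).mapDomain (g • ·)
  orb : D → C0 → D
  orb_one : ∀ d, orb d 1 = d
  orb_i0 : ∀ d c (a : Fˣ), ∃ b : F, aF a • orb d c = nb b • orb d (i0 a * c)
  row_orb : ∀ φ : D → ℂ, (∀ (b : F) d, φ (nb b • d) = φ d) → ∀ v d c,
    (row v (orb d c)).sum (fun d' z => z * φ d') =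
      q v * φ (orb d (p v * c)) + φ (orb d ((p v)⁻¹ * c))

attribute [instance] Bdry.inst

namespace Bdry

variable {F : Type} [Field F] [NumberField F] {D : Type} [MulAction (GL (Fin 2) F) D]
  {V : Type} (B : Bdry F D V)

/-- The logarithms of the absolute values. -/
def lg (a : Fˣ) : InfinitePlace F → ℝ := fun w => Real.log (w a)

lemma lg_mul (a b : Fˣ) : lg (a * b) = lg a + lg b := by
  funext w
  simp only [lg, Units.val_mul, map_mul, Pi.add_apply]
  exact Real.log_mul (by simp) (by simp)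

lemma lg_one : lg (1 : Fˣ) = 0 := by
  funext w
  simp [lg]

/-- The diagonal embedding of `Fˣ`. -/
def dia : Fˣ →* Multiplicative (InfinitePlace F → ℝ) × B.C0 where
  toFun a := (Multiplicative.ofAdd (lg a), B.i0 a)
  map_one' := by rw [lg_one, map_one]; rfl
  map_mul' a b := by rw [lg_mul, map_mul]; rfl

/-- The group of the boundary. -/
abbrev C : Type := (Multiplicative (InfinitePlace F → ℝ) × B.C0) ⧸ B.dia.range

/-- The archimedean part. -/
def E : Multiplicative (InfinitePlace F → ℝ) →* B.C :=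
  (QuotientGroup.mk' B.dia.range).comp (MonoidHom.inl _ _)

/-- The class of a place. -/
def pc (v : V) : B.C := QuotientGroup.mk' B.dia.range (1, B.p v)

lemma finiteIndex_E : B.E.range.FiniteIndex := by
  have h1 := B.fin
  let f : B.C0 →* B.C ⧸ B.E.range :=
    (QuotientGroup.mk' B.E.range).comp ((QuotientGroup.mk' B.dia.range).comp (MonoidHom.inr _ _))
  have hf : Function.Surjective f := by
    intro x
    obtain ⟨x, rfl⟩ := QuotientGroup.mk_surjective x
    obtain ⟨⟨u, c⟩, rfl⟩ := QuotientGroup.mk_surjective x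
    refine ⟨c, ?_⟩
    refine (QuotientGroup.eq (s := B.E.range)).mpr ⟨u, ?_⟩
    change QuotientGroup.mk' B.dia.range (u, 1) =
      (QuotientGroup.mk' B.dia.range (1, c))⁻¹ * QuotientGroup.mk' B.dia.range (u, c)
    rw [← map_inv, ← map_mul]
    congr 1
    ext1
    · simp
    · simp
  have hk : B.i0.range ≤ f.ker := by
    rintro _ ⟨a, rfl⟩
    rw [MonoidHom.mem_ker]
    refine (QuotientGroup.eq_one_iff (N := B.E.range) _).mpr
      ⟨(Multiplicative.ofAdd (lg a))⁻¹, ?_⟩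
    refine (QuotientGroup.eq (s := B.dia.range)).mpr ⟨a, ?_⟩
    ext1
    · simp [dia]
    · simp [dia]
  have h2 : f.ker.FiniteIndex := Subgroup.finiteIndex_of_le hk
  have h3 : Finite (B.C0 ⧸ f.ker) := inferInstance
  have h4 : Finite (B.C ⧸ B.E.range) :=
    Finite.of_equiv _ (QuotientGroup.quotientKerEquivOfSurjective f hf).toEquiv
  exact Subgroup.finiteIndex_of_finite_quotient

/-! ### Constant terms -/

/-- A function which has the invariance of a constant term (in logarithmic coordinates). -/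
structure IsCT (Φ : (InfinitePlace F → ℝ) → D → ℂ) : Prop where
  nil : ∀ (b : F) u d, Φ u (nb b • d) = Φ u d
  dia : ∀ (a : Fˣ) u d, Φ (u + lg a) (aF a • d) = Φ u d

/-- The Hecke operator. -/
def T (v : V) (Φ : (InfinitePlace F → ℝ) → D → ℂ) : (InfinitePlace F → ℝ) → D → ℂ :=
  fun u d => (B.row v d).sum fun d' z => z * Φ u d'

/-- The Hecke operators along a word. -/
def Tw (l : List V) (Φ : (InfinitePlace F → ℝ) → D → ℂ) : (InfinitePlace F → ℝ) → D → ℂ :=
  l.foldr (fun v Ψ => B.T v Ψ) Φ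

lemma Tw_nil (Φ : (InfinitePlace F → ℝ) → D → ℂ) : B.Tw [] Φ = Φ := rfl

lemma Tw_cons (v : V) (l : List V) (Φ : (InfinitePlace F → ℝ) → D → ℂ) :
    B.Tw (v :: l) Φ = B.T v (B.Tw l Φ) := rfl

variable {B} in
lemma IsCT.T {Φ : (InfinitePlace F → ℝ) → D → ℂ} (h : IsCT Φ) (v : V) : IsCT (B.T v Φ) where
  nil b u d := by
    rw [Bdry.T, Bdry.T, B.row_smul, Finsupp.sum_mapDomain_index (fun _ => zero_mul _)
      (fun _ _ _ => add_mul _ _ _)]
    simp only [h.nil]
  dia a u d := by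
    rw [Bdry.T, Bdry.T, B.row_smul, Finsupp.sum_mapDomain_index (fun _ => zero_mul _)
      (fun _ _ _ => add_mul _ _ _)]
    simp only [h.dia]

variable {B} in
lemma IsCT.Tw {Φ : (InfinitePlace F → ℝ) → D → ℂ} (h : IsCT Φ) (l : List V) :
    IsCT (B.Tw l Φ) := by
  induction l with
  | nil => exact h
  | cons v l ih => exact ih.T v

/-- The square root of the total norm. -/
def hn (x : Multiplicative (InfinitePlace F → ℝ) × B.C0) : ℝ :=
  Real.exp (∑ w, Multiplicative.toAdd x.1 w) * Real.sqrt (B.nm x.2)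

lemma hn_pos (x : Multiplicative (InfinitePlace F → ℝ) × B.C0) : 0 < B.hn x :=
  mul_pos (Real.exp_pos _) (Real.sqrt_pos.mpr (B.nm_pos _))

lemma hn_mul (x y : Multiplicative (InfinitePlace F → ℝ) × B.C0) :
    B.hn (x * y) = B.hn x * B.hn y := by
  unfold hn
  rw [Prod.fst_mul, Prod.snd_mul, toAdd_mul, map_mul, Real.sqrt_mul (B.nm_pos _).le]
  simp only [Pi.add_apply, Finset.sum_add_distrib, Real.exp_add]
  ring

lemma hn_dia (a : Fˣ) : B.hn (B.dia a) = 1 := by
  have h1 : B.hn (B.dia a) = (∏ w : InfinitePlace F, w a) * Real.sqrt (B.nm (B.i0 a)) := by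
    unfold hn
    congr 1
    rw [Real.exp_sum]
    refine Finset.prod_congr rfl fun w _ => ?_
    exact Real.exp_log ((InfinitePlace.pos_iff).mpr a.ne_zero)
  have h2 : B.hn (B.dia a) ^ 2 = 1 := by
    rw [h1, mul_pow, Real.sq_sqrt (B.nm_pos _).le, ← Finset.prod_pow, mul_comm, B.nm_i0]
  have h3 := B.hn_pos (B.dia a)
  nlinarith

lemma hn_inl (u : InfinitePlace F → ℝ) :
    B.hn (Multiplicative.ofAdd u, 1) = Real.exp (∑ w, u w) := by
  simp [hn]

lemma hn_p (v : V) : B.hn (1, B.p v) = (Real.sqrt (B.q v))⁻¹ := by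
  simp [hn, B.nm_p]

/-- The normalised function before passing to the quotient. -/
def pre (Φ : (InfinitePlace F → ℝ) → D → ℂ) (d : D)
    (x : Multiplicative (InfinitePlace F → ℝ) × B.C0) : ℂ :=
  ((B.hn x)⁻¹ : ℝ) * Φ (Multiplicative.toAdd x.1) (B.orb d x.2)

variable {B} in
lemma IsCT.pre_dia {Φ : (InfinitePlace F → ℝ) → D → ℂ} (h : IsCT Φ) (d : D)
    (x : Multiplicative (InfinitePlace F → ℝ) × B.C0) (a : Fˣ) :
    B.pre Φ d (x * B.dia a) = B.pre Φ d x := by
  unfold pre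
  rw [hn_mul, hn_dia, mul_one]
  congr 1
  obtain ⟨b, hb⟩ := B.orb_i0 d x.2 a
  have h1 : Φ (Multiplicative.toAdd x.1 + lg a) (B.orb d (B.i0 a * x.2)) =
      Φ (Multiplicative.toAdd x.1) (B.orb d x.2) := by
    rw [← h.nil b, ← hb, h.dia]
  rw [← h1, mul_comm (B.i0 a)]
  rfl

/-- The normalised function on the group of the boundary. -/
def nrm (Φ : (InfinitePlace F → ℝ) → D → ℂ) (h : IsCT Φ) (d : D) (x : B.C) : ℂ :=
  Quotient.liftOn' x (B.pre Φ d) (by
    intro x y hxy
    rw [QuotientGroup.leftRel_apply] at hxy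
    obtain ⟨a, ha⟩ := hxy
    rw [show y = x * B.dia a by rw [ha]; group, h.pre_dia])

lemma nrm_mk (Φ : (InfinitePlace F → ℝ) → D → ℂ) (h : IsCT Φ) (d : D)
    (x : Multiplicative (InfinitePlace F → ℝ) × B.C0) :
    B.nrm Φ h d (QuotientGroup.mk' B.dia.range x) = B.pre Φ d x := rfl

lemma nrm_T (Φ : (InfinitePlace F → ℝ) → D → ℂ) (h : IsCT Φ) (d : D) (v : V) (x : B.C) :
    B.nrm (B.T v Φ) (h.T v) d x = (Real.sqrt (B.q v) : ℂ) * Tv B.pc v (B.nrm Φ h d) x := by
  obtain ⟨x, rfl⟩ := QuotientGroup.mk'_surjective _ x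
  have hx := B.hn_pos x
  have hq : 0 < Real.sqrt (B.q v) := Real.sqrt_pos.mpr (B.q_pos v)
  have hq' : (Real.sqrt (B.q v) : ℂ) ≠ 0 := Complex.ofReal_ne_zero.mpr hq.ne'
  have hx' : (B.hn x : ℂ) ≠ 0 := Complex.ofReal_ne_zero.mpr hx.ne'
  rw [Tv_apply, Bdry.pc, ← map_inv, ← map_mul, ← map_mul, nrm_mk, nrm_mk, nrm_mk]
  have h1 : B.pre Φ d (x * (1, B.p v)) = (Real.sqrt (B.q v) : ℂ) * (B.hn x : ℂ)⁻¹ *
      Φ (Multiplicative.toAdd x.1) (B.orb d (B.p v * x.2)) := by
    unfold pre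
    rw [hn_mul, hn_p, mul_comm (B.p v)]
    congr 1
    · push_cast
      field_simp
    · simp
  have h2 : B.pre Φ d (x * (1, B.p v)⁻¹) = (Real.sqrt (B.q v) : ℂ)⁻¹ * (B.hn x : ℂ)⁻¹ *
      Φ (Multiplicative.toAdd x.1) (B.orb d ((B.p v)⁻¹ * x.2)) := by
    have h3 : B.hn ((1, B.p v)⁻¹) = Real.sqrt (B.q v) := by
      have h4 := B.hn_mul (1, B.p v) ((1, B.p v)⁻¹)
      rw [mul_inv_cancel, hn_p] at h4
      have h5 : B.hn 1 = 1 := by simp [hn]
      rw [h5] at h4
      field_simp at h4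
      exact h4.symm
    unfold pre
    rw [hn_mul, h3, mul_comm (B.p v)⁻¹]
    congr 1
    · push_cast
      field_simp
    · simp
  rw [h1, h2]
  have h6 := B.row_orb (fun d' => Φ (Multiplicative.toAdd x.1) d')
    (fun b d => h.nil b _ d) v d x.2
  have h7 : B.pre (B.T v Φ) d x = (B.hn x : ℂ)⁻¹ *
      ((B.row v (B.orb d x.2)).sum fun d' z => z * Φ (Multiplicative.toAdd x.1) d') := by
    unfold pre
    push_cast
    rfl
  rw [h7, h6]
  have h8 : ((B.q v : ℝ) : ℂ) = (Real.sqrt (B.q v) : ℂ) * (Real.sqrt (B.q v) : ℂ) := by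
    rw [← Complex.ofReal_mul, Real.mul_self_sqrt (B.q_pos v).le]
  rw [h8]
  field_simp

/-- The product of the square roots of the `q v` along a word. -/
def sq (l : List V) : ℝ := (l.map fun v => Real.sqrt (B.q v)).prod

lemma sq_cons (v : V) (l : List V) : B.sq (v :: l) = Real.sqrt (B.q v) * B.sq l := rfl

lemma sq_pos (l : List V) : 0 < B.sq l := by
  induction l with
  | nil => exact one_pos
  | cons v l ih => exact mul_pos (Real.sqrt_pos.mpr (B.q_pos v)) ih

lemma nrm_Tw (Φ : (InfinitePlace F → ℝ) → D → ℂ) (h : IsCT Φ) (d : D) (l : List V) :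
    B.nrm (B.Tw l Φ) (h.Tw l) d = (B.sq l : ℂ) • wordOp B.pc l (B.nrm Φ h d) := by
  induction l with
  | nil =>
    funext x
    rw [Pi.smul_apply, smul_eq_mul]
    change _ = ((1 : ℝ) : ℂ) * _
    rw [Complex.ofReal_one, one_mul]
    rfl
  | cons v l ih =>
    funext x
    rw [wordOp_cons, sq_cons]
    have h1 := B.nrm_T (B.Tw l Φ) (h.Tw l) d v x
    rw [ih] at h1
    refine h1.trans ?_
    rw [map_smul, Pi.smul_apply, Pi.smul_apply, smul_eq_mul, smul_eq_mul]
    push_cast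
    ring

lemma nrm_E (Φ : (InfinitePlace F → ℝ) → D → ℂ) (h : IsCT Φ) (d : D) (u₀ u : InfinitePlace F → ℝ) :
    B.nrm Φ h d (B.E (Multiplicative.ofAdd u₀) * B.E (Multiplicative.ofAdd u)) =
      (Real.exp (-∑ w, u₀ w) : ℂ) * ((Real.exp (-∑ w, u w) : ℂ) * Φ (u₀ + u) d) := by
  have h1 : B.E (Multiplicative.ofAdd u₀) * B.E (Multiplicative.ofAdd u) =
      QuotientGroup.mk' B.dia.range (Multiplicative.ofAdd (u₀ + u), 1) := by
    rw [← map_mul]
    rfl
  rw [h1, nrm_mk, pre, hn_inl, B.orb_one]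
  simp only [Pi.add_apply, Finset.sum_add_distrib, Real.exp_add, Real.exp_neg, mul_inv]
  push_cast
  rw [mul_assoc]
  rfl

variable {x : V → ℂ} [DecidableEq (InfinitePlace F)]

/-- **The operator kills all constant terms.** -/
theorem kill (A : Data B.E B.pc x) {Φ : (InfinitePlace F → ℝ) → D → ℂ} (h : IsCT Φ)
    (hi : ∀ d, LocallyIntegrable fun u => Φ u d) {g : InfinitePlace F → ℝ → ℂ}
    (hc : ∀ w, Continuous (g w)) (hs : ∀ w, HasCompactSupport (g w))
    (u₀ : InfinitePlace F → ℝ) (d : D) :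
    ∑ j, (A.coef j : ℂ) * (B.sq (A.word j) : ℂ)⁻¹ *
      ∫ u : InfinitePlace F → ℝ, (∏ w, sym (g w) (A.shift j w) (u w)) *
        ((Real.exp (-∑ w, u w) : ℂ) * B.Tw (A.word j) Φ (u₀ + u) d) = 0 := by
  have hφ : ∀ a, LocallyIntegrable fun u : InfinitePlace F → ℝ =>
      B.nrm Φ h d (a * B.E (Multiplicative.ofAdd u)) := by
    intro a
    obtain ⟨⟨u₁, c⟩, rfl⟩ := QuotientGroup.mk'_surjective _ a
    have h1 : (fun u : InfinitePlace F → ℝ => B.nrm Φ h d
        (QuotientGroup.mk' B.dia.range (u₁, c) * B.E (Multiplicative.ofAdd u))) =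
        fun u => (((B.hn (u₁, c) * Real.exp (∑ w, u w))⁻¹ : ℝ) : ℂ) •
          Φ (Multiplicative.toAdd u₁ + u) (B.orb d c) := by
      funext u
      have h2 : QuotientGroup.mk' B.dia.range (u₁, c) * B.E (Multiplicative.ofAdd u) =
          QuotientGroup.mk' B.dia.range ((u₁, c) * (Multiplicative.ofAdd u, 1)) := by
        rw [map_mul]
        rfl
      rw [h2, nrm_mk, pre, hn_mul, hn_inl, smul_eq_mul]
      simp only [Prod.mk_mul_mk, mul_one, toAdd_mul, toAdd_ofAdd]
    rw [h1]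
    have h3 : LocallyIntegrable fun u : InfinitePlace F → ℝ =>
        Φ (Multiplicative.toAdd u₁ + u) (B.orb d c) := by
      have h4 := (measurePreserving_add_left (volume : Measure (InfinitePlace F → ℝ))
        (Multiplicative.toAdd u₁))
      rw [locallyIntegrable_iff]
      intro K hK
      have h5 : IsCompact ((fun u => Multiplicative.toAdd u₁ + u) '' K) :=
        hK.image (by fun_prop)
      have h6 := (locallyIntegrable_iff.mp (hi (B.orb d c))) _ h5
      have h7 := (h4.integrableOn_image (measurableEmbedding_addLeft _)).mp h6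
      exact h7
    refine LocallyIntegrable.continuous_smul ?_ h3
    refine Complex.continuous_ofReal.comp (Continuous.inv₀ ?_ fun u => ?_)
    · fun_prop
    · exact (mul_pos (B.hn_pos _) (Real.exp_pos _)).ne'
  have h1 := A.kill_prod hφ (B.E (Multiplicative.ofAdd u₀)) hc hs
  have h2 : ∀ j, (∫ u : InfinitePlace F → ℝ, (∏ w, sym (g w) (A.shift j w) (u w)) *
      wordOp B.pc (A.word j) (B.nrm Φ h d)
        (B.E (Multiplicative.ofAdd u₀) * B.E (Multiplicative.ofAdd u))) =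
      (Real.exp (-∑ w, u₀ w) : ℂ) * ((B.sq (A.word j) : ℂ)⁻¹ *
        ∫ u : InfinitePlace F → ℝ, (∏ w, sym (g w) (A.shift j w) (u w)) *
          ((Real.exp (-∑ w, u w) : ℂ) * B.Tw (A.word j) Φ (u₀ + u) d)) := by
    intro j
    have h3 : ∀ u, wordOp B.pc (A.word j) (B.nrm Φ h d)
        (B.E (Multiplicative.ofAdd u₀) * B.E (Multiplicative.ofAdd u)) =
        (B.sq (A.word j) : ℂ)⁻¹ * ((Real.exp (-∑ w, u₀ w) : ℂ) *
          ((Real.exp (-∑ w, u w) : ℂ) * B.Tw (A.word j) Φ (u₀ + u) d)) := by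
      intro u
      have h4 := congrFun (B.nrm_Tw Φ h d (A.word j))
        (B.E (Multiplicative.ofAdd u₀) * B.E (Multiplicative.ofAdd u))
      rw [nrm_E, Pi.smul_apply, smul_eq_mul] at h4
      rw [h4, inv_mul_cancel_left₀]
      exact Complex.ofReal_ne_zero.mpr (B.sq_pos _).ne'
    rw [← integral_const_mul, ← integral_const_mul]
    congr 1
    funext u
    rw [h3]
    ring
  simp only [h2] at h1
  have h5 : ∀ j, (A.coef j : ℂ) * ((Real.exp (-∑ w, u₀ w) : ℂ) * ((B.sq (A.word j) : ℂ)⁻¹ *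
        ∫ u : InfinitePlace F → ℝ, (∏ w, sym (g w) (A.shift j w) (u w)) *
          ((Real.exp (-∑ w, u w) : ℂ) * B.Tw (A.word j) Φ (u₀ + u) d))) =
      (Real.exp (-∑ w, u₀ w) : ℂ) * ((A.coef j : ℂ) * (B.sq (A.word j) : ℂ)⁻¹ *
        ∫ u : InfinitePlace F → ℝ, (∏ w, sym (g w) (A.shift j w) (u w)) *
          ((Real.exp (-∑ w, u w) : ℂ) * B.Tw (A.word j) Φ (u₀ + u) d)) := fun j => by ring
  simp only [h5, ← Finset.mul_sum] at h1
  exact (mul_eq_zero.mp h1).resolve_left (Complex.ofReal_ne_zero.mpr (Real.exp_pos _).ne')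

end Bdry

end Fermat.Agent.LT.Aleph

end
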