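import Fermat.Agent.LT.Aleph.IdelesFin
import Fermat.Agent.LT.Aleph.Bdry
import Fermat.Agent.LT.IwaVx
import Fermat.Agent.LT.IwaDatum
import Fermat.Agent.LT.Ray

/-!
# The boundary data of the level `D U` (helper36)

* `nbH h 𝔡` : the `q + 1` neighbours, on `Cos H` with `h : H = GLO w` (helper8's `nbv`).
* `upd d v y` : the point `d` with the component at `v` replaced by `y`.
* `rowU v d` : the row of the (unnormalised) Hecke operator `T_v` at a good place.
* `bdry U : Bdry F (D U) {v // Good U v}`, `bdry_ray`.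
-/

set_option autoImplicit false

open Matrix NumberField IsDedekindDomain WithZero
open scoped WithZero

noncomputable section

namespace Fermat.Agent.LT.Aleph

open Lvl Fermat.Agent.CFT.SUnits Iwa

/-! ### Neighbours -/

section Nb

variable {E Γ : Type*} [Field E] [LinearOrderedCommGroupWithZero Γ] {w : Valuation E Γ}
  {H : Subgroup (GL (Fin 2) E)}

/-- the neighbours of a point of `Cos H` -/
def nbH (h : H = GLO w) (𝔡 : Datum w) : Cos H → Finset (Cos H) := by
  subst h
  exact 𝔡.nbv

theorem sum_nbH {A : Type*} [AddCommMonoid A] (h : H = GLO w) (𝔡 : Datum w) (f : Cos H → A)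
    (g : GL (Fin 2) E) : ∑ y ∈ nbH h 𝔡 (Cos.mk H g), f y =
      ∑ b ∈ 𝔡.B, f (Cos.mk H (g * 𝔡.nt 1 b)) + f (Cos.mk H (g * 𝔡.dg)) := by
  subst h
  exact 𝔡.sum_nbv_mk f g

open Classical in
theorem nbH_smul (h : H = GLO w) (𝔡 : Datum w) (γ : GL (Fin 2) E) (x : Cos H) :
    nbH h 𝔡 (γ • x) = (nbH h 𝔡 x).image (γ • ·) := by
  subst h
  exact 𝔡.nbv_smul γ x

theorem sum_nbH_NQ (h : H = GLO w) (𝔡 : Datum w) {A : Type*} [AddCommMonoid A]
    (φ : NQ E (Cos H) → A) (x : Cos H) :
    ∑ y ∈ nbH h 𝔡 x, φ (NQ.mk E y) =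
      𝔡.q • φ (Units.mk0 𝔡.ϖ 𝔡.ϖ_ne • NQ.mk E x) +
        φ ((Units.mk0 𝔡.ϖ 𝔡.ϖ_ne)⁻¹ • NQ.mk E x) := by
  subst h
  have hh : ((𝔡.dg : GL (Fin 2) E) : Matrix (Fin 2) (Fin 2) E) =
      !![1, 0; 0, ((Units.mk0 𝔡.ϖ 𝔡.ϖ_ne : Eˣ) : E)] := rfl
  refine NQ.sum_nbr (B := 𝔡.B) hh (fun f x => ∑ y ∈ 𝔡.nbv x, f y) (fun f g => ?_) φ x
  rw [𝔡.sum_nbv_mk f g]
  congr 1
  refine Finset.sum_congr rfl fun b _ => ?_
  congr 3
  ext i j
  rw [coe_bor]
  show !![𝔡.ϖ ^ 1, b; 0, 1] i j = _
  fin_cases i <;> fin_cases j <;> simp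

end Nb

/-! ### Changing one coordinate -/

section Upd

variable {ι : Type*} {D : ι → Type*} {b : ∀ v, D v}

open Classical in
/-- change one coordinate -/
def upd (x : RProd D b) (v : ι) (y : D v) : RProd D b :=
  ⟨Function.update x.val v y, (x.fin.insert v).subset fun w hw => by
    by_cases h : w = v
    · exact Or.inl h
    · right
      rw [Set.mem_ofPred_eq, Function.update_of_ne h] at hw
      exact hw⟩

@[simp] theorem upd_same (x : RProd D b) (v : ι) (y : D v) : upd x v y v = y := by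
  classical exact Function.update_self v y x.val

theorem upd_ne (x : RProd D b) {v w : ι} (y : D v) (h : w ≠ v) : upd x v y w = x w := by
  classical exact Function.update_of_ne h y x.val

theorem upd_injective (x : RProd D b) (v : ι) : Function.Injective (upd x v) := fun y y' h => by
  rw [← upd_same x v y, h, upd_same]

theorem upd_smul {G : Type*} [Group G] [∀ v, MulAction G (D v)] [RProd.BaseFix b G] (g : G)
    (x : RProd D b) (v : ι) (y : D v) : upd (g • x) v (g • y) = g • upd x v y := by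
  refine RProd.ext' fun w => ?_
  rw [RProd.smul_apply]
  by_cases h : w = v
  · subst h
    rw [upd_same, upd_same]
  · rw [upd_ne _ _ h, upd_ne _ _ h, RProd.smul_apply]

end Upd

/-! ### The Hecke operators on the level -/

section Row

variable {F : Type*} [Field F] [NumberField F] (U : Lev F)

/-- The neighbours of `d` at the good place `v`, local form. -/
def nbU (v : {v // Good U v}) (d : Dv U v.1) : Finset (Dv U v.1) := nbH v.2 (datum v.1) d

open Classical in
/-- The row of the unnormalised Hecke operator `T_v` at `d`. -/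
def rowU (v : {v // Good U v}) (d : D U) : D U →₀ ℂ :=
  ∑ y ∈ nbU U v (d v.1), Finsupp.single (upd d v.1 y) 1

variable {U}

theorem rowU_sum (v : {v // Good U v}) (d : D U) (φ : D U → ℂ) :
    (rowU U v d).sum (fun d' z => z * φ d') = ∑ y ∈ nbU U v (d v.1), φ (upd d v.1 y) := by
  classical
  rw [rowU]
  rw [← Finsupp.sum_finsetSum_index (fun _ => zero_mul _) (fun _ _ _ => add_mul _ _ _)]
  refine Finset.sum_congr rfl fun y _ => ?_
  rw [Finsupp.sum_single_index (zero_mul _), one_mul]

theorem nbU_smul (v : {v // Good U v}) (g : GL (Fin 2) F) (x : Dv U v.1) [DecidableEq (Dv U v.1)] :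
    nbU U v (g • x) = (nbU U v x).image (g • ·) := by
  have := nbH_smul v.2 (datum v.1) (gmap v.1 g) x
  rw [nbU, smulF_def, this]
  ext y
  simp only [Finset.mem_image]
  rfl

theorem rowU_smul (v : {v // Good U v}) (g : GL (Fin 2) F) (d : D U) :
    rowU U v (g • d) = (rowU U v d).mapDomain (g • ·) := by
  classical
  rw [rowU, rowU, Finsupp.mapDomain_finsetSum, RProd.smul_apply, nbU_smul,
    Finset.sum_image fun y _ y' _ h => MulAction.injective g h]
  refine Finset.sum_congr rfl fun y _ => ?_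
  rw [Finsupp.mapDomain_single, upd_smul]

/-- The uniformizer at `v` as an element of `C₀`. -/
def pC (U : Lev F) (v : HeightOneSpectrum (𝓞 F)) : C0 U :=
  sgl v (C0v.mk U v (Units.mk0 (datum v).ϖ (datum v).ϖ_ne))

theorem ordC_datum (v : HeightOneSpectrum (𝓞 F)) :
    ordC U v (C0v.mk U v (Units.mk0 (datum v).ϖ (datum v).ϖ_ne)) = Multiplicative.ofAdd 1 := by
  rw [ordC_mk]
  show Multiplicative.ofAdd (-(log (val v (datum v).ϖ))) = _
  rw [val_datum_ϖ, log_exp, neg_neg]

theorem nmC_pC (v : HeightOneSpectrum (𝓞 F)) :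
    nmC U (pC U v) = ((Ideal.absNorm v.asIdeal : ℕ) : ℝ)⁻¹ := by
  have h : divC U (pC U v) = Multiplicative.ofAdd (Finsupp.single v 1) := by
    apply Multiplicative.toAdd.injective
    rw [pC, divC_sgl, ordC_datum]
    rfl
  show nmD (divC U (pC U v)) = _
  rw [h]
  show (Finsupp.single v (1 : ℤ)).prod (fun v n => ((Ideal.absNorm v.asIdeal : ℝ)) ^ (-n)) = _
  rw [Finsupp.prod_single_index (by rw [neg_zero, zpow_zero]), _root_.zpow_neg_one]

theorem pC_smul_apply (v : HeightOneSpectrum (𝓞 F)) (x : ND U) :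
    pC U v • x = upd x v (Units.mk0 (datum v).ϖ (datum v).ϖ_ne • x v) := by
  refine RProd.ext' fun w => ?_
  rw [C0_smul_apply]
  by_cases h : w = v
  · subst h
    rw [pC, sgl_same, upd_same, C0v.mk_smul]
  · rw [pC, sgl_ne h, upd_ne _ _ h, one_smul]

theorem pC_inv_smul_apply (v : HeightOneSpectrum (𝓞 F)) (x : ND U) :
    (pC U v)⁻¹ • x = upd x v ((Units.mk0 (datum v).ϖ (datum v).ϖ_ne)⁻¹ • x v) := by
  refine RProd.ext' fun w => ?_
  rw [pC, ← map_inv, ← map_inv, C0_smul_apply]
  by_cases h : w = v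
  · subst h
    rw [sgl_same, upd_same, C0v.mk_smul]
  · rw [sgl_ne h, upd_ne _ _ h, one_smul]

theorem pr_upd (d : D U) (v : HeightOneSpectrum (𝓞 F)) (y : Dv U v) :
    pr U (upd d v y) = upd (pr U d) v (NQ.mk (v.adicCompletion F) y) := by
  refine RProd.ext' fun w => ?_
  rw [pr_apply]
  by_cases h : w = v
  · subst h
    rw [upd_same, upd_same]
  · rw [upd_ne _ _ h, upd_ne _ _ h, pr_apply]

/-- **The Hecke operator on `N(𝔸_f) \ D`.** -/
theorem rowU_sum_pr (v : {v // Good U v}) (d : D U) (φ : ND U → ℂ) :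
    (rowU U v d).sum (fun d' z => z * φ (pr U d')) =
      (Ideal.absNorm v.1.asIdeal : ℂ) * φ (pC U v.1 • pr U d) +
        φ ((pC U v.1)⁻¹ • pr U d) := by
  rw [rowU_sum]
  simp only [pr_upd]
  rw [nbU, sum_nbH_NQ v.2 (datum v.1) (fun y => φ (upd (pr U d) v.1 y)) (d v.1), q_datum,
    nsmul_eq_mul, pC_smul_apply, pC_inv_smul_apply, pr_apply]

/-! ### Representatives of the orbits -/

open Classical in
variable (U) in
/-- A representative of the `N(𝔸_f)`-orbit of `c • d`. -/
def orb (d : D U) (c : C0 U) : D U :=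
  if c = 1 then d else Function.surjInv (pr_surjective U) (c • pr U d)

theorem orb_one (d : D U) : orb U d 1 = d := by
  rw [orb, if_pos rfl]

theorem pr_orb (d : D U) (c : C0 U) : pr U (orb U d c) = c • pr U d := by
  rw [orb]
  split_ifs with h
  · rw [h, one_smul]
  · exact Function.surjInv_eq _ _

end Row

section Main

variable {F : Type} [Field F]

theorem nb_eq_un (b : F) : nb b = un b := by
  ext i j
  rw [coe_nb, coe_bor]
  fin_cases i <;> fin_cases j <;> simp

theorem aF_eq_dg (a : Fˣ) : aF a = dg a := by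
  ext i j
  rw [coe_bor]
  fin_cases i <;> fin_cases j <;> simp [aF]

variable [NumberField F] (U : Lev F)

/-- **The boundary data of `D U`.** -/
def bdry [IsTotallyComplex F] : Bdry F (D U) {v // Good U v} where
  C0 := C0 U
  inst := inferInstance
  i0 := i0 U
  fin := finiteIndex_i0 U
  nm := nmC U
  nm_pos := nmC_pos U
  nm_i0 := nmC_i0 U
  p v := pC U v.1
  q v := Ideal.absNorm v.1.asIdeal
  q_pos v := by
    exact_mod_cast Nat.pos_of_ne_zero
      ((Ideal.absNorm_ne_zero_iff _).mpr (Ideal.finiteQuotientOfFreeOfNeBot _ v.1.ne_bot))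
  nm_p v := nmC_pC v.1
  row := rowU U
  row_smul := rowU_smul
  orb := orb U
  orb_one := orb_one
  orb_i0 d c a := by
    have h : pr U (orb U d (i0 U a * c)) = pr U (dg a • orb U d c) := by
      rw [pr_orb, mul_smul, ← pr_orb, i0_smul_pr]
    obtain ⟨b, hb⟩ := pr_eq_iff.mp h
    refine ⟨b, ?_⟩
    rw [nb_eq_un, aF_eq_dg, hb]
  row_orb φ hφ v d c := by
    have hφ' : ∀ e e' : D U, pr U e = pr U e' → φ e = φ e' := by
      intro e e' h
      obtain ⟨b, rfl⟩ := pr_eq_iff.mp h
      rw [← nb_eq_un, hφ]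
    set ψ : ND U → ℂ := fun x => φ (Function.surjInv (pr_surjective U) x) with hψ
    have h1 : ∀ e, φ e = ψ (pr U e) := fun e =>
      hφ' _ _ (Function.surjInv_eq (pr_surjective U) _).symm
    simp only [h1]
    rw [rowU_sum_pr, pr_orb, pr_orb, pr_orb, mul_smul, mul_smul]
    simp

/-- **The ray property** (hypothesis `hray` of helper12's `Bdry.exists_ne`). -/
theorem pC_ray : ∃ (S : Finset (HeightOneSpectrum (𝓞 F))) (n : ℕ), ∀ a : Fˣ,
    (∀ v ∈ S, a ∈ CFT.Global.cong v n) →
      (rayVal S (fun v => Additive.ofMul (pC U v)) a).toAdd = Additive.ofMul (i0 U a) := by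
  classical
  set S : Finset (HeightOneSpectrum (𝓞 F)) := (finite_not_good U).toFinset with hS
  choose n hn using fun v => exists_cong_mem_VF U v
  refine ⟨S, S.sup n, fun a ha => ?_⟩
  rw [toAdd_rayVal]
  have h1 : ∀ w : HeightOneSpectrum (𝓞 F),
      ((Additive.toMul ((div a).sum fun v m => if v ∈ S then 0 else
        m • Additive.ofMul (pC U v)) : C0 U) : ∀ v, C0v U v) w =
      (i0 U a : ∀ v, C0v U v) w := by
    intro w
    set ev : C0 U →* C0v U w := (Pi.evalMonoidHom _ w).comp (C0 U).subtype with hev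
    have h2 : ((Additive.toMul ((div a).sum fun v m => if v ∈ S then 0 else
        m • Additive.ofMul (pC U v)) : C0 U) : ∀ v, C0v U v) w =
        (MonoidHom.toAdditive ev ((div a).sum fun v m => if v ∈ S then 0 else
          m • Additive.ofMul (pC U v))).toMul := rfl
    rw [h2, map_finsuppSum]
    rw [Finsupp.sum, Finset.sum_eq_single w]
    · by_cases hw : w ∈ S
      · rw [if_pos hw, map_zero, toMul_zero, i0_apply, eq_comm, C0v.mk_eq_one_iff]
        apply hn
        have h3 := CFT.Global.mem_cong.mp (ha w hw)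
        rw [Units.coe_map, MonoidHom.coe_coe, ← map_one (algebraMap F (w.adicCompletion F)),
          ← map_sub]
        refine (Loc.v_ι w _).trans_le (h3.trans ?_)
        rw [exp_le_exp]
        have := Finset.le_sup (f := n) hw
        omega
      · rw [if_neg hw, map_zsmul, toMul_zsmul]
        show ((pC U w : ∀ v, C0v U v) w) ^ (div a w) = _
        have hg : Good U w := by
          by_contra h
          exact hw (by rw [hS, Set.Finite.mem_toFinset]; exact h)
        rw [← mul_inv_eq_one]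
        apply eq_one_of_good hg
        rw [map_mul, map_zpow, map_inv, pC, sgl_same, ordC_datum, i0_apply, ordC_mk]
        apply Multiplicative.toAdd.injective
        rw [toAdd_mul, toAdd_inv, ordv_uv, toAdd_zpow]
        simp
    · intro v _ hv
      by_cases hvS : v ∈ S
      · rw [if_pos hvS, map_zero]
      · rw [if_neg hvS, map_zsmul]
        have : (MonoidHom.toAdditive ev) (Additive.ofMul (pC U v)) = 0 := by
          show Additive.ofMul ((pC U v : ∀ v, C0v U v) w) = 0
          rw [pC, sgl_ne hv.symm]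
          rfl
        rw [this, smul_zero]
    · intro hw
      rw [Finsupp.notMem_support_iff] at hw
      rw [hw, zero_smul, ite_self, map_zero]
  exact congrArg Additive.ofMul (C0_ext h1)

/-- the class of a good place -/
theorem bdry_p [IsTotallyComplex F] (v : {v // Good U v}) : (bdry U).p v = pC U v.1 := rfl

end Main

end Fermat.Agent.LT.Aleph

end
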