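import Fermat.Agent.LT.Aleph.NVBdry
import Fermat.Agent.LT.Aleph.Adelic
import Fermat.Agent.LT.Steps

/-!
# Existence of the data of the operator killing the constant terms, for the tower

`exists_data_L`, `exists_data_K`: for any boundary `B` over `L`, resp. `K`, with values `y v`
equal to the values `x w` of the tower at the places of degree one.
-/

set_option autoImplicit false

open NumberField IsDedekindDomain
open Fermat.Agent.CFT.Global (cong locPow)

namespace Fermat.Agent.LT.Aleph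

/-- places of prime norm are of degree one over any subfield -/
lemma deg1_of_prime {K L : Type} [Field K] [NumberField K] [Field L] [NumberField L] [Algebra K L]
    {w : HeightOneSpectrum (𝓞 L)} (h : (Ideal.absNorm w.asIdeal).Prime) : Deg1 (K := K) w := by
  have h1 := Ideal.absNorm_eq_pow_inertiaDeg'_of_liesOver (P := w.asIdeal)
    (p := (w.under (𝓞 K)).asIdeal) (w.under (𝓞 K)).isPrime (w.under (𝓞 K)).ne_bot
  rw [(NV.absNorm_under (K := K) h).2, pow_one] at h1
  exact h1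

namespace Bdry

/-- The general form of the existence of the data (real values). -/
theorem exists_data' {F : Type} [Field F] [NumberField F] {D V : Type}
    [MulAction (GL (Fin 2) F) D] (B : Bdry F D V) (y : V → ℝ)
    (hx : ∀ χ : B.C →* ℂˣ, (∀ t, χ (B.E t) = 1) →
      ∃ v, (y v : ℂ) ≠ (χ (B.pc v) : ℂ) + (χ (B.pc v) : ℂ)⁻¹) :
    Nonempty (Data B.E B.pc fun v => (y v : ℂ)) := by
  refine exists_data B.E B.pc B.finiteIndex_E _ (fun v => Complex.conj_ofReal _) fun χ hχ => ?_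
  obtain ⟨v, hv⟩ := hx χ hχ
  exact ⟨v, by rwa [Units.val_inv_eq_inv_val]⟩

variable {ρ : (AlgebraicClosure ℚ ≃ₐ[ℚ] AlgebraicClosure ℚ) →*
  Matrix.GeneralLinearGroup (Fin 2) (ZMod 3)} {T : Tower.TowerFields ρ} {N : ℕ}
  {x : HeightOneSpectrum (𝓞 T.L) → ℝ}

/-- **Existence of the data over `L`.** -/
theorem exists_data_L (h : TSys T N x) {D : Type} [MulAction (GL (Fin 2) T.L) D] {V : Type}
    (B : Bdry T.L D V) (p0 : HeightOneSpectrum (𝓞 T.L) → B.C0)
    (hray : ∃ (S : Finset (HeightOneSpectrum (𝓞 T.L))) (n : ℕ), ∀ a : T.Lˣ,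
      (∀ v ∈ S, a ∈ cong v n) →
      (rayVal S (fun v => Additive.ofMul (p0 v)) a).toAdd = Additive.ofMul (B.i0 a))
    {k : ℕ} (hk : k ≠ 0) (y : V → ℝ)
    (hy : ∀ w : HeightOneSpectrum (𝓞 T.L), (Ideal.absNorm w.asIdeal).Prime →
      (k : 𝓞 T.L) ∉ w.asIdeal → ∃ v : V, B.p v = p0 w ∧ y v = x w) :
    Nonempty (Data B.E B.pc fun v => (y v : ℂ)) := by
  refine B.exists_data' y fun χ hχ => ?_
  refine B.exists_ne p0 hray T.a_ne T.b_ne T.ab_ne (mul_ne_zero hk h.N_ne) (fun w h1 h2 => ?_) χ hχ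
  have hkw : (k : 𝓞 T.L) ∉ w.asIdeal := fun h3 => h2 (by
    push_cast
    exact Ideal.mul_mem_right _ _ h3)
  have hNw : w ∉ bad T.L N := fun h3 => h2 (by
    push_cast
    exact Ideal.mul_mem_left _ _ h3)
  obtain ⟨v, hv, hv'⟩ := hy w h1 hkw
  refine ⟨v, hv, ?_⟩
  rw [hv']
  rcases h.val w hNw with h4 | h4
  · left
    exact ⟨by rw [h4.1, Complex.ofReal_zero], h4.2⟩
  · right
    refine ⟨?_, h4.2⟩
    rcases h4.1 with h5 | h5
    · left
      rw [h5]
      norm_num
    · right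
      rw [h5]
      norm_num

/-- **Existence of the data over `K`.** -/
theorem exists_data_K (h : TSys T N x) {D : Type} [MulAction (GL (Fin 2) T.K) D] {V : Type}
    (B : Bdry T.K D V) (p0 : HeightOneSpectrum (𝓞 T.K) → B.C0)
    (hray : ∃ (S : Finset (HeightOneSpectrum (𝓞 T.K))) (n : ℕ), ∀ a : T.Kˣ,
      (∀ v ∈ S, a ∈ cong v n) →
      (rayVal S (fun v => Additive.ofMul (p0 v)) a).toAdd = Additive.ofMul (B.i0 a))
    {k : ℕ} (hk : k ≠ 0) (y : V → ℝ)
    (hy : ∀ w : HeightOneSpectrum (𝓞 T.L), (Ideal.absNorm w.asIdeal).Prime →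
      (k : 𝓞 T.L) ∉ w.asIdeal → Deg1 (K := T.K) w →
      ∃ v : V, B.p v = p0 (w.under (𝓞 T.K)) ∧ y v = x w) :
    Nonempty (Data B.E B.pc fun v => (y v : ℂ)) := by
  refine B.exists_data' y fun χ hχ => ?_
  refine B.exists_ne_base p0 hray T.a_ne T.b_ne T.ab_ne (mul_ne_zero hk h.N_ne)
    (fun w h1 h2 _ _ _ => ?_) χ hχ
  have hkw : (k : 𝓞 T.L) ∉ w.asIdeal := fun h3 => h2 (by
    push_cast
    exact Ideal.mul_mem_right _ _ h3)
  have hNw : w ∉ bad T.L N := fun h3 => h2 (by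
    push_cast
    exact Ideal.mul_mem_left _ _ h3)
  obtain ⟨v, hv, hv'⟩ := hy w h1 hkw (deg1_of_prime h1)
  refine ⟨v, hv, ?_⟩
  rw [hv']
  rcases h.val w hNw with h4 | h4
  · left
    exact ⟨by rw [h4.1, Complex.ofReal_zero], h4.2⟩
  · right
    refine ⟨?_, h4.2⟩
    rcases h4.1 with h5 | h5
    · left
      rw [h5]
      norm_num
    · right
      rw [h5]
      norm_num

end Bdry

end Fermat.Agent.LT.Aleph
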