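import Fermat.Agent.LT.Aleph.Kill
import Fermat.Agent.LT.H3.RealKer

/-!
# The radial kernels of the operator killing the constant terms (helper70)

`symKer h t = ofAbel (sym h t)`: the radial kernel whose Abel transform is the symmetrised shift of
the even function `h`. Real if `h` is real; `sph ν (symKer h t) = cosh (ν t) · lap ν h`.
-/

set_option autoImplicit false

open MeasureTheory Set Real
open scoped ContDiff
open Fermat.Agent.LT.H3

namespace Fermat.Agent.LT.Aleph

/-- the radial kernel with Abel transform `sym h t` -/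
noncomputable def symKer (h : ℝ → ℂ) (t : ℝ) : ℝ → ℂ := ofAbel (sym h t)

/-- the test functions: smooth, even, real with compact support -/
structure IsTest (h : ℝ → ℂ) : Prop where
  smooth : ContDiff ℝ ∞ h
  supp : HasCompactSupport h
  even : ∀ r, h (-r) = h r
  real : ∀ r, starRingEnd ℂ (h r) = h r

theorem exists_isTest {ε : ℝ} (hε : 0 < ε) : ∃ h : ℝ → ℂ, IsTest h ∧ (∫ r, h r = 1) ∧
    (∀ r, 0 ≤ (h r).re) ∧ ∀ r, ε ≤ |r| → h r = 0 := by
  obtain ⟨h, h1, h2, h3, h4, h5, h6, h7⟩ := exists_even_bump hε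
  exact ⟨h, ⟨h1, h2, h3, h4⟩, h6, h5, h7⟩

namespace IsTest

variable {h : ℝ → ℂ} (hh : IsTest h)

include hh

theorem contDiff_sym (t : ℝ) : ContDiff ℝ ∞ (sym h t) := Aleph.contDiff_sym hh.smooth t

theorem contDiff_sym_two (t : ℝ) : ContDiff ℝ 2 (sym h t) :=
  contDiff_infty.mp (hh.contDiff_sym t) 2

theorem sym_neg (t u : ℝ) : sym h t (-u) = sym h t u := Aleph.sym_even hh.even t u

theorem hasCompactSupport_sym (t : ℝ) : HasCompactSupport (sym h t) :=
  Aleph.hasCompactSupport_sym hh.supp t

theorem conj_sym (t u : ℝ) : starRingEnd ℂ (sym h t u) = sym h t u := by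
  rw [sym, map_div₀, map_add, hh.real, hh.real, map_ofNat]

theorem isTest_sym (t : ℝ) : IsTest (sym h t) :=
  ⟨hh.contDiff_sym t, hh.hasCompactSupport_sym t, hh.sym_neg t, hh.conj_sym t⟩

theorem continuous : Continuous h := hh.smooth.continuous

theorem integrable : Integrable h := hh.continuous.integrable_of_hasCompactSupport hh.supp

theorem isKer (t : ℝ) : IsKer (symKer h t) :=
  isKer_ofAbel (hh.contDiff_sym_two t) (hh.sym_neg t) (hh.hasCompactSupport_sym t)

theorem abel_symKer (t : ℝ) : abel (symKer h t) = sym h t :=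
  abel_ofAbel' (hh.contDiff_sym_two t) (hh.sym_neg t) (hh.hasCompactSupport_sym t)

theorem conj_symKer (t u : ℝ) : starRingEnd ℂ (symKer h t u) = symKer h t u :=
  conj_ofAbel_of_real (hh.conj_sym t) u

theorem im_symKer (t u : ℝ) : (symKer h t u).im = 0 :=
  Complex.conj_eq_iff_im.mp (hh.conj_symKer t u)

/-- the kernel is the complexification of its real part -/
theorem re_symKer (t u : ℝ) : (((symKer h t u).re : ℝ) : ℂ) = symKer h t u :=
  Complex.conj_eq_iff_re.mp (hh.conj_symKer t u)

theorem sph_symKer (ν : ℂ) (t : ℝ) : sph ν (symKer h t) = Complex.cosh (ν * t) * lap ν h := by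
  rw [sph, hh.abel_symKer, lap, lap]
  exact integral_sym_mul_exp ν (lap_integrable hh.continuous hh.supp ν) t

theorem sph_zero_symKer (t : ℝ) : sph 0 (symKer h t) = ∫ u, sym h t u := by
  rw [sph_zero, hh.abel_symKer]

theorem sph_zero_symKer' (t : ℝ) : sph 0 (symKer h t) = ∫ u, h u := by
  rw [hh.sph_zero_symKer, integral_sym hh.integrable]

end IsTest

end Fermat.Agent.LT.Aleph
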