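import Fermat.Agent.LT.Aleph.CTerm
import Fermat.Agent.LT.Aleph.SymKer

/-!
# The operator `R(ℵ)` maps every locally integrable invariant function to a cuspidal function
-/

set_option autoImplicit false

open MeasureTheory NumberField Module Real
open scoped ENNReal Pointwise BigOperators

namespace Fermat.Agent.LT.Aleph

noncomputable section

variable {F : Type} [Field F] [NumberField F] {D V : Type} [MulAction (GL (Fin 2) F) D]

/-- **The operator** `R(ℵ)`. -/
def Ral {B : Bdry F D V} {x : V → ℂ} (A : Data B.E B.pc x) (h : InfinitePlace F → ℝ → ℂ)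
    (f : Xi F × D → ℂ) : Xi F × D → ℂ := fun p =>
  ∑ j, (A.coef j : ℂ) * (B.sq (A.word j) : ℂ)⁻¹ *
    Rz (fun w => symKer (h w) (A.shift j w)) (Tzw B (A.word j) f) p

variable {B : Bdry F D V} {x : V → ℂ} (A : Data B.E B.pc x) {h : InfinitePlace F → ℝ → ℂ}

lemma inv_Ral {f : Xi F × D → ℂ} (hf : Inv f) : Inv (Ral A h f) := by
  intro g x d
  unfold Ral
  exact Finset.sum_congr rfl fun j _ => by rw [inv_Rz _ (inv_Tzw hf _) g x d]

lemma measurable_Ral (hh : ∀ w, IsTest (h w)) {f : Xi F × D → ℂ}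
    (hm : ∀ d, Measurable fun x => f (x, d)) (d : D) : Measurable fun x => Ral A h f (x, d) := by
  unfold Ral
  exact Finset.measurable_sum _ fun j _ =>
    (measurable_Rz (fun w => (hh w).isKer _) (measurable_Tzw hm _) d).const_mul _

variable [IsTotallyComplex F]

/-- The slices of `R(k) f` are integrable. -/
lemma integrableOn_Rz {f : Xi F × D → ℂ} {d : D} (hi : LocallyIntegrable fun x : Xi F => f (x, d))
    (c : F) {k : InfinitePlace F → ℝ → ℂ} (hk : ∀ w, H3.IsKer (k w)) (u : InfinitePlace F → ℝ) :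
    IntegrableOn (fun z => Rz k f (xi (emb F c * z) u, d))
      (ZSpan.fundamentalDomain (embBasis F)) := by
  have h1 := (integrable_joint hi c hk u).integral_prod_left
  simp_rw [Rz_xi]
  exact h1

variable [IsLevel F D]

/-- **All constant terms of `R(ℵ) f` vanish.** -/
theorem ct_Ral (hh : ∀ w, IsTest (h w)) {f : Xi F × D → ℂ} (hf : Inv f)
    (hm : ∀ d, Measurable fun x => f (x, d)) (hi : ∀ d, LocallyIntegrable fun x => f (x, d))
    (u : InfinitePlace F → ℝ) (d : D) : ct (Ral A h f) u d = 0 := by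
  classical
  obtain ⟨c, hc⟩ := exists_goodMod (F := F) d
  rw [ct_eq (inv_Ral A hf) (measurable_Ral A hh hm) hc, ctc]
  unfold Ral
  rw [mn_finsetSum _ _ fun j _ => (integrableOn_Rz (locallyIntegrable_Tzw hi _ d) c
    (fun w => (hh w).isKer _) u).const_mul _]
  have h1 : ∀ j : Fin A.n, mn (fun z => (A.coef j : ℂ) * (B.sq (A.word j) : ℂ)⁻¹ *
      Rz (fun w => symKer (h w) (A.shift j w)) (Tzw B (A.word j) f) (xi (emb F c * z) u, d)) =
      (A.coef j : ℂ) * (B.sq (A.word j) : ℂ)⁻¹ *
        ∫ v : InfinitePlace F → ℝ, (∏ w, sym (h w) (A.shift j w) (v w)) *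
          ((exp (-∑ w, v w) : ℂ) * B.Tw (A.word j) (ct f) (u + v) d) := by
    intro j
    rw [mn_const_mul]
    congr 1
    have h2 := ct_Rz (inv_Tzw (B := B) hf (A.word j)) (measurable_Tzw hm (A.word j))
      (locallyIntegrable_Tzw hi (A.word j)) (k := fun w => symKer (h w) (A.shift j w))
      (fun w => (hh w).isKer _) u d
    rw [ct_eq (inv_Rz _ (inv_Tzw hf _)) (measurable_Rz (fun w => (hh w).isKer _)
      (measurable_Tzw hm _)) hc, ctc] at h2
    rw [h2]
    simp_rw [(hh _).abel_symKer]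
    have h3 := ct_Tzw (B := B) hf hm hi (A.word j) d
    have h4 := (measurePreserving_add_left (volume : Measure (InfinitePlace F → ℝ)) u).quasiMeasurePreserving.ae h3
    refine integral_congr_ae ?_
    filter_upwards [h4] with v hv
    rw [hv]
  simp_rw [h1]
  exact B.kill A (isCT_ct hf hm) (locallyIntegrable_ct hf hm hi)
    (fun w => (hh w).continuous) (fun w => (hh w).supp) u d

/-- Vanishing of the constant terms implies cuspidality. -/
theorem isCusp_of_ct {f : Xi F × D → ℂ} (hf : Inv f) (hm : ∀ d, Measurable fun x => f (x, d))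
    (h0 : ∀ u d, ct f u d = 0) : IsCusp f := by
  intro d m hm0 hfix
  refine Filter.Eventually.of_forall fun y hy => ?_
  have hg : GoodMod (m : F) d := ⟨by exact_mod_cast hm0, hfix⟩
  have h1 := h0 (fun w => log (y w)) d
  rw [ct_eq hf hm hg, ctc, mn] at h1
  have h2 := (mul_eq_zero.mp h1).resolve_left (inv_ne_zero (vol_ne_zero F))
  have hm1 : (0 : ℝ) < m := by exact_mod_cast Nat.pos_of_ne_zero hm0
  have h3 := Measure.setIntegral_comp_smul (volume : Measure (InfinitePlace F → ℂ))
    (fun z => f (pt z y, d)) (ZSpan.fundamentalDomain (embBasis F)) hm1.ne'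
  have h4 : ∀ z : InfinitePlace F → ℂ, xi (emb F (m : F) * z) (fun w => log (y w)) =
      pt ((m : ℝ) • z) y := by
    intro z
    rw [xi_eq_pt]
    congr 1
    · rw [map_natCast]
      funext w
      simp
    · funext w
      exact exp_log (hy w)
  simp_rw [h4] at h2
  rw [h2] at h3
  have h5 : |((m : ℝ) ^ finrank ℝ (InfinitePlace F → ℂ))⁻¹| ≠ 0 :=
    abs_ne_zero.mpr (inv_ne_zero (pow_ne_zero _ hm1.ne'))
  exact (smul_eq_zero.mp h3.symm).resolve_left h5

/-- **`R(ℵ)` maps into the cuspidal functions.** -/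
theorem isCusp_Ral (hh : ∀ w, IsTest (h w)) {f : Xi F × D → ℂ} (hf : Inv f)
    (hm : ∀ d, Measurable fun x => f (x, d)) (hi : ∀ d, LocallyIntegrable fun x => f (x, d)) :
    IsCusp (Ral A h f) :=
  isCusp_of_ct (inv_Ral A hf) (measurable_Ral A hh hm) (ct_Ral A hh hf hm hi)

end

end Fermat.Agent.LT.Aleph
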