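import Fermat.Agent.LT.Aleph.NVGlue
import Fermat.Agent.LT.Aleph.Bdry

/-!
# Non-vanishing of aleph: the hypothesis of `exists_data` on `Bdry`
-/

set_option autoImplicit false

namespace Fermat.Agent.LT.Aleph

open IsDedekindDomain NumberField
open Fermat.Agent.CFT.Global (cong locPow)

namespace Bdry

section

variable {F : Type} [Field F] [NumberField F] {D : Type} [MulAction (GL (Fin 2) F) D]
  {V : Type} (B : Bdry F D V)

/-- the finite part of a character of the group of the boundary -/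
noncomputable def finChar (χ : B.C →* ℂˣ) : B.C0 →* ℂˣ :=
  χ.comp ((QuotientGroup.mk' B.dia.range).comp (MonoidHom.inr _ _))

lemma finChar_p (χ : B.C →* ℂˣ) (v : V) : B.finChar χ (B.p v) = χ (B.pc v) := rfl

lemma finChar_i0 {χ : B.C →* ℂˣ} (hχ : ∀ t, χ (B.E t) = 1) (a : Fˣ) :
    B.finChar χ (B.i0 a) = 1 := by
  have h1 : QuotientGroup.mk' B.dia.range (B.dia a) = 1 :=
    (QuotientGroup.eq_one_iff _).mpr ⟨a, rfl⟩
  have h2 : B.dia a = (Multiplicative.ofAdd (lg a), 1) * (1, B.i0 a) := by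
    ext1
    · simp [dia]
    · simp [dia]
  have h3 : χ (QuotientGroup.mk' B.dia.range (B.dia a)) = 1 := by rw [h1, map_one]
  rw [h2, map_mul, map_mul] at h3
  have h4 : χ (QuotientGroup.mk' B.dia.range (Multiplicative.ofAdd (lg a), 1)) = 1 :=
    hχ (Multiplicative.ofAdd (lg a))
  rw [h4, one_mul] at h3
  exact h3

end

section L

variable {L : Type} [Field L] [NumberField L] [IsTotallyComplex L]

/-- **The hypothesis `hx` of `exists_data` over `L`.** -/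
theorem exists_ne {D : Type} [MulAction (GL (Fin 2) L) D] {V : Type} (B : Bdry L D V)
    (p0 : HeightOneSpectrum (𝓞 L) → B.C0)
    (hray : ∃ (S : Finset (HeightOneSpectrum (𝓞 L))) (n : ℕ), ∀ a : Lˣ, (∀ v ∈ S, a ∈ cong v n) →
      (rayVal S (fun v => Additive.ofMul (p0 v)) a).toAdd = Additive.ofMul (B.i0 a))
    {a b : Lˣ} (hna : ∀ c : Lˣ, c ^ 2 ≠ a) (hnb : ∀ c : Lˣ, c ^ 2 ≠ b)
    (hnab : ∀ c : Lˣ, c ^ 2 ≠ a * b) {k : ℕ} (hk : k ≠ 0) {x : V → ℂ}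
    (hx : ∀ v : HeightOneSpectrum (𝓞 L), (Ideal.absNorm v.asIdeal).Prime →
      (k : 𝓞 L) ∉ v.asIdeal → ∃ v' : V, B.p v' = p0 v ∧
        ((x v' = 0 ∧ ¬ (a ∈ locPow 2 v ∧ b ∈ locPow 2 v)) ∨
        ((x v' = 2 ∨ x v' = -2) ∧ a ∈ locPow 2 v ∧ b ∈ locPow 2 v)))
    (χ : B.C →* ℂˣ) (hχ : ∀ t, χ (B.E t) = 1) :
    ∃ v : V, x v ≠ (χ (B.pc v) : ℂ) + (χ (B.pc v) : ℂ)⁻¹ := by
  classical
  have hne : Nonempty V := by
    obtain ⟨v, h1, h2, -⟩ := NV.exists_ne_of_hom B.i0 p0 hray hna hnb hnab hk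
      (x := fun v => if a ∈ locPow 2 v ∧ b ∈ locPow 2 v then 2 else 0)
      (fun v _ _ => by
        by_cases h : a ∈ locPow 2 v ∧ b ∈ locPow 2 v
        · exact Or.inr ⟨Or.inl (if_pos h), h⟩
        · exact Or.inl ⟨if_neg h, h⟩) (B.finChar χ) (B.finChar_i0 hχ)
    exact ⟨(hx v h1 h2).choose⟩
  choose! f hf using hx
  obtain ⟨v, h1, h2, h3⟩ := NV.exists_ne_of_hom B.i0 p0 hray hna hnb hnab hk (x := fun v => x (f v))
    (fun v h1 h2 => (hf v h1 h2).2) (B.finChar χ) (B.finChar_i0 hχ)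
  refine ⟨f v, ?_⟩
  rw [← B.finChar_p, (hf v h1 h2).1]
  exact h3

/-- **The hypothesis `hx` of `exists_data` over `K`**, `L/K` Galois. -/
theorem exists_ne_base {K : Type} [Field K] [NumberField K] [Algebra K L] [IsGalois K L]
    {D : Type} [MulAction (GL (Fin 2) K) D] {V : Type} (B : Bdry K D V)
    (p0 : HeightOneSpectrum (𝓞 K) → B.C0)
    (hray : ∃ (S : Finset (HeightOneSpectrum (𝓞 K))) (n : ℕ), ∀ a : Kˣ, (∀ v ∈ S, a ∈ cong v n) →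
      (rayVal S (fun v => Additive.ofMul (p0 v)) a).toAdd = Additive.ofMul (B.i0 a))
    {a b : Lˣ} (hna : ∀ c : Lˣ, c ^ 2 ≠ a) (hnb : ∀ c : Lˣ, c ^ 2 ≠ b)
    (hnab : ∀ c : Lˣ, c ^ 2 ≠ a * b) {k : ℕ} (hk : k ≠ 0) {x : V → ℂ}
    (hx : ∀ w : HeightOneSpectrum (𝓞 L), (Ideal.absNorm w.asIdeal).Prime →
      (k : 𝓞 L) ∉ w.asIdeal → (Ideal.absNorm (w.under (𝓞 K)).asIdeal).Prime →
      (k : 𝓞 K) ∉ (w.under (𝓞 K)).asIdeal → NV.fdeg K w = 1 →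
      ∃ v' : V, B.p v' = p0 (w.under (𝓞 K)) ∧
        ((x v' = 0 ∧ ¬ (a ∈ locPow 2 w ∧ b ∈ locPow 2 w)) ∨
        ((x v' = 2 ∨ x v' = -2) ∧ a ∈ locPow 2 w ∧ b ∈ locPow 2 w)))
    (χ : B.C →* ℂˣ) (hχ : ∀ t, χ (B.E t) = 1) :
    ∃ v : V, x v ≠ (χ (B.pc v) : ℂ) + (χ (B.pc v) : ℂ)⁻¹ := by
  classical
  have hx' : ∀ w : HeightOneSpectrum (𝓞 L), (Ideal.absNorm w.asIdeal).Prime →
      (k : 𝓞 L) ∉ w.asIdeal → ∃ v' : V, B.p v' = p0 (w.under (𝓞 K)) ∧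
        ((x v' = 0 ∧ ¬ (a ∈ locPow 2 w ∧ b ∈ locPow 2 w)) ∨
        ((x v' = 2 ∨ x v' = -2) ∧ a ∈ locPow 2 w ∧ b ∈ locPow 2 w)) := fun w h1 h2 =>
    hx w h1 h2 (NV.absNorm_under h1).1 (fun h => h2 (NV.natCast_mem_under.mp h))
      (NV.absNorm_under h1).2
  have hne : Nonempty V := by
    obtain ⟨v, h1, h2, -⟩ := NV.exists_ne_of_hom_base (L := L) B.i0 p0 hray hna hnb hnab hk
      (x := fun v => if a ∈ locPow 2 v ∧ b ∈ locPow 2 v then 2 else 0)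
      (fun v _ _ => by
        by_cases h : a ∈ locPow 2 v ∧ b ∈ locPow 2 v
        · exact Or.inr ⟨Or.inl (if_pos h), h⟩
        · exact Or.inl ⟨if_neg h, h⟩) (B.finChar χ) (B.finChar_i0 hχ)
    exact ⟨(hx' v h1 h2).choose⟩
  choose! f hf using hx'
  obtain ⟨w, h1, h2, -, -, -, h3⟩ := NV.exists_ne_of_hom_base (L := L) B.i0 p0 hray hna hnb hnab hk
    (x := fun w => x (f w)) (fun w h1 h2 => (hf w h1 h2).2) (B.finChar χ) (B.finChar_i0 hχ)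
  refine ⟨f w, ?_⟩
  rw [← B.finChar_p, (hf w h1 h2).1]
  exact h3

end L

end Bdry

end Fermat.Agent.LT.Aleph
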