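import Fermat.Agent.LT.Aleph.Eigen
import Fermat.Agent.LT.Aleph.Main
import Fermat.Agent.LT.Aleph.Adelic
import Fermat.Agent.LT.Aleph.NVBdry
import Fermat.Agent.LT.Nbr

/-!
# Cuspidality of the joint eigenfunctions on `X_∞ × D U`

`bdryS U S`: the boundary of `D U` with the Hecke operators outside `S`. A function with the clauses
`inv`, `cont`, `hecke`, `radial` of `IsForm` whose eigenvalues are not Eisenstein is cuspidal:
`isCusp_of_hecke`.
-/

set_option autoImplicit false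

open scoped BigOperators WithZero
open MeasureTheory NumberField IsDedekindDomain WithZero
open Fermat.Agent.LT.H3

noncomputable section

namespace Fermat.Agent.LT.Aleph

open Lvl Iwa
open Fermat.Agent.CFT.Global (cong locPow)

variable {F : Type} [Field F] [NumberField F]

theorem upd_eq_HKupd {ι : Type*} [DecidableEq ι] {D : ι → Type*} {b : ∀ v, D v} (x : RProd D b)
    (v : ι) (y : D v) : upd x v y = HK.upd x v y := by
  refine RProd.ext' fun w => ?_
  by_cases h : w = v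
  · subst h
    rw [upd_same, HK.upd_self]
  · rw [upd_ne _ _ h, HK.upd_of_ne _ _ h]

section

variable [IsTotallyComplex F]

/-- The boundary of `D U` with the Hecke operators at the places outside `S`. -/
def bdryS (U : Lev F) (S : Set (HeightOneSpectrum (𝓞 F)))
    (hlev : ∀ v, v ∉ S → U.U v = GLO (Valued.v : Valuation (v.adicCompletion F) ℤᵐ⁰)) :
    Bdry F (D U) {v : HeightOneSpectrum (𝓞 F) // v ∉ S} :=
  (bdry U).comap fun v => ⟨v.1, hlev v.1 v.2⟩

variable {U : Lev F} {S : Set (HeightOneSpectrum (𝓞 F))}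
  {hlev : ∀ v, v ∉ S → U.U v = GLO (Valued.v : Valuation (v.adicCompletion F) ℤᵐ⁰)}

theorem bdryS_q (v : {v : HeightOneSpectrum (𝓞 F) // v ∉ S}) :
    (bdryS U S hlev).q v = Ideal.absNorm v.1.asIdeal := rfl

theorem bdryS_p (v : {v : HeightOneSpectrum (𝓞 F) // v ∉ S}) :
    (bdryS U S hlev).p v = pC U v.1 := rfl

theorem bdryS_i0 : (bdryS U S hlev).i0 = i0 U := rfl

/-- The row sum at a good place is the sum over the neighbours. -/
theorem rowU_sum_nbr (v : {v // Good U v}) (d : D U) (φ : D U → ℂ) :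
    (rowU U v d).sum (fun d' z => z * φ d') = ∑ᶠ (d' : D U) (_ : Nbr U v.1 d d'), φ d' := by
  classical
  rw [rowU_sum]
  obtain ⟨g, hg⟩ := QuotientGroup.mk_surjective (d v.1)
  have hg' : d v.1 = Cos.mk (U.U v.1) g := hg.symm
  rw [finsum_nbr v.2 (datum v.1) hg', nbU, hg', sum_nbH v.2 (datum v.1)]
  simp only [upd_eq_HKupd]

theorem Tz_bdryS (f : Xi F × D U → ℂ) (v : {v : HeightOneSpectrum (𝓞 F) // v ∉ S})
    (z : Xi F × D U) : Tz (bdryS U S hlev) v f z =
      ∑ᶠ (d' : D U) (_ : Nbr U v.1 z.2 d'), f (z.1, d') :=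
  rowU_sum_nbr ⟨v.1, hlev v.1 v.2⟩ z.2 fun d' => f (z.1, d')

/-- `helper48`'s operator is `RA` with the kernels `ker`. -/
theorem Ral_eq_RA {D V : Type} [MulAction (GL (Fin 2) F) D] {B : Bdry F D V} {x : V → ℂ}
    (A : Data B.E B.pc x) (h : InfinitePlace F → ℝ → ℂ) (f : Xi F × D → ℂ) :
    Ral A h f = B.RA A (B.ker A h) f := rfl

omit [NumberField F] in
open Classical in
theorem upd_eq_update (x : Xi F) (w : InfinitePlace F) (P : H3) :
    x.upd w P = (Function.update x w P : InfinitePlace F → H3) := by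
  funext w'
  by_cases h : w' = w
  · subst h
    rw [Function.update_self]
    exact if_pos rfl
  · rw [Function.update_of_ne h]
    exact if_neg h

/-- **Product kernels on a joint eigenfunction**, with the clause `radial` of `IsForm`. -/
theorem integral_pk_form {D : Type} {f : Xi F × D → ℂ} (hcont : ∀ d, Continuous fun x => f (x, d))
    {ν : InfinitePlace F → ℂ}
    (hrad : ∀ (w : InfinitePlace F) (k : ℝ → ℂ), IsKer k → ∀ z : Xi F × D,
      ∫ Q : H3, k (cu (z.1 w) Q) * f (z.1.upd w Q, z.2) = sph (ν w) k * f z)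
    {k : InfinitePlace F → ℝ → ℂ} (hk : ∀ w, IsKer (k w)) (z : Xi F × D) :
    ∫ x' : Xi F, pk k z.1 x' * f (x', z.2) = (∏ w, sph (ν w) (k w)) * f z := by
  classical
  refine integral_pk_eq (ι := InfinitePlace F) (k := k) hk
    (f := fun x' : InfinitePlace F → H3 => f ((x' : Xi F), z.2)) (hcont z.2)
    (lam := fun w => sph (ν w) (k w)) (fun w x => ?_) z.1
  have h1 := hrad w (k w) (hk w) ((x : Xi F), z.2)
  simp only [upd_eq_update] at h1
  convert! h1 using 6

/-- **The operator `R(ℵ)` acts on a joint eigenfunction by a non-zero number.** -/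
theorem exists_Ral_eq {D V : Type} [MulAction (GL (Fin 2) F) D] {B : Bdry F D V} {x : V → ℂ}
    (A : Data B.E B.pc x) {h : InfinitePlace F → ℝ → ℂ} (hh : ∀ w, IsTest (h w))
    (h0 : ∀ w, ∫ u, h w u ≠ 0) {f : Xi F × D → ℂ} (hcont : ∀ d, Continuous fun x => f (x, d))
    (hT : ∀ v p, Tz B v f p = ((Real.sqrt (B.q v) : ℝ) : ℂ) * x v * f p)
    (hrad : ∀ (w : InfinitePlace F) (k : ℝ → ℂ), IsKer k → ∀ z : Xi F × D,
      ∫ Q : H3, k (cu (z.1 w) Q) * f (z.1.upd w Q, z.2) = sph 0 k * f z) :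
    ∃ c : ℂ, c ≠ 0 ∧ ∀ z, Ral A h f z = c * f z := by
  classical
  refine ⟨B.val A (B.ker A h) 0, B.val_ne_zero A hh h0, fun z => ?_⟩
  rw [Ral_eq_RA]
  refine B.RA_eq A (B.isKer_ker A hh) (ν := 0) hcont hT (fun w k hk x d => ?_) z
  have h1 := hrad w k hk (x, d)
  simp only [upd_eq_update] at h1
  convert! h1 using 6

theorem isCusp_const_mul {D : Type} [MulAction (GL (Fin 2) F) D] {f : Xi F × D → ℂ} (hf : IsCusp f)
    (c : ℂ) : IsCusp fun z => c * f z := by
  intro d m hm hfix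
  filter_upwards [hf d m hm hfix] with y hy hpos
  rw [integral_const_mul, hy hpos, mul_zero]

/-- **Cuspidality of a joint eigenfunction** (one set of data). -/
theorem isCusp_of_data {D V : Type} [MulAction (GL (Fin 2) F) D] [IsLevel F D] {B : Bdry F D V}
    {x : V → ℂ} (A : Data B.E B.pc x) {f : Xi F × D → ℂ}
    (hinv : ∀ (g : GL (Fin 2) F) (z : Xi F × D), f (g • z) = f z)
    (hcont : ∀ d, Continuous fun x => f (x, d))
    (hT : ∀ v p, Tz B v f p = ((Real.sqrt (B.q v) : ℝ) : ℂ) * x v * f p)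
    (hrad : ∀ (w : InfinitePlace F) (k : ℝ → ℂ), IsKer k → ∀ z : Xi F × D,
      ∫ Q : H3, k (cu (z.1 w) Q) * f (z.1.upd w Q, z.2) = sph 0 k * f z) : IsCusp f := by
  obtain ⟨h, hh, h1, -, -⟩ := exists_isTest one_pos
  obtain ⟨c, hc, H⟩ := exists_Ral_eq A (h := fun _ => h) (fun _ => hh)
    (fun _ => by rw [h1]; exact one_ne_zero) hcont hT hrad
  have h2 : f = fun z => c⁻¹ * Ral A (fun _ => h) f z := by
    funext z
    rw [H, inv_mul_cancel_left₀ hc]
  have h3 : IsCusp (Ral A (fun _ => h) f) :=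
    isCusp_Ral A (fun _ => hh) (fun g x d => hinv g (x, d)) (fun d => (hcont d).measurable)
      (fun d => (hcont d).locallyIntegrable)
  rw [h2]
  exact isCusp_const_mul h3 _

/-- The clause `hecke` of `IsForm` in terms of `Tz`. -/
theorem Tz_bdryS_eq {a : HeightOneSpectrum (𝓞 F) → ℝ} {f : Xi F × D U → ℂ}
    (hhecke : ∀ v, v ∉ S → ∀ z : Xi F × D U, ∑ᶠ (d' : D U) (_ : Nbr U v z.2 d'), f (z.1, d') =
      ((√(Ideal.absNorm v.asIdeal) * a v : ℝ) : ℂ) * f z)
    (v : {v : HeightOneSpectrum (𝓞 F) // v ∉ S}) (p : Xi F × D U) :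
    Tz (bdryS U S hlev) v f p =
      ((Real.sqrt ((bdryS U S hlev).q v) : ℝ) : ℂ) * ((a v.1 : ℝ) : ℂ) * f p := by
  rw [Tz_bdryS, hhecke v.1 v.2 p, bdryS_q, Complex.ofReal_mul]

/-- **Cuspidality from the clauses of `IsForm`** and one set of data over `bdryS`. -/
theorem isCusp_of_hecke {a : HeightOneSpectrum (𝓞 F) → ℝ}
    (A : Data (bdryS U S hlev).E (bdryS U S hlev).pc fun v => ((a v.1 : ℝ) : ℂ))
    {f : Xi F × D U → ℂ} (hinv : ∀ (g : GL (Fin 2) F) (z : Xi F × D U), f (g • z) = f z)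
    (hcont : ∀ d, Continuous fun x => f (x, d))
    (hhecke : ∀ v, v ∉ S → ∀ z : Xi F × D U, ∑ᶠ (d' : D U) (_ : Nbr U v z.2 d'), f (z.1, d') =
      ((√(Ideal.absNorm v.asIdeal) * a v : ℝ) : ℂ) * f z)
    (hrad : ∀ (w : InfinitePlace F) (k : ℝ → ℂ), IsKer k → ∀ z : Xi F × D U,
      ∫ Q : H3, k (cu (z.1 w) Q) * f (z.1.upd w Q, z.2) = sph 0 k * f z) : IsCusp f :=
  isCusp_of_data A hinv hcont (Tz_bdryS_eq hhecke) hrad

/-- **Cuspidality from the clauses of `IsForm`** if the system is not Eisenstein. -/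
theorem isCusp_of_ne {a : HeightOneSpectrum (𝓞 F) → ℝ}
    (hx : ∀ χ : (bdryS U S hlev).C →* ℂˣ, (∀ t, χ ((bdryS U S hlev).E t) = 1) →
      ∃ v : {v : HeightOneSpectrum (𝓞 F) // v ∉ S},
        ((a v.1 : ℝ) : ℂ) ≠ χ ((bdryS U S hlev).pc v) + ((χ ((bdryS U S hlev).pc v))⁻¹ : ℂˣ))
    {f : Xi F × D U → ℂ} (hinv : ∀ (g : GL (Fin 2) F) (z : Xi F × D U), f (g • z) = f z)
    (hcont : ∀ d, Continuous fun x => f (x, d))
    (hhecke : ∀ v, v ∉ S → ∀ z : Xi F × D U, ∑ᶠ (d' : D U) (_ : Nbr U v z.2 d'), f (z.1, d') =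
      ((√(Ideal.absNorm v.asIdeal) * a v : ℝ) : ℂ) * f z)
    (hrad : ∀ (w : InfinitePlace F) (k : ℝ → ℂ), IsKer k → ∀ z : Xi F × D U,
      ∫ Q : H3, k (cu (z.1 w) Q) * f (z.1.upd w Q, z.2) = sph 0 k * f z) : IsCusp f := by
  obtain ⟨A⟩ := exists_data (bdryS U S hlev).E (bdryS U S hlev).pc (bdryS U S hlev).finiteIndex_E
    (fun v => ((a v.1 : ℝ) : ℂ)) (fun v => Complex.conj_ofReal _) hx
  exact isCusp_of_hecke A hinv hcont hhecke hrad

end

end Fermat.Agent.LT.Aleph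

end
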