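import Fermat.Agent.LT.CT

/-!
# Means of periodic functions

`mn F g` is the mean over `ℂⁿ / 𝓞 F` of a function `g : (InfinitePlace F → ℂ) → ℂ`.
-/

set_option autoImplicit false

open MeasureTheory NumberField Module
open scoped ENNReal Pointwise

namespace Fermat.Agent.LT.Aleph

noncomputable section

section General

variable {E : Type*} [NormedAddCommGroup E] [NormedSpace ℝ E] [MeasurableSpace E] [BorelSpace E]
  {κ : Type*} [Finite κ] (μ : Measure E) [μ.IsAddHaarMeasure] (b : Basis κ ℝ E)

/-- Periodicity with respect to the lattice spanned by a basis. -/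
def IsPer {A : Type*} (b : Basis κ ℝ E) (g : E → A) : Prop :=
  ∀ l ∈ Submodule.span ℤ (Set.range b), ∀ z, g (z + l) = g z

include b in
lemma finiteDimensional_of_basis : FiniteDimensional ℝ E := Module.Finite.of_basis b

lemma translate_fd (t : E) :
    IsAddFundamentalDomain (Submodule.span ℤ (Set.range b)) (t +ᵥ ZSpan.fundamentalDomain b) μ := by
  have := finiteDimensional_of_basis b
  exact (ZSpan.isAddFundamentalDomain b μ).vadd_of_comm t

omit [Finite κ] in
lemma IsPer.vadd {A : Type*} {b : Basis κ ℝ E} {g : E → A} (hg : IsPer b g)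
    (l : Submodule.span ℤ (Set.range b)) (z : E) : g (l +ᵥ z) = g z := by
  have := hg l l.2 z
  rwa [add_comm] at this

omit [NormedSpace ℝ E] [MeasurableSpace E] [BorelSpace E] in
lemma preimage_vadd (t : E) (s : Set E) : (fun x => x + t) ⁻¹' (t +ᵥ s) = s := by
  ext z
  rw [Set.mem_preimage, Set.mem_vadd_set_iff_neg_vadd_mem, vadd_eq_add,
    show -t + (z + t) = z by abel]

theorem IsPer.lintegral_add {b : Basis κ ℝ E} {g : E → ℝ≥0∞} (hg : IsPer b g) (t : E) :
    ∫⁻ z in ZSpan.fundamentalDomain b, g (z + t) ∂μ = ∫⁻ z in ZSpan.fundamentalDomain b, g z ∂μ := by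
  have := finiteDimensional_of_basis b
  have : VAddInvariantMeasure (Submodule.span ℤ (Set.range b)) E μ :=
    (inferInstance : VAddInvariantMeasure (Submodule.span ℤ (Set.range b)).toAddSubgroup E μ)
  have : MeasurableVAdd (Submodule.span ℤ (Set.range b)) E :=
    (inferInstance : MeasurableVAdd (Submodule.span ℤ (Set.range b)).toAddSubgroup E)
  rw [(ZSpan.isAddFundamentalDomain b μ).setLIntegral_eq (translate_fd μ b t) g hg.vadd]
  have h := measurePreserving_add_right μ t
  rw [← h.setLIntegral_comp_preimage_emb (measurableEmbedding_addRight t) g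
    (t +ᵥ ZSpan.fundamentalDomain b), preimage_vadd]

theorem IsPer.integral_add {b : Basis κ ℝ E} {g : E → ℂ} (hg : IsPer b g) (t : E) :
    ∫ z in ZSpan.fundamentalDomain b, g (z + t) ∂μ = ∫ z in ZSpan.fundamentalDomain b, g z ∂μ := by
  have := finiteDimensional_of_basis b
  have : VAddInvariantMeasure (Submodule.span ℤ (Set.range b)) E μ :=
    (inferInstance : VAddInvariantMeasure (Submodule.span ℤ (Set.range b)).toAddSubgroup E μ)
  have : MeasurableVAdd (Submodule.span ℤ (Set.range b)) E :=
    (inferInstance : MeasurableVAdd (Submodule.span ℤ (Set.range b)).toAddSubgroup E)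
  rw [(ZSpan.isAddFundamentalDomain b μ).setIntegral_eq (translate_fd μ b t) hg.vadd]
  have h := measurePreserving_add_right μ t
  rw [← h.setIntegral_preimage_emb (measurableEmbedding_addRight t) g
    (t +ᵥ ZSpan.fundamentalDomain b), preimage_vadd]

variable {κ' : Type*} [Finite κ']

theorem lintegral_change {b : Basis κ ℝ E} {b' : Basis κ' ℝ E} {g : E → ℝ≥0∞} (hg : IsPer b g)
    (hg' : IsPer b' g) (hm : Measurable g) :
    μ (ZSpan.fundamentalDomain b) * ∫⁻ z in ZSpan.fundamentalDomain b', g z ∂μ =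
      μ (ZSpan.fundamentalDomain b') * ∫⁻ z in ZSpan.fundamentalDomain b, g z ∂μ := by
  have := finiteDimensional_of_basis b
  have h1 : ∫⁻ t in ZSpan.fundamentalDomain b, ∫⁻ x in ZSpan.fundamentalDomain b', g (x + t) ∂μ ∂μ =
      μ (ZSpan.fundamentalDomain b) * ∫⁻ z in ZSpan.fundamentalDomain b', g z ∂μ := by
    simp_rw [hg'.lintegral_add μ]
    rw [setLIntegral_const, mul_comm]
  have h2 : ∫⁻ x in ZSpan.fundamentalDomain b', ∫⁻ t in ZSpan.fundamentalDomain b, g (x + t) ∂μ ∂μ =
      μ (ZSpan.fundamentalDomain b') * ∫⁻ z in ZSpan.fundamentalDomain b, g z ∂μ := by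
    have h3 : ∀ x : E, ∫⁻ t in ZSpan.fundamentalDomain b, g (x + t) ∂μ =
        ∫⁻ t in ZSpan.fundamentalDomain b, g t ∂μ := by
      intro x
      rw [← hg.lintegral_add μ x]
      simp_rw [add_comm]
    simp_rw [h3]
    rw [setLIntegral_const, mul_comm]
  rw [← h1, ← h2]
  refine lintegral_lintegral_swap ?_
  exact (hm.comp (by fun_prop)).aemeasurable

theorem measure_fd_ne_zero : μ (ZSpan.fundamentalDomain b) ≠ 0 := by
  have := finiteDimensional_of_basis b
  exact ZSpan.measure_fundamentalDomain_ne_zero b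

theorem measure_fd_ne_top : μ (ZSpan.fundamentalDomain b) ≠ ∞ := by
  have := finiteDimensional_of_basis b
  exact (ZSpan.fundamentalDomain_isBounded b).measure_lt_top.ne

theorem integrableOn_change {b : Basis κ ℝ E} {b' : Basis κ' ℝ E} {g : E → ℂ} (hg : IsPer b g)
    (hg' : IsPer b' g) (hm : Measurable g) :
    IntegrableOn g (ZSpan.fundamentalDomain b) μ ↔ IntegrableOn g (ZSpan.fundamentalDomain b') μ := by
  have h := lintegral_change μ (b := b) (b' := b') (g := fun z => ‖g z‖ₑ)
    (fun l hl z => by simp only [hg l hl z]) (fun l hl z => by simp only [hg' l hl z]) hm.enorm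
  have h1 := measure_fd_ne_zero μ b
  have h2 := measure_fd_ne_top μ b
  have h3 := measure_fd_ne_zero μ b'
  have h4 := measure_fd_ne_top μ b'
  have key : ∫⁻ z in ZSpan.fundamentalDomain b, ‖g z‖ₑ ∂μ < ∞ ↔
      ∫⁻ z in ZSpan.fundamentalDomain b', ‖g z‖ₑ ∂μ < ∞ := by
    constructor
    · intro h5
      have h6 : μ (ZSpan.fundamentalDomain b) * ∫⁻ z in ZSpan.fundamentalDomain b', ‖g z‖ₑ ∂μ < ∞ := by
        rw [h]
        exact ENNReal.mul_lt_top h4.lt_top h5
      by_contra h7
      rw [not_lt, top_le_iff] at h7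
      rw [h7, ENNReal.mul_top h1] at h6
      exact lt_irrefl _ h6
    · intro h5
      have h6 : μ (ZSpan.fundamentalDomain b') * ∫⁻ z in ZSpan.fundamentalDomain b, ‖g z‖ₑ ∂μ < ∞ := by
        rw [← h]
        exact ENNReal.mul_lt_top h2.lt_top h5
      by_contra h7
      rw [not_lt, top_le_iff] at h7
      rw [h7, ENNReal.mul_top h3] at h6
      exact lt_irrefl _ h6
  constructor
  · intro h5
    exact ⟨hm.aestronglyMeasurable, key.mp h5.2⟩
  · intro h5
    exact ⟨hm.aestronglyMeasurable, key.mpr h5.2⟩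

theorem integral_change {b : Basis κ ℝ E} {b' : Basis κ' ℝ E} {g : E → ℂ} (hg : IsPer b g)
    (hg' : IsPer b' g) (hm : Measurable g) :
    (μ.real (ZSpan.fundamentalDomain b) : ℂ) * ∫ z in ZSpan.fundamentalDomain b', g z ∂μ =
      μ.real (ZSpan.fundamentalDomain b') * ∫ z in ZSpan.fundamentalDomain b, g z ∂μ := by
  have := finiteDimensional_of_basis b
  by_cases hi : IntegrableOn g (ZSpan.fundamentalDomain b) μ
  · have hi' := (integrableOn_change μ hg hg' hm).mp hi
    have h2 : IsFiniteMeasure (μ.restrict (ZSpan.fundamentalDomain b)) :=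
      ⟨by rw [Measure.restrict_apply_univ]; exact (measure_fd_ne_top μ b).lt_top⟩
    have h3 : IsFiniteMeasure (μ.restrict (ZSpan.fundamentalDomain b')) :=
      ⟨by rw [Measure.restrict_apply_univ]; exact (measure_fd_ne_top μ b').lt_top⟩
    have hint : Integrable (Function.uncurry fun t x : E => g (x + t))
        ((μ.restrict (ZSpan.fundamentalDomain b)).prod (μ.restrict (ZSpan.fundamentalDomain b'))) := by
      have hm2 : Measurable (Function.uncurry fun t x : E => g (x + t)) :=
        hm.comp (measurable_snd.add measurable_fst)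
      refine ⟨hm2.aestronglyMeasurable, ?_⟩
      rw [HasFiniteIntegral, lintegral_prod _ hm2.enorm.aemeasurable]
      have h4 : ∀ t : E, ∫⁻ x in ZSpan.fundamentalDomain b', ‖g (x + t)‖ₑ ∂μ =
          ∫⁻ x in ZSpan.fundamentalDomain b', ‖g x‖ₑ ∂μ := fun t =>
        IsPer.lintegral_add μ (b := b') (g := fun z => ‖g z‖ₑ)
          (fun l hl z => by simp only [hg' l hl z]) t
      have h5 : ∀ t : E, ∫⁻ x in ZSpan.fundamentalDomain b',
          ‖(Function.uncurry fun t x : E => g (x + t)) (t, x)‖ₑ ∂μ =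
          ∫⁻ x in ZSpan.fundamentalDomain b', ‖g x‖ₑ ∂μ := h4
      simp_rw [h5]
      rw [lintegral_const]
      exact ENNReal.mul_lt_top hi'.2 (measure_lt_top _ _)
    have h1 := integral_integral_swap hint
    simp_rw [hg'.integral_add μ] at h1
    rw [setIntegral_const] at h1
    have h6 : ∀ x : E, ∫ t in ZSpan.fundamentalDomain b, g (x + t) ∂μ =
        ∫ t in ZSpan.fundamentalDomain b, g t ∂μ := by
      intro x
      rw [← hg.integral_add μ x]
      simp_rw [add_comm]
    simp_rw [h6] at h1
    rw [setIntegral_const] at h1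
    rw [Complex.real_smul, Complex.real_smul] at h1
    exact h1
  · have hi' : ¬ IntegrableOn g (ZSpan.fundamentalDomain b') μ := fun h =>
      hi ((integrableOn_change μ hg hg' hm).mpr h)
    rw [integral_undef hi, integral_undef hi', mul_zero, mul_zero]

/-- Scaling by a linear automorphism. -/
theorem integral_map_basis [FiniteDimensional ℝ E] (A : E ≃L[ℝ] E) (g : E → ℂ) :
    (μ.real (ZSpan.fundamentalDomain b) : ℂ) *
        ∫ z in ZSpan.fundamentalDomain (b.map A.toLinearEquiv), g z ∂μ =
      μ.real (ZSpan.fundamentalDomain (b.map A.toLinearEquiv)) *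
        ∫ z in ZSpan.fundamentalDomain b, g (A z) ∂μ := by
  have h1 : ZSpan.fundamentalDomain (b.map A.toLinearEquiv) = A '' ZSpan.fundamentalDomain b :=
    (ZSpan.map_fundamentalDomain b A.toLinearEquiv).symm
  obtain ⟨c, hc0, hct, hc⟩ : ∃ c : ℝ≥0∞, c ≠ 0 ∧ c ≠ ∞ ∧ Measure.map A μ = c • μ := by
    refine ⟨_, ?_, ?_, Measure.map_linearMap_addHaar_eq_smul_addHaar μ
      (f := (A : E →ₗ[ℝ] E)) A.toLinearEquiv.isUnit_det'.ne_zero⟩
    · have : 0 < |(LinearMap.det (A : E →ₗ[ℝ] E))⁻¹| :=
        abs_pos.mpr (inv_ne_zero A.toLinearEquiv.isUnit_det'.ne_zero)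
      exact (ENNReal.ofReal_pos.mpr this).ne'
    · exact ENNReal.ofReal_ne_top
  have hemb : MeasurableEmbedding A := A.toHomeomorph.measurableEmbedding
  have h2 : μ (ZSpan.fundamentalDomain b) = c * μ (A '' ZSpan.fundamentalDomain b) := by
    have h3 : Measure.map A μ (A '' ZSpan.fundamentalDomain b) = μ (ZSpan.fundamentalDomain b) := by
      rw [hemb.map_apply, Set.preimage_image_eq _ A.injective]
    rw [← h3, hc]
    rfl
  have h4 : ∫ z in ZSpan.fundamentalDomain b, g (A z) ∂μ =
      c.toReal • ∫ z in A '' ZSpan.fundamentalDomain b, g z ∂μ := by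
    have h5 := hemb.setIntegral_map (μ := μ) g (A '' ZSpan.fundamentalDomain b)
    rw [Set.preimage_image_eq _ A.injective] at h5
    rw [← h5, hc, Measure.restrict_smul, integral_smul_measure]
  rw [h1, h4, measureReal_def, measureReal_def, h2, ENNReal.toReal_mul, Complex.real_smul]
  push_cast
  ring

end General

/-! ### Number fields -/

variable {F : Type} [Field F] [NumberField F] [IsTotallyComplex F]

/-- Periodicity with respect to the integers. -/
def PerF {A : Type*} (g : (InfinitePlace F → ℂ) → A) : Prop :=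
  ∀ (a : 𝓞 F) (z : InfinitePlace F → ℂ), g (z + emb F (a : F)) = g z

theorem PerF.isPer {A : Type*} {g : (InfinitePlace F → ℂ) → A} (hg : PerF g) :
    IsPer (embBasis F) g := by
  intro l hl z
  obtain ⟨a, rfl⟩ := (mem_span_embBasis F).mp hl
  exact hg a z

omit [NumberField F] [IsTotallyComplex F] in
lemma emb_ne_zero {c : F} (hc : c ≠ 0) (w : InfinitePlace F) : emb F c w ≠ 0 := by
  rw [emb_apply]
  exact (map_ne_zero _).mpr hc

variable (F) in
/-- Multiplication by an element of the field. -/
def mulE (c : F) (hc : c ≠ 0) : (InfinitePlace F → ℂ) ≃L[ℝ] (InfinitePlace F → ℂ) :=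
  ContinuousLinearEquiv.mk
    { toFun := fun z => emb F c * z
      invFun := fun z => emb F c⁻¹ * z
      map_add' := fun z z' => mul_add _ _ _
      map_smul' := fun t z => by
        rw [RingHom.id_apply, mul_smul_comm]
      left_inv := fun z => by
        simp only
        rw [← mul_assoc, ← map_mul, inv_mul_cancel₀ hc, map_one, one_mul]
      right_inv := fun z => by
        simp only
        rw [← mul_assoc, ← map_mul, mul_inv_cancel₀ hc, map_one, one_mul] }
    (by
      change Continuous fun z => emb F c * z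
      fun_prop)
    (by
      change Continuous fun z => emb F c⁻¹ * z
      fun_prop)

lemma mulE_apply (c : F) (hc : c ≠ 0) (z : InfinitePlace F → ℂ) : mulE F c hc z = emb F c * z := rfl

theorem PerF.isPer_mul {A : Type*} {g : (InfinitePlace F → ℂ) → A} (hg : PerF g) (c : 𝓞 F)
    (hc : (c : F) ≠ 0) : IsPer ((embBasis F).map (mulE F c hc).toLinearEquiv) g := by
  intro l hl z
  have h1 : Set.range ((embBasis F).map (mulE F (c : F) hc).toLinearEquiv) =
      ((mulE F (c : F) hc).toLinearEquiv.toLinearMap.restrictScalars ℤ) ''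
        Set.range (embBasis F) := by
    rw [← Set.range_comp]
    rfl
  rw [h1, ← Submodule.map_span] at hl
  obtain ⟨y, hy, rfl⟩ := hl
  obtain ⟨a, rfl⟩ := (mem_span_embBasis F).mp hy
  have h2 : (((mulE F (c : F) hc).toLinearEquiv.toLinearMap.restrictScalars ℤ) (emb F (a : F))) =
      emb F ((c * a : 𝓞 F) : F) := by
    change emb F (c : F) * emb F (a : F) = _
    rw [← map_mul]
    rfl
  rw [h2]
  exact hg _ z

/-- The mean of a periodic function. -/
def mn (g : (InfinitePlace F → ℂ) → ℂ) : ℂ :=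
  ((volume : Measure (InfinitePlace F → ℂ)).real (ZSpan.fundamentalDomain (embBasis F)) : ℂ)⁻¹ *
    ∫ z in ZSpan.fundamentalDomain (embBasis F), g z

variable (F) in
lemma vol_ne_zero : ((volume : Measure (InfinitePlace F → ℂ)).real
    (ZSpan.fundamentalDomain (embBasis F)) : ℂ) ≠ 0 := by
  rw [Complex.ofReal_ne_zero, measureReal_def]
  exact (ENNReal.toReal_pos (measure_fd_ne_zero _ _) (measure_fd_ne_top _ _)).ne'

theorem mn_add {g : (InfinitePlace F → ℂ) → ℂ} (hg : PerF g) (t : InfinitePlace F → ℂ) :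
    mn (fun z => g (z + t)) = mn g := by
  rw [mn, mn, hg.isPer.integral_add volume]

theorem mn_mul {g : (InfinitePlace F → ℂ) → ℂ} (hg : PerF g) (hm : Measurable g) (c : 𝓞 F)
    (hc : (c : F) ≠ 0) : mn (fun z => g (emb F (c : F) * z)) = mn g := by
  have h1 := integral_change (volume : Measure (InfinitePlace F → ℂ)) hg.isPer (hg.isPer_mul c hc) hm
  have h2 := integral_map_basis (volume : Measure (InfinitePlace F → ℂ)) (embBasis F)
    (mulE F (c : F) hc) g
  rw [h1] at h2
  have h3 : ((volume : Measure (InfinitePlace F → ℂ)).real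
      (ZSpan.fundamentalDomain ((embBasis F).map (mulE F (c : F) hc).toLinearEquiv)) : ℂ) ≠ 0 := by
    rw [Complex.ofReal_ne_zero, measureReal_def]
    exact (ENNReal.toReal_pos (measure_fd_ne_zero _ _) (measure_fd_ne_top _ _)).ne'
  rw [mn, mn]
  congr 1
  exact (mul_left_cancel₀ h3 h2).symm

theorem mn_const_mul (a : ℂ) (g : (InfinitePlace F → ℂ) → ℂ) :
    mn (fun z => a * g z) = a * mn g := by
  rw [mn, mn, integral_const_mul]
  ring

theorem mn_finsetSum {α : Type*} (s : Finset α) (g : α → (InfinitePlace F → ℂ) → ℂ)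
    (hg : ∀ i ∈ s, IntegrableOn (g i) (ZSpan.fundamentalDomain (embBasis F))) :
    mn (fun z => ∑ i ∈ s, g i z) = ∑ i ∈ s, mn (g i) := by
  simp only [mn]
  rw [integral_finsetSum s hg, Finset.mul_sum]

end

end Fermat.Agent.LT.Aleph
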