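import Fermat.Agent.LT.Aleph.Coord
import Fermat.Agent.LT.Aleph.Mean
import Fermat.Agent.LT.Aleph.Bdry
import Fermat.Agent.LT.H3.Pi
import Fermat.Agent.LT.H3.Radial

/-!
# Constant terms of Hecke operators and of radial convolution operators
-/

set_option autoImplicit false

open MeasureTheory NumberField Module Real
open scoped ENNReal Pointwise BigOperators

namespace Fermat.Agent.LT.Aleph

noncomputable section

variable {F : Type} [Field F] {D : Type} [MulAction (GL (Fin 2) F) D]

/-- The point with coordinates `z`, `log y = u`. -/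
def xi (z : InfinitePlace F → ℂ) (u : InfinitePlace F → ℝ) : Xi F := Ps (z, u)

lemma xi_eq_pt (z : InfinitePlace F → ℂ) (u : InfinitePlace F → ℝ) :
    xi z u = pt z (fun w => exp (u w)) := by
  funext w
  exact ps_eq _ _

lemma continuous_xi : Continuous fun p : (InfinitePlace F → ℂ) × (InfinitePlace F → ℝ) =>
    xi p.1 p.2 := continuous_Ps

lemma nb_smul_xi (b : F) (z : InfinitePlace F → ℂ) (u : InfinitePlace F → ℝ) :
    nb b • xi z u = xi (z + emb F b) u := by
  rw [xi_eq_pt, nb_smul_pt b fun w => exp_pos _, xi_eq_pt]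

lemma aF_smul_xi (a : Fˣ) (z : InfinitePlace F → ℂ) (u : InfinitePlace F → ℝ) :
    aF a • xi z u = xi (emb F (a : F) * z) (u + Bdry.lg a) := by
  funext w
  have h10 : (Matrix.GeneralLinearGroup.map (n := Fin 2) w.embedding (aF a)) 1 0 = 0 := by
    simp [Matrix.GeneralLinearGroup.map, coe_aF]
  have h00 : (Matrix.GeneralLinearGroup.map (n := Fin 2) w.embedding (aF a)) 0 0 =
      w.embedding (a : F) := by
    simp [Matrix.GeneralLinearGroup.map, coe_aF]
  have h01 : (Matrix.GeneralLinearGroup.map (n := Fin 2) w.embedding (aF a)) 0 1 = 0 := by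
    simp [Matrix.GeneralLinearGroup.map, coe_aF]
  have h11 : (Matrix.GeneralLinearGroup.map (n := Fin 2) w.embedding (aF a)) 1 1 = 1 := by
    simp [Matrix.GeneralLinearGroup.map, coe_aF]
  rw [Xi.smul_apply]
  apply H3.ext
  · rw [H3.z_smul_of_upper h10, h00, h01, h11]
    simp only [add_zero, div_one]
    rfl
  · rw [H3.y_smul_of_upper h10, h00, h11, div_one, InfinitePlace.norm_embedding_eq]
    change w (a : F) * exp (u w) = exp (u w + log (w a))
    rw [exp_add, exp_log (InfinitePlace.pos_iff.mpr a.ne_zero), mul_comm]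

/-- Invariance under `GL₂(F)`. -/
def Inv (f : Xi F × D → ℂ) : Prop := ∀ (g : GL (Fin 2) F) (x : Xi F) (d : D), f (g • x, g • d) = f (x, d)

/-- `n(c a)` fixes `d` for all integers `a`. -/
def GoodMod (c : F) (d : D) : Prop := c ≠ 0 ∧ ∀ a : 𝓞 F, nb (c * (a : F)) • d = d

lemma GoodMod.mul {c : F} {d : D} (h : GoodMod c d) {n : 𝓞 F} (hn : (n : F) ≠ 0) :
    GoodMod (c * (n : F)) d := by
  refine ⟨mul_ne_zero h.1 hn, fun a => ?_⟩
  rw [mul_assoc]
  exact h.2 (n * a)

lemma GoodMod.nb_smul {c : F} {d : D} (h : GoodMod c d) (b : F) : GoodMod c (nb b • d) := by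
  refine ⟨h.1, fun a => ?_⟩
  rw [← mul_smul, ← nb_add, add_comm, nb_add, mul_smul, h.2]

lemma GoodMod.aF_smul {c : F} {d : D} (h : GoodMod c d) (a : Fˣ) : GoodMod ((a : F) * c) (aF a • d) := by
  refine ⟨mul_ne_zero a.ne_zero h.1, fun x => ?_⟩
  rw [mul_assoc, ← mul_smul, ← aF_mul_nb, mul_smul, h.2]

variable [NumberField F]

lemma exists_goodMod [IsLevel F D] (d : D) : ∃ c : F, GoodMod c d := by
  obtain ⟨m, hm⟩ := exists_isMod F d
  exact ⟨m, by exact_mod_cast hm.1, fun a => hm.nb_smul (RingOfIntegers.isIntegral_coe a)⟩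

lemma exists_goodMod_finset [IsLevel F D] (T : Finset D) : ∃ c : F, ∀ d ∈ T, GoodMod c d := by
  obtain ⟨m, hm, h⟩ := exists_isMod_finset F T
  exact ⟨m, fun d hd => ⟨by exact_mod_cast hm,
    fun a => (h d hd).nb_smul (RingOfIntegers.isIntegral_coe a)⟩⟩

variable [IsTotallyComplex F]

/-- The mean over `ℂⁿ / c 𝓞 F`. -/
def ctc (f : Xi F × D → ℂ) (c : F) (u : InfinitePlace F → ℝ) (d : D) : ℂ :=
  mn fun z => f (xi (emb F c * z) u, d)

omit [NumberField F] [IsTotallyComplex F] in
lemma Inv.perF {f : Xi F × D → ℂ} (hf : Inv f) {c : F} {d : D} (h : GoodMod c d)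
    (u : InfinitePlace F → ℝ) : PerF fun z => f (xi (emb F c * z) u, d) := by
  intro a z
  have h1 : xi (emb F c * (z + emb F (a : F))) u = nb (c * (a : F)) • xi (emb F c * z) u := by
    rw [nb_smul_xi, mul_add, map_mul]
  simp only
  rw [h1]
  conv_lhs => rw [← h.2 a]
  exact hf _ _ _

omit [IsTotallyComplex F] in
lemma measurable_slice {f : Xi F × D → ℂ} {d : D} (hm : Measurable fun x => f (x, d)) (c : F)
    (u : InfinitePlace F → ℝ) : Measurable fun z => f (xi (emb F c * z) u, d) := by
  refine hm.comp (Continuous.measurable ?_)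
  exact continuous_xi.comp (by fun_prop :
    Continuous fun z : InfinitePlace F → ℂ => (emb F c * z, u))

lemma ctc_mul {f : Xi F × D → ℂ} (hf : Inv f) {d : D} (hm : Measurable fun x => f (x, d)) {c : F}
    (h : GoodMod c d) (u : InfinitePlace F → ℝ) {n : 𝓞 F} (hn : (n : F) ≠ 0) :
    ctc f (c * (n : F)) u d = ctc f c u d := by
  rw [ctc, ctc, ← mn_mul (hf.perF h u) (measurable_slice hm c u) n hn]
  congr 1
  funext z
  rw [map_mul, mul_assoc]

lemma ctc_eq {f : Xi F × D → ℂ} (hf : Inv f) {d : D} (hm : Measurable fun x => f (x, d)) {c c' : F}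
    (h : GoodMod c d) (h' : GoodMod c' d) (u : InfinitePlace F → ℝ) :
    ctc f c u d = ctc f c' u d := by
  obtain ⟨n, m, hm0, hnm⟩ := IsFractionRing.div_surjective (A := 𝓞 F) (c / c')
  have hm1 : (m : F) ≠ 0 := by
    have := nonZeroDivisors.ne_zero hm0
    exact_mod_cast this
  have h1 : c * (m : F) = c' * (n : F) := by
    have h2 : (n : F) / (m : F) = c / c' := hnm
    rw [div_eq_div_iff hm1 h'.1] at h2
    rw [← h2, mul_comm]
  have hn1 : (n : F) ≠ 0 := by
    intro h3
    rw [h3, mul_zero] at h1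
    exact mul_ne_zero h.1 hm1 h1
  rw [← ctc_mul hf hm h u hm1, h1, ctc_mul hf hm h' u hn1]

variable [IsLevel F D]

/-- **The constant term.** -/
def ct (f : Xi F × D → ℂ) (u : InfinitePlace F → ℝ) (d : D) : ℂ :=
  ctc f (exists_goodMod (F := F) d).choose u d

lemma ct_eq {f : Xi F × D → ℂ} (hf : Inv f) (hm : ∀ d, Measurable fun x => f (x, d)) {c : F} {d : D}
    (h : GoodMod c d) (u : InfinitePlace F → ℝ) : ct f u d = ctc f c u d :=
  ctc_eq hf (hm d) (exists_goodMod (F := F) d).choose_spec h u

theorem isCT_ct {f : Xi F × D → ℂ} (hf : Inv f) (hm : ∀ d, Measurable fun x => f (x, d)) :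
    Bdry.IsCT (ct f) where
  nil b u d := by
    obtain ⟨c, hc⟩ := exists_goodMod (F := F) d
    rw [ct_eq hf hm (hc.nb_smul b) u, ct_eq hf hm hc u, ctc, ctc]
    have h1 : ∀ z : InfinitePlace F → ℂ, f (xi (emb F c * z) u, nb b • d) =
        (fun z => f (xi (emb F c * z) u, d)) (z + -(emb F (c⁻¹ * b))) := by
      intro z
      have h2 : xi (emb F c * z) u = nb b • xi (emb F c * (z + -(emb F (c⁻¹ * b)))) u := by
        rw [nb_smul_xi]
        congr 1
        rw [mul_add, mul_neg, ← map_mul, mul_inv_cancel_left₀ hc.1, neg_add_cancel_right]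
      rw [h2, hf]
    simp_rw [h1]
    exact mn_add (hf.perF hc u) _
  dia a u d := by
    obtain ⟨c, hc⟩ := exists_goodMod (F := F) d
    rw [ct_eq hf hm (hc.aF_smul a), ct_eq hf hm hc u, ctc, ctc]
    congr 1
    funext z
    have h2 : xi (emb F ((a : F) * c) * z) (u + Bdry.lg a) = aF a • xi (emb F c * z) u := by
      rw [aF_smul_xi, map_mul, mul_assoc]
    rw [h2, hf]

end

/-! ### Integrability -/

section Integ

noncomputable section

variable {F : Type} [Field F] [NumberField F] [IsTotallyComplex F]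

/-- The scaling by `c` in the first coordinate. -/
lemma integrableOn_scale {G : (InfinitePlace F → ℂ) × (InfinitePlace F → ℝ) → ℂ}
    (hG : LocallyIntegrable G) {c : F} (hc : c ≠ 0) {S : Set (InfinitePlace F → ℂ)}
    (hS : Bornology.IsBounded S) (hSm : MeasurableSet S) {K : Set (InfinitePlace F → ℝ)}
    (hK : Bornology.IsBounded K) (hKm : MeasurableSet K) :
    Integrable (fun p : (InfinitePlace F → ℂ) × (InfinitePlace F → ℝ) => G (emb F c * p.1, p.2))
      ((volume.restrict S).prod (volume.restrict K)) := by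
  set A := mulE F c hc with hA
  obtain ⟨κ, hκ0, hκt, hκ⟩ : ∃ κ : ℝ≥0∞, κ ≠ 0 ∧ κ ≠ ∞ ∧
      Measure.map A (volume : Measure (InfinitePlace F → ℂ)) = κ • volume := by
    refine ⟨_, ?_, ?_, Measure.map_linearMap_addHaar_eq_smul_addHaar volume
      (f := (A : (InfinitePlace F → ℂ) →ₗ[ℝ] (InfinitePlace F → ℂ)))
      A.toLinearEquiv.isUnit_det'.ne_zero⟩
    · have : 0 < |(LinearMap.det (A : (InfinitePlace F → ℂ) →ₗ[ℝ] (InfinitePlace F → ℂ)))⁻¹| :=
        abs_pos.mpr (inv_ne_zero A.toLinearEquiv.isUnit_det'.ne_zero)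
      exact (ENNReal.ofReal_pos.mpr this).ne'
    · exact ENNReal.ofReal_ne_top
  have hemb : MeasurableEmbedding A := A.toHomeomorph.measurableEmbedding
  have hASb : Bornology.IsBounded (A '' S) := A.toContinuousLinearMap.lipschitz.isBounded_image hS
  have hASm : MeasurableSet (A '' S) := hemb.measurableSet_image.mpr hSm
  have h1 : IntegrableOn G ((A '' S) ×ˢ K) := by
    have h2 : Bornology.IsBounded ((A '' S) ×ˢ K) := hASb.prod hK
    exact (hG.integrableOn_isCompact h2.isCompact_closure).mono_set subset_closure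
  have h3 : Integrable G ((volume.restrict (A '' S)).prod (volume.restrict K)) := by
    rw [Measure.prod_restrict]
    exact h1
  have h4 : Measure.map A (volume.restrict S) = κ • volume.restrict (A '' S) := by
    have h5 := hemb.restrict_map volume (A '' S)
    rw [Set.preimage_image_eq _ A.injective, hκ, Measure.restrict_smul] at h5
    exact h5.symm
  have h6 : MeasurePreserving A (volume.restrict S) (κ • volume.restrict (A '' S)) :=
    ⟨hemb.measurable, h4⟩
  have h7 : MeasurePreserving (Prod.map A id)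
      ((volume.restrict S).prod (volume.restrict K))
      ((κ • volume.restrict (A '' S)).prod (volume.restrict K)) := by
    have : SFinite (κ • (volume : Measure (InfinitePlace F → ℂ)).restrict (A '' S)) := by
      rw [← h4]
      infer_instance
    exact h6.prod (MeasurePreserving.id _)
  have h8 : Integrable G ((κ • volume.restrict (A '' S)).prod (volume.restrict K)) := by
    rw [Measure.prod_smul_left]
    exact h3.smul_measure hκt
  exact h7.integrable_comp_of_integrable h8

lemma bdd_fd : Bornology.IsBounded (ZSpan.fundamentalDomain (embBasis F)) :=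
  ZSpan.fundamentalDomain_isBounded _

lemma meas_fd : MeasurableSet (ZSpan.fundamentalDomain (embBasis F)) :=
  ZSpan.fundamentalDomain_measurableSet _

variable {D : Type} {f : Xi F × D → ℂ} {d : D}

lemma locInt (hi : LocallyIntegrable fun x : Xi F => f (x, d)) :
    LocallyIntegrable fun p : (InfinitePlace F → ℂ) × (InfinitePlace F → ℝ) => f (xi p.1 p.2, d) :=
  locallyIntegrable_Ps (ι := InfinitePlace F) (f := fun x => f (x, d)) hi

lemma integrable_box (hi : LocallyIntegrable fun x : Xi F => f (x, d)) {c : F} (hc : c ≠ 0)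
    {K : Set (InfinitePlace F → ℝ)} (hK : Bornology.IsBounded K) (hKm : MeasurableSet K) :
    Integrable (fun p : (InfinitePlace F → ℂ) × (InfinitePlace F → ℝ) =>
      f (xi (emb F c * p.1) p.2, d))
      ((volume.restrict (ZSpan.fundamentalDomain (embBasis F))).prod (volume.restrict K)) :=
  integrableOn_scale (locInt hi) hc bdd_fd meas_fd hK hKm

/-- Almost all slices are integrable. -/
theorem ae_slice (hi : LocallyIntegrable fun x : Xi F => f (x, d)) {c : F} (hc : c ≠ 0) :
    ∀ᵐ u : InfinitePlace F → ℝ, IntegrableOn (fun z => f (xi (emb F c * z) u, d))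
      (ZSpan.fundamentalDomain (embBasis F)) := by
  have h1 : ∀ n : ℕ, ∀ᵐ u : InfinitePlace F → ℝ, u ∈ Metric.closedBall (0 : InfinitePlace F → ℝ) n →
      IntegrableOn (fun z => f (xi (emb F c * z) u, d))
        (ZSpan.fundamentalDomain (embBasis F)) := by
    intro n
    rw [← ae_restrict_iff' measurableSet_closedBall]
    have := (integrable_box hi hc (K := Metric.closedBall 0 n) Metric.isBounded_closedBall
      measurableSet_closedBall).prod_left_ae
    exact this
  filter_upwards [ae_all_iff.mpr h1] with u hu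
  obtain ⟨n, hn⟩ := exists_nat_ge ‖u‖
  exact hu n (by rwa [mem_closedBall_zero_iff])

/-- Local integrability of the constant term. -/
theorem locallyIntegrable_ctc (hi : LocallyIntegrable fun x : Xi F => f (x, d)) {c : F}
    (hc : c ≠ 0) : LocallyIntegrable fun u => ctc f c u d := by
  rw [locallyIntegrable_iff]
  intro K hK
  have h1 := (integrable_box hi hc hK.isBounded hK.measurableSet).integral_prod_right
  exact h1.const_mul _

end

end Integ

/-! ### Hecke operators -/

section Hecke

noncomputable section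

variable {F : Type} [Field F] [NumberField F] {D V : Type} [MulAction (GL (Fin 2) F) D]
  (B : Bdry F D V)

/-- The Hecke operator on functions on `X_∞ × D`. -/
def Tz (v : V) (f : Xi F × D → ℂ) : Xi F × D → ℂ :=
  fun p => (B.row v p.2).sum fun d' z => z * f (p.1, d')

/-- The Hecke operators along a word. -/
def Tzw (l : List V) (f : Xi F × D → ℂ) : Xi F × D → ℂ := l.foldr (fun v g => Tz B v g) f

lemma Tzw_nil (f : Xi F × D → ℂ) : Tzw B [] f = f := rfl

lemma Tzw_cons (v : V) (l : List V) (f : Xi F × D → ℂ) : Tzw B (v :: l) f = Tz B v (Tzw B l f) := rfl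

lemma Tz_apply (v : V) (f : Xi F × D → ℂ) (x : Xi F) (d : D) :
    Tz B v f (x, d) = ∑ d' ∈ (B.row v d).support, B.row v d d' * f (x, d') := rfl

variable {B}

lemma inv_Tz {f : Xi F × D → ℂ} (hf : Inv f) (v : V) : Inv (Tz B v f) := by
  intro g x d
  change (B.row v (g • d)).sum _ = (B.row v d).sum _
  rw [B.row_smul, Finsupp.sum_mapDomain_index (fun _ => zero_mul _) (fun _ _ _ => add_mul _ _ _)]
  exact Finsupp.sum_congr fun d' _ => by rw [hf]

lemma measurable_Tz {f : Xi F × D → ℂ} (hm : ∀ d, Measurable fun x => f (x, d)) (v : V) (d : D) :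
    Measurable fun x => Tz B v f (x, d) := by
  simp only [Tz_apply]
  exact Finset.measurable_sum _ fun d' _ => (hm d').const_mul _

lemma locallyIntegrable_Tz {f : Xi F × D → ℂ} (hi : ∀ d, LocallyIntegrable fun x => f (x, d))
    (v : V) (d : D) : LocallyIntegrable fun x => Tz B v f (x, d) := by
  simp only [Tz_apply]
  exact locallyIntegrable_finsetSum _ fun d' _ => (hi d').smul (B.row v d d')

lemma inv_Tzw {f : Xi F × D → ℂ} (hf : Inv f) (l : List V) : Inv (Tzw B l f) := by
  induction l with
  | nil => exact hf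
  | cons v l ih => exact inv_Tz ih v

lemma measurable_Tzw {f : Xi F × D → ℂ} (hm : ∀ d, Measurable fun x => f (x, d)) (l : List V)
    (d : D) : Measurable fun x => Tzw B l f (x, d) := by
  induction l generalizing d with
  | nil => exact hm d
  | cons v l ih => exact measurable_Tz ih v d

lemma locallyIntegrable_Tzw {f : Xi F × D → ℂ} (hi : ∀ d, LocallyIntegrable fun x => f (x, d))
    (l : List V) (d : D) : LocallyIntegrable fun x => Tzw B l f (x, d) := by
  induction l generalizing d with
  | nil => exact hi d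
  | cons v l ih => exact locallyIntegrable_Tz ih v d

variable [IsTotallyComplex F] [IsLevel F D]

/-- The constant term of `T_v f`. -/
theorem ct_Tz {f : Xi F × D → ℂ} (hf : Inv f) (hm : ∀ d, Measurable fun x => f (x, d))
    (hi : ∀ d, LocallyIntegrable fun x => f (x, d)) (v : V) (d : D) :
    ∀ᵐ u : InfinitePlace F → ℝ, ct (Tz B v f) u d = B.T v (ct f) u d := by
  classical
  obtain ⟨c, hc⟩ := exists_goodMod_finset (F := F) (insert d (B.row v d).support)
  have hcd : GoodMod c d := hc d (Finset.mem_insert_self _ _)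
  have h1 : ∀ᵐ u : InfinitePlace F → ℝ, ∀ d' ∈ (B.row v d).support,
      IntegrableOn (fun z => f (xi (emb F c * z) u, d'))
        (ZSpan.fundamentalDomain (embBasis F)) := by
    rw [Filter.eventually_all_finset]
    exact fun d' _ => ae_slice (hi d') hcd.1
  filter_upwards [h1] with u hu
  rw [ct_eq (inv_Tz hf v) (measurable_Tz hm v) hcd u]
  change mn (fun z => ∑ d' ∈ (B.row v d).support,
    B.row v d d' * f (xi (emb F c * z) u, d')) = _
  rw [mn_finsetSum _ _ fun d' hd' => (hu d' hd').const_mul _]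
  change _ = ∑ d' ∈ (B.row v d).support, B.row v d d' * ct f u d'
  refine Finset.sum_congr rfl fun d' hd' => ?_
  rw [mn_const_mul, ct_eq hf hm (hc d' (Finset.mem_insert_of_mem hd')) u]
  rfl

theorem ct_Tzw {f : Xi F × D → ℂ} (hf : Inv f) (hm : ∀ d, Measurable fun x => f (x, d))
    (hi : ∀ d, LocallyIntegrable fun x => f (x, d)) (l : List V) (d : D) :
    ∀ᵐ u : InfinitePlace F → ℝ, ct (Tzw B l f) u d = B.Tw l (ct f) u d := by
  induction l generalizing d with
  | nil => exact Filter.Eventually.of_forall fun u => rfl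
  | cons v l ih =>
    have h1 := ct_Tz (B := B) (f := Tzw B l f) (inv_Tzw hf l) (measurable_Tzw hm l) (locallyIntegrable_Tzw hi l) v d
    have h2 : ∀ᵐ u : InfinitePlace F → ℝ, ∀ d' ∈ (B.row v d).support,
        ct (Tzw B l f) u d' = B.Tw l (ct f) u d' := by
      rw [Filter.eventually_all_finset]
      exact fun d' _ => ih d'
    filter_upwards [h1, h2] with u hu1 hu2
    rw [Tzw_cons, hu1, Bdry.Tw_cons]
    change ∑ d' ∈ (B.row v d).support, B.row v d d' * ct (Tzw B l f) u d' =
      ∑ d' ∈ (B.row v d).support, B.row v d d' * B.Tw l (ct f) u d'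
    exact Finset.sum_congr rfl fun d' hd' => by rw [hu2 d' hd']

lemma locallyIntegrable_ct {f : Xi F × D → ℂ} (hf : Inv f)
    (hm : ∀ d, Measurable fun x => f (x, d)) (hi : ∀ d, LocallyIntegrable fun x => f (x, d))
    (d : D) : LocallyIntegrable fun u => ct f u d := by
  obtain ⟨c, hc⟩ := exists_goodMod (F := F) d
  have h1 : (fun u => ct f u d) = fun u => ctc f c u d := funext fun u => ct_eq hf hm hc u
  rw [h1]
  exact locallyIntegrable_ctc (hi d) hc.1

end

end Hecke

/-! ### Radial convolution operators -/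

section Radial

noncomputable section

variable {F : Type} [Field F] [NumberField F]

/-- The convolution operator with a product of radial kernels. -/
def Rz {D : Type} (k : InfinitePlace F → ℝ → ℂ) (f : Xi F × D → ℂ) : Xi F × D → ℂ :=
  fun p => ∫ x' : Xi F, H3.pk k p.1 x' * f (x', p.2)

omit [NumberField F] in
lemma cu_ps (a b c : ℂ) (u u' : ℝ) :
    H3.cu (ps (c + a, u)) (ps (c + b, u')) = H3.cu (ps (a, u)) (ps (b, u')) := by
  unfold H3.cu
  change (Complex.normSq ((c + a) - (c + b)) + exp u ^ 2 + exp u' ^ 2) / (2 * exp u * exp u') =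
    (Complex.normSq (a - b) + exp u ^ 2 + exp u' ^ 2) / (2 * exp u * exp u')
  rw [add_sub_add_left_eq_sub]

lemma pk_xi (k : InfinitePlace F → ℝ → ℂ) (z : InfinitePlace F → ℂ) (u : InfinitePlace F → ℝ)
    (q : (InfinitePlace F → ℂ) × (InfinitePlace F → ℝ)) :
    H3.pk k (Ps (z, u)) (Ps (z + q.1, q.2)) = H3.pk k (Ps (0, u)) (Ps q) := by
  unfold H3.pk
  refine Finset.prod_congr rfl fun w _ => ?_
  congr 1
  have h2 := cu_ps 0 (q.1 w) (z w) (u w) (q.2 w)
  rw [add_zero] at h2
  exact h2

/-- The kernel in logarithmic coordinates. -/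
def kz (k : InfinitePlace F → ℝ → ℂ) (u : InfinitePlace F → ℝ)
    (q : (InfinitePlace F → ℂ) × (InfinitePlace F → ℝ)) : ℂ :=
  (exp (-2 * ∑ w, q.2 w) : ℂ) * H3.pk k (Ps (0, u)) (Ps q)

lemma Rz_xi {D : Type} (k : InfinitePlace F → ℝ → ℂ) (f : Xi F × D → ℂ) (z : InfinitePlace F → ℂ)
    (u : InfinitePlace F → ℝ) (d : D) :
    Rz k f (xi z u, d) = ∫ q : (InfinitePlace F → ℂ) × (InfinitePlace F → ℝ),
      kz k u q * f (xi (z + q.1) q.2, d) := by
  have h1 := integral_Ps (ι := InfinitePlace F) fun x' => H3.pk k (Ps (z, u)) x' * f (x', d)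
  refine h1.trans ?_
  have : (volume : Measure ((InfinitePlace F → ℂ) × (InfinitePlace F → ℝ))).IsAddHaarMeasure :=
    Measure.prod.instIsAddHaarMeasure volume volume
  rw [← integral_add_left_eq_self _ ((z, 0) : (InfinitePlace F → ℂ) × (InfinitePlace F → ℝ))]
  refine integral_congr_ae (Filter.Eventually.of_forall fun q => ?_)
  have h3 : ((z, 0) : (InfinitePlace F → ℂ) × (InfinitePlace F → ℝ)) + q = (z + q.1, q.2) :=
    Prod.ext rfl (zero_add _)
  simp only
  rw [h3, kz, mul_assoc, ← pk_xi k z u q]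
  rfl

lemma exists_bound_ker {k : InfinitePlace F → ℝ → ℂ} (hk : ∀ w, H3.IsKer (k w)) :
    ∃ R : ℝ, ∀ w t, R < t → k w t = 0 := by
  choose C hC using fun w => (hk w).2
  obtain ⟨R, hR⟩ := Finite.exists_le C
  exact ⟨R, fun w t ht => hC w t ((hR w).trans ht.le)⟩

omit [NumberField F] in
lemma continuous_pkPs [Fintype (InfinitePlace F)] {k : InfinitePlace F → ℝ → ℂ}
    (hk : ∀ w, H3.IsKer (k w)) (x : InfinitePlace F → H3) :
    Continuous fun q : (InfinitePlace F → ℂ) × (InfinitePlace F → ℝ) => H3.pk k x (Ps q) := by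
  unfold H3.pk
  refine continuous_finsetProd _ fun i _ => (hk i).1.comp ?_
  exact H3.continuous_cu' continuous_const ((continuous_apply i).comp continuous_Ps)

lemma continuous_kz {k : InfinitePlace F → ℝ → ℂ} (hk : ∀ w, H3.IsKer (k w))
    (u : InfinitePlace F → ℝ) : Continuous (kz k u) := by
  have h3 := continuous_pkPs hk (Ps (0, u))
  have h4 : Continuous fun q : (InfinitePlace F → ℂ) × (InfinitePlace F → ℝ) =>
      (exp (-2 * ∑ w, q.2 w) : ℂ) := by fun_prop
  exact h4.mul h3

lemma hasCompactSupport_kz {k : InfinitePlace F → ℝ → ℂ} (hk : ∀ w, H3.IsKer (k w))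
    (u : InfinitePlace F → ℝ) : HasCompactSupport (kz k u) := by
  obtain ⟨R, hR⟩ := exists_bound_ker hk
  have h1 : HasCompactSupport fun q => H3.pk k (Ps (0, u)) (Ps q) :=
    (H3.hasCompactSupport_pk hR (Ps (0, u))).comp_homeomorph (PsHomeo (ι := InfinitePlace F))
  exact HasCompactSupport.mul_left (f := fun q : (InfinitePlace F → ℂ) × (InfinitePlace F → ℝ) =>
    (exp (-2 * ∑ w, q.2 w) : ℂ)) h1

/-- Joint integrability. -/
lemma integrable_joint {D : Type} {f : Xi F × D → ℂ} {d : D} [IsTotallyComplex F]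
    (hi : LocallyIntegrable fun x : Xi F => f (x, d)) (c : F)
    {k : InfinitePlace F → ℝ → ℂ} (hk : ∀ w, H3.IsKer (k w)) (u : InfinitePlace F → ℝ) :
    Integrable (fun p : (InfinitePlace F → ℂ) × ((InfinitePlace F → ℂ) × (InfinitePlace F → ℝ)) =>
      kz k u p.2 * f (xi (emb F c * p.1 + p.2.1) p.2.2, d))
      ((volume.restrict (ZSpan.fundamentalDomain (embBasis F))).prod volume) := by
  have : (volume : Measure ((InfinitePlace F → ℂ) × (InfinitePlace F → ℝ))).IsAddHaarMeasure :=
    Measure.prod.instIsAddHaarMeasure volume volume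
  have hfin : IsFiniteMeasure ((volume : Measure (InfinitePlace F → ℂ)).restrict
      (ZSpan.fundamentalDomain (embBasis F))) :=
    ⟨by rw [Measure.restrict_apply_univ]; exact (measure_fd_ne_top _ _).lt_top⟩
  -- a bound for the support
  obtain ⟨R, hR⟩ := (hasCompactSupport_kz hk u).isCompact.isBounded.subset_closedBall 0
  obtain ⟨R', hR'⟩ := bdd_fd (F := F).subset_closedBall 0
  obtain ⟨M, hM⟩ := (hasCompactSupport_kz hk u).exists_bound_of_continuous (continuous_kz hk u)
  set S : Set ((InfinitePlace F → ℂ) × (InfinitePlace F → ℝ)) :=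
    Metric.closedBall 0 (‖emb F c‖ * R' + R) with hS
  have hSint : Integrable (S.indicator fun q => f (xi q.1 q.2, d)) := by
    rw [integrable_indicator_iff measurableSet_closedBall]
    exact (locInt hi).integrableOn_isCompact (isCompact_closedBall _ _)
  have h1 : Integrable (fun p : (InfinitePlace F → ℂ) ×
      ((InfinitePlace F → ℂ) × (InfinitePlace F → ℝ)) => S.indicator (fun q => f (xi q.1 q.2, d)) p.2)
      ((volume.restrict (ZSpan.fundamentalDomain (embBasis F))).prod volume) := hSint.comp_snd _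
  have h2 : MeasurePreserving (fun p : (InfinitePlace F → ℂ) ×
      ((InfinitePlace F → ℂ) × (InfinitePlace F → ℝ)) =>
        (id p.1, (emb F c * p.1 + p.2.1, p.2.2)))
      ((volume.restrict (ZSpan.fundamentalDomain (embBasis F))).prod volume)
      ((volume.restrict (ZSpan.fundamentalDomain (embBasis F))).prod volume) := by
    refine MeasurePreserving.skew_product (MeasurePreserving.id _)
      (g := fun (z : InfinitePlace F → ℂ) (q : (InfinitePlace F → ℂ) × (InfinitePlace F → ℝ)) =>
        (emb F c * z + q.1, q.2)) ?_ (Filter.Eventually.of_forall fun z => ?_)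
    · exact Continuous.measurable (by fun_prop)
    · have h3 := (measurePreserving_add_left
        (volume : Measure ((InfinitePlace F → ℂ) × (InfinitePlace F → ℝ))) (emb F c * z, 0)).map_eq
      rw [← h3]
      congr 1
      funext q
      exact Prod.ext rfl (zero_add _).symm
  have h3 : Integrable (fun p : (InfinitePlace F → ℂ) ×
      ((InfinitePlace F → ℂ) × (InfinitePlace F → ℝ)) =>
        S.indicator (fun q => f (xi q.1 q.2, d)) (emb F c * p.1 + p.2.1, p.2.2))
      ((volume.restrict (ZSpan.fundamentalDomain (embBasis F))).prod volume) :=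
    h2.integrable_comp_of_integrable h1
  have hcont : Continuous fun p : (InfinitePlace F → ℂ) ×
      ((InfinitePlace F → ℂ) × (InfinitePlace F → ℝ)) => kz k u p.2 :=
    (continuous_kz hk u).comp continuous_snd
  have hM' : ∀ p : (InfinitePlace F → ℂ) ×
      ((InfinitePlace F → ℂ) × (InfinitePlace F → ℝ)), ‖kz k u p.2‖ ≤ M := fun p => hM p.2
  have h4 : Integrable (fun p : (InfinitePlace F → ℂ) ×
      ((InfinitePlace F → ℂ) × (InfinitePlace F → ℝ)) =>
        kz k u p.2 * S.indicator (fun q => f (xi q.1 q.2, d)) (emb F c * p.1 + p.2.1, p.2.2))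
      ((volume.restrict (ZSpan.fundamentalDomain (embBasis F))).prod volume) :=
    Integrable.bdd_mul h3 hcont.aestronglyMeasurable (Filter.Eventually.of_forall hM')
  refine h4.congr ?_
  have h5 : ∀ᵐ p ∂((volume.restrict (ZSpan.fundamentalDomain (embBasis F))).prod
      (volume : Measure ((InfinitePlace F → ℂ) × (InfinitePlace F → ℝ)))),
      p.1 ∈ ZSpan.fundamentalDomain (embBasis F) := by
    have h6 : ∀ᵐ z ∂((volume : Measure (InfinitePlace F → ℂ)).restrict
        (ZSpan.fundamentalDomain (embBasis F))), z ∈ ZSpan.fundamentalDomain (embBasis F) :=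
      ae_restrict_mem meas_fd
    exact Measure.quasiMeasurePreserving_fst.ae h6
  filter_upwards [h5] with p hp
  by_cases hq : kz k u p.2 = 0
  · rw [hq, zero_mul, zero_mul]
  · congr 1
    rw [Set.indicator_of_mem]
    have h6 : ‖p.2‖ ≤ R := by
      have := hR (subset_tsupport _ hq)
      rwa [mem_closedBall_zero_iff] at this
    have h7 : ‖p.1‖ ≤ R' := by
      have := hR' hp
      rwa [mem_closedBall_zero_iff] at this
    rw [hS, mem_closedBall_zero_iff]
    have h8 : ‖emb F c * p.1‖ ≤ ‖emb F c‖ * R' :=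
      (norm_mul_le _ _).trans (mul_le_mul_of_nonneg_left h7 (norm_nonneg _))
    refine norm_prod_le_iff.mpr ⟨?_, ?_⟩
    · exact (norm_add_le _ _).trans (add_le_add h8 ((norm_fst_le _).trans h6))
    · refine ((norm_snd_le _).trans h6).trans ?_
      have := (norm_nonneg _).trans h8
      linarith

variable {D : Type} [MulAction (GL (Fin 2) F) D]

theorem inv_Rz (k : InfinitePlace F → ℝ → ℂ) {f : Xi F × D → ℂ} (hf : Inv f) : Inv (Rz k f) := by
  intro g x d
  change ∫ x' : Xi F, H3.pk k (g • x) x' * f (x', g • d) = ∫ x' : Xi F, H3.pk k x x' * f (x', d)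
  have h1 := (Xi.measurePreserving_smul g).integral_comp
    (measurableEmbedding_const_smul g) (fun x' : Xi F => H3.pk k (g • x) x' * f (x', g • d))
  rw [← h1]
  refine integral_congr_ae (Filter.Eventually.of_forall fun x' => ?_)
  simp only
  rw [hf]
  congr 1
  exact H3.pk_smul k (fun w => Matrix.GeneralLinearGroup.map (n := Fin 2) w.embedding g) x x'

omit [MulAction (GL (Fin 2) F) D] in
theorem measurable_Rz {k : InfinitePlace F → ℝ → ℂ} (hk : ∀ w, H3.IsKer (k w))
    {f : Xi F × D → ℂ} (hm : ∀ d, Measurable fun x => f (x, d)) (d : D) :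
    Measurable fun x => Rz k f (x, d) := by
  have h1 : Measurable fun p : Xi F × Xi F => H3.pk k p.1 p.2 * f (p.2, d) := by
    refine Measurable.mul ?_ ((hm d).comp measurable_snd)
    exact (H3.continuous_pk (k := k) fun w => (hk w).1).measurable
  exact (h1.stronglyMeasurable.integral_prod_right (ν := volume)).measurable

omit [MulAction (GL (Fin 2) F) D] in
lemma integral_kz (k : InfinitePlace F → ℝ → ℂ) (u₀ u : InfinitePlace F → ℝ) :
    ∫ z : InfinitePlace F → ℂ, kz k u₀ (z, u) =
      (exp (∑ w, (u₀ w - u w)) : ℂ) * ∏ w, H3.abel (k w) (u₀ w - u w) := by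
  have h1 : ∀ w, ∫ z : ℂ, k w (H3.cu (ps (0, u₀ w)) (ps (z, u w))) =
      ((exp (u₀ w) * exp (u w) : ℝ) : ℂ) * H3.abel (k w) (u₀ w - u w) := by
    intro w
    have h2 := H3.integral_horo (k w) (exp_pos (u₀ w)) (exp_pos (u w)) 0
    rw [log_exp, log_exp, Complex.real_smul] at h2
    rw [← h2]
    refine integral_congr_ae (Filter.Eventually.of_forall fun z => ?_)
    simp only
    congr 1
    unfold H3.cu
    change (Complex.normSq (0 - z) + exp (u₀ w) ^ 2 + exp (u w) ^ 2) /
      (2 * exp (u₀ w) * exp (u w)) = _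
    rw [Complex.normSq_eq_norm_sq]
  have h0 : ∫ z : InfinitePlace F → ℂ, kz k u₀ (z, u) = (exp (-2 * ∑ w, u w) : ℂ) *
      ∫ z : InfinitePlace F → ℂ, H3.pk k (Ps (0, u₀)) (Ps (z, u)) := by
    rw [← integral_const_mul]
    rfl
  rw [h0]
  have h3 : ∫ z : InfinitePlace F → ℂ, H3.pk k (Ps (0, u₀)) (Ps (z, u)) =
      ∏ w, ∫ z : ℂ, k w (H3.cu (ps (0, u₀ w)) (ps (z, u w))) :=
    integral_fintype_prod_volume_eq_prod fun w z => k w (H3.cu (ps (0, u₀ w)) (ps (z, u w)))
  rw [h3]
  simp_rw [h1]
  rw [Finset.prod_mul_distrib, ← mul_assoc]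
  congr 1
  rw [← Complex.ofReal_prod, ← Complex.ofReal_mul]
  congr 1
  simp only [← exp_add]
  rw [← exp_sum, ← exp_add]
  congr 1
  rw [Finset.sum_add_distrib, Finset.sum_sub_distrib]
  ring

variable [IsTotallyComplex F] [IsLevel F D]

/-- **The constant term of a radial convolution.** -/
theorem ct_Rz {f : Xi F × D → ℂ} (hf : Inv f) (hm : ∀ d, Measurable fun x => f (x, d))
    (hi : ∀ d, LocallyIntegrable fun x => f (x, d)) {k : InfinitePlace F → ℝ → ℂ}
    (hk : ∀ w, H3.IsKer (k w)) (u₀ : InfinitePlace F → ℝ) (d : D) :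
    ct (Rz k f) u₀ d = ∫ u : InfinitePlace F → ℝ, (∏ w, H3.abel (k w) (u w)) *
      ((exp (-∑ w, u w) : ℂ) * ct f (u₀ + u) d) := by
  obtain ⟨c, hc⟩ := exists_goodMod (F := F) d
  set vol : ℂ := ((volume : Measure (InfinitePlace F → ℂ)).real
    (ZSpan.fundamentalDomain (embBasis F)) : ℂ) with hvol
  have hvol0 : vol ≠ 0 := vol_ne_zero F
  have hj := integrable_joint (hi d) c hk u₀
  -- the inner mean
  have h1 : ∀ q : (InfinitePlace F → ℂ) × (InfinitePlace F → ℝ),
      ∫ z in ZSpan.fundamentalDomain (embBasis F),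
        kz k u₀ q * f (xi (emb F c * z + q.1) q.2, d) = kz k u₀ q * (vol * ct f q.2 d) := by
    intro q
    rw [integral_const_mul]
    congr 1
    have h2 : ∀ z : InfinitePlace F → ℂ, f (xi (emb F c * z + q.1) q.2, d) =
        (fun z => f (xi (emb F c * z) q.2, d)) (z + emb F c⁻¹ * q.1) := by
      intro z
      simp only
      congr 3
      rw [mul_add, ← mul_assoc, ← map_mul, mul_inv_cancel₀ hc.1, map_one, one_mul]
    have h3 := mn_add (hf.perF hc q.2) (emb F c⁻¹ * q.1)
    rw [mn, ← hvol] at h3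
    simp_rw [h2]
    rw [ct_eq hf hm hc, ctc, ← h3, mul_inv_cancel_left₀ hvol0]
  have h4 : ct (Rz k f) u₀ d =
      ∫ q : (InfinitePlace F → ℂ) × (InfinitePlace F → ℝ), kz k u₀ q * ct f q.2 d := by
    rw [ct_eq (inv_Rz k hf) (measurable_Rz hk hm) hc, ctc, mn, ← hvol]
    simp_rw [Rz_xi]
    rw [integral_integral_swap hj]
    simp_rw [h1]
    rw [← integral_const_mul]
    refine integral_congr_ae (Filter.Eventually.of_forall fun q => ?_)
    simp only
    field_simp
  have h5 : Integrable fun q : (InfinitePlace F → ℂ) × (InfinitePlace F → ℝ) =>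
      kz k u₀ q * ct f q.2 d := by
    have h6 := hj.integral_prod_right
    simp only [h1] at h6
    refine (h6.const_mul vol⁻¹).congr (Filter.Eventually.of_forall fun q => ?_)
    simp only
    field_simp
  rw [h4, Measure.volume_eq_prod, integral_prod_symm _ h5]
  simp only [integral_mul_const, integral_kz]
  rw [← integral_add_left_eq_self _ u₀]
  refine integral_congr_ae (Filter.Eventually.of_forall fun u => ?_)
  simp only [Pi.add_apply, sub_add_cancel_left, H3.abel_even, Finset.sum_neg_distrib]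
  ring

end

end Radial

end Fermat.Agent.LT.Aleph
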