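import Fermat.Agent.LT.Aleph.Adelic
import Fermat.Agent.LT.Aleph.CTerm
import Fermat.Agent.LT.HK.Place

/-!
# The rows of the boundary data as Hecke kernels (helper36)

* `Bdry.Rep B t`: the kernel of `t v` is the row of `B` at `v`; `Rep.Tz`, `Rep.Tzw`;
* `rep_bdry`: for the level `D U` these are the spherical Hecke operators `tAt`.
-/

set_option autoImplicit false

open Matrix NumberField IsDedekindDomain WithZero
open scoped WithZero

noncomputable section

namespace Fermat.Agent.LT.Aleph

open Lvl Iwa

section General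

variable {F : Type} [Field F] [NumberField F] {D : Type} [MulAction (GL (Fin 2) F) D]
  {V : Type} {G : Type*} [Group G] [MulAction G D]

/-- The Hecke kernels `t v` represent the rows of `B`. -/
structure Bdry.Rep (B : Bdry F D V) (t : V → HK G D) : Prop where
  ker : ∀ v d d', (t v).ker d d' = B.row v d d'

namespace Bdry.Rep

variable {B : Bdry F D V} {t : V → HK G D} (h : B.Rep t)

include h

theorem sum_row (v : V) (d : D) (φ : D → ℂ) :
    ((B.row v d).sum fun d' z => z * φ d') = (t v).act φ d := by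
  rw [HK.act_apply_sum (s := (B.row v d).support), Finsupp.sum]
  · exact Finset.sum_congr rfl fun d' _ => by rw [h.ker, smul_eq_mul]
  · intro d' hd'
    rw [h.ker] at hd'
    exact Finsupp.mem_support_iff.mpr hd'

/-- **The Hecke operators.** -/
theorem Tz (v : V) (f : Xi F × D → ℂ) (p : Xi F × D) :
    Tz B v f p = (t v).act (fun d' => f (p.1, d')) p.2 := h.sum_row v p.2 _

/-- **The Hecke operators along a word.** -/
theorem Tzw (l : List V) (f : Xi F × D → ℂ) (p : Xi F × D) :
    Tzw B l f p = ((l.map t).prod).act (fun d' => f (p.1, d')) p.2 := by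
  induction l generalizing p with
  | nil =>
    rw [List.map_nil, List.prod_nil, HK.act_one]
    rfl
  | cons v l ih =>
    rw [Tzw_cons, h.Tz, List.map_cons, List.prod_cons, HK.act_mul, LinearMap.comp_apply]
    exact congrArg (fun g => (t v).act g p.2) (funext fun d' => ih (p.1, d'))

end Bdry.Rep

end General

/-! ### The level `D U` -/

section Level

variable {E Γ : Type*} [Field E] [LinearOrderedCommGroupWithZero Γ] {w : Valuation E Γ}
  {H : Subgroup (GL (Fin 2) E)}

open Classical in
theorem ker_castHK_tH (h : H = GLO w) (𝔡 𝔡' : Datum w) (x y : Cos H) :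
    (HK.castHK h.symm 𝔡.tH).ker x y = if y ∈ nbH h 𝔡' x then 1 else 0 := by
  subst h
  rw [HK.castHK_rfl, 𝔡.tH_eq_tH 𝔡', Datum.ker_tH]
  rfl

variable {F : Type*} [Field F] [NumberField F] {U : Lev F}

open Classical in
theorem rowU_apply (v : {v // Good U v}) (d d' : D U) :
    rowU U v d d' = if (∀ w ≠ v.1, d w = d' w) ∧ d' v.1 ∈ nbU U v (d v.1) then 1 else 0 := by
  rw [rowU, Finsupp.finsetSum_apply]
  split_ifs with h
  · rw [Finset.sum_eq_single_of_mem _ h.2]
    · rw [Finsupp.single_apply, if_pos]
      refine RProd.ext' fun w => ?_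
      by_cases hw : w = v.1
      · subst hw
        rw [upd_same]
      · rw [upd_ne _ _ hw, h.1 w hw]
    · intro y _ hy
      rw [Finsupp.single_apply, if_neg]
      rintro rfl
      exact hy (by rw [upd_same])
  · refine Finset.sum_eq_zero fun y hy => ?_
    rw [Finsupp.single_apply, if_neg]
    rintro rfl
    refine h ⟨fun w hw => (upd_ne _ _ hw).symm, ?_⟩
    rwa [upd_same]

theorem ker_tAt (v : {v // Good U v}) (𝔡 : Datum (vF v.1)) (d d' : D U) :
    (HK.tAt (U := U) v.2 𝔡).ker d d' = rowU U v d d' := by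
  classical
  have h0 : HK.tAt (U := U) v.2 𝔡 = HK.atPl U v.1 (HK.castHK (Eq.symm v.2) 𝔡.tH) := by
    unfold HK.tAt
    exact HK.spAt_apply _ _
  rw [rowU_apply, h0, HK.ker_atPl]
  by_cases h : ∀ w ≠ v.1, d w = d' w
  · rw [if_pos h]
    refine (ker_castHK_tH v.2 𝔡 (datum v.1) _ _).trans ?_
    exact if_congr ⟨fun h' => ⟨h, h'⟩, fun h' => h'.2⟩ rfl rfl
  · rw [if_neg h, if_neg fun h'' => h h''.1]

end Level

/-- **The rows of `bdry U` are the spherical Hecke operators.** -/
theorem rep_bdry {F : Type} [Field F] [NumberField F] [IsTotallyComplex F] (U : Lev F)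
    (𝔡 : ∀ v : HeightOneSpectrum (𝓞 F), Datum (vF v)) :
    (bdry U).Rep fun v : {v // Good U v} => HK.tAt (U := U) v.2 (𝔡 v.1) where
  ker v d d' := ker_tAt v _ d d'

end Fermat.Agent.LT.Aleph

end
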