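import Fermat.Agent.LT.Aleph.Poly
import Fermat.Agent.LT.Aleph.Main
import Fermat.Agent.LT.Aleph.RowHK
import Fermat.Agent.LT.Auto.CuspStab
import Fermat.Agent.LT.Tr.SymKer
import Fermat.Agent.LT.Red.Local
import Fermat.Agent.LT.Desc.Mu

/-!
# The operator killing the constant terms, as an operator of symbols on `L²`

`symOp_alW_mem` : the polynomial `alW A k` in the letters `(1, t v)` and `(k, 1)` maps
`L²(PGL₂(F) \ Z)` to its cuspidal subspace, if `k_j` is the kernel `symKer (h w) (shift j w)`.
-/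

set_option autoImplicit false
set_option linter.unusedSectionVars false

noncomputable section

open MeasureTheory NumberField
open scoped ENNReal ComplexConjugate BigOperators

namespace Fermat.Agent.LT.Aleph

open Fermat.Agent.LT.Iso
open Fermat.Agent.LT.Desc (cuspX cuspX_le coe_mem_cuspX mem_cuspX_iff_of_ae exists_orbits)

section ae

variable {G Z : Type*} [Group G] [MeasurableSpace Z] [MulAction G Z] {ν : Measure Z}

/-- A finite linear combination, almost everywhere. -/
theorem coeFn_sum_smul {ι : Type*} (s : Finset ι) (c : ι → ℂ) (g : ι → autL2 G ν)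
    {g₀ : ι → Z → ℂ} (hg : ∀ j ∈ s, arep (g j) =ᵐ[ν] g₀ j) :
    (((∑ j ∈ s, c j • g j : autL2 G ν) : Lp ℂ 2 ν) : Z → ℂ) =ᵐ[ν]
      fun z => ∑ j ∈ s, c j * g₀ j z := by
  classical
  induction s using Finset.induction_on with
  | empty =>
    simp only [Finset.sum_empty]
    exact Lp.coeFn_zero ℂ 2 ν
  | insert i s hi ih =>
    rw [Finset.sum_insert hi]
    have h1 := ih fun j hj => hg j (Finset.mem_insert_of_mem hj)
    have h2 := (coeFn_ae_arep (g i)).trans (hg i (Finset.mem_insert_self _ _))
    filter_upwards [Lp.coeFn_add ((c i • g i : autL2 G ν) : Lp ℂ 2 ν)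
      ((∑ j ∈ s, c j • g j : autL2 G ν) : Lp ℂ 2 ν),
      Lp.coeFn_smul (c i) ((g i : autL2 G ν) : Lp ℂ 2 ν), h1, h2] with z e1 e2 e3 e4
    rw [Finset.sum_insert hi, ← e3, ← e4]
    refine e1.trans ?_
    rw [Pi.add_apply]
    congr 1

end ae

section letters

variable {G D : Type*} [Group G] [MulAction G D] {𝒦 : Type*} [Semigroup 𝒦] {W 𝒦₀ : Type*}

/-- the letters -/
def lettS (t : W → HK G D) (kk : 𝒦₀ → 𝒦) : W ⊕ 𝒦₀ → Symb G D 𝒦
  | .inl v => (1, t v)
  | .inr k => ((kk k : WithOne 𝒦), 1)

theorem prod_inl (t : W → HK G D) (kk : 𝒦₀ → 𝒦) (l : List W) :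
    (l.map fun v => lettS t kk (Sum.inl v)).prod = (1, (l.map t).prod) := by
  induction l with
  | nil => rfl
  | cons v l ih =>
    rw [List.map_cons, List.prod_cons, ih, List.map_cons, List.prod_cons]
    change ((1, t v) : Symb G D 𝒦) * _ = _
    rw [Prod.mk_mul_mk, one_mul]

end letters

section OneField

variable {F : Type} [Field F] [NumberField F] [IsTotallyComplex F] {D : Type}
  [MeasurableSpace D] [DiscreteMeasurableSpace D] [Countable D] [MulAction (GL (Fin 2) F) D]
  [IsLevel F D] {w : Xi F × D → ℝ≥0∞} {𝒦 : Type*} [Semigroup 𝒦]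
  (κ : KerSg (PG F) (volume : Measure (Xi F)) 𝒦)
  (hT : ∃ T : Finset D, ∀ d, ∃ g : PG F, g • d ∈ T) (hw : IsWeight (PG F) w)

theorem actD_eq_act {X : Type*} [MulAction (PG F) X] (a : HK (PG F) D) (f : X × D → ℂ) (z : X × D) :
    actD a f z = a.act (fun d' => f (z.1, d')) z.2 := by
  rw [actD_eq_sum, HK.act_apply_sum (s := (a.finite_row z.2).toFinset)]
  · exact Finset.sum_congr rfl fun d' _ => by rw [smul_eq_mul]
  · intro d' hd'
    exact (a.finite_row z.2).mem_toFinset.2 hd'

/-- **The operator of `(k, a)` almost everywhere.** -/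
theorem arep_symOp_ae (k : 𝒦) (a : HK (PG F) D)
    (f : autL2 (PG F) ((muXD (volume : Measure (Xi F)) D).withDensity w)) :
    arep (symOp κ hT hw ((k : WithOne 𝒦), a) f) =ᵐ[muXD (volume : Measure (Xi F)) D]
      fun z => ∫ x', κ.kap k z.1 x' * actD a (arep f) (x', z.2) := by
  rw [symOp_coe, opF_eq_mul_opD]
  have h1 := opD_ae hT hw a f (measurable_arep f) (arep_smul f) Filter.EventuallyEq.rfl
  exact opF_one_ae κ hT hw k (opD hT hw a f) (measurable_actD a (measurable_arep f))
    (actD_smul a (arep_smul f)) ((withDensity_ac (muXD (volume : Measure (Xi F)) D) w).ae_eq h1)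

theorem inv_arep (f : autL2 (PG F) ((muXD (volume : Measure (Xi F)) D).withDensity w)) :
    Inv (arep f) := fun g x d => arep_smul f (QuotientGroup.mk g : PG F) (x, d)

theorem measurable_sl (f : autL2 (PG F) ((muXD (volume : Measure (Xi F)) D).withDensity w))
    (d : D) : Measurable fun x => arep f (x, d) :=
  (measurable_arep f).comp (measurable_id.prodMk measurable_const)

theorem locallyIntegrable_slice (hw : IsWeight (PG F) w)
    (f : autL2 (PG F) ((muXD (volume : Measure (Xi F)) D).withDensity w))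
    (d : D) : LocallyIntegrable fun x => arep f (x, d) :=
  Red.locallyIntegrable_of_memLp hw (measurable_arep f) (fun g z => inv_arep f g z.1 z.2)
    (memLp_arep f) d

variable {W : Type} {B : Bdry F D W} {x : W → ℝ} (A : Data B.E B.pc fun v => (x v : ℂ))
  {h : InfinitePlace F → ℝ → ℂ} {t : W → HK (PG F) D} {𝒦₀ : Type*} {kk : 𝒦₀ → 𝒦}
  {k : Fin A.n → 𝒦₀}

/-- The polynomial, evaluated at the operators of the letters. -/
theorem evA_alW_symOp :
    evA (fun c => symOp κ hT hw (lettS t kk c)) (alW A k) =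
      ∑ j, ((A.coef j : ℂ) * ((B.sq (A.word j) : ℝ) : ℂ)⁻¹) •
        symOp κ hT hw ((kk (k j) : WithOne 𝒦), ((A.word j).map t).prod) := by
  rw [evA_alW]
  refine Finset.sum_congr rfl fun j _ => ?_
  congr 1
  have h1 : ((A.word j).map fun v => symOp κ hT hw (lettS t kk (Sum.inl v))).prod =
      symOp κ hT hw (1, ((A.word j).map t).prod) := by
    rw [← prod_inl t kk, map_list_prod, List.map_map]
    rfl
  rw [h1, ← map_mul]
  change symOp κ hT hw ((((kk (k j) : 𝒦) : WithOne 𝒦), (1 : HK (PG F) D)) * _) = _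
  rw [Prod.mk_mul_mk, mul_one, one_mul]

/-- **The operator killing the constant terms on `L²`.** -/
theorem alW_ae (hrep : B.Rep t)
    (hk : ∀ j x x', κ.kap (kk (k j)) x x' = H3.pk (fun w => symKer (h w) (A.shift j w)) x x')
    (f : autL2 (PG F) ((muXD (volume : Measure (Xi F)) D).withDensity w)) :
    ((evA (fun c => symOp κ hT hw (lettS t kk c)) (alW A k) f :
        autL2 (PG F) ((muXD (volume : Measure (Xi F)) D).withDensity w)) :
      Lp ℂ 2 ((muXD (volume : Measure (Xi F)) D).withDensity w)) =ᵐ[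
        (muXD (volume : Measure (Xi F)) D).withDensity w] Ral A h (arep f) := by
  rw [evA_alW_symOp κ hT hw A, sum_smul_apply']
  refine (coeFn_sum_smul Finset.univ _ _ fun j _ =>
    (withDensity_ac (muXD (volume : Measure (Xi F)) D) w).ae_eq
      (arep_symOp_ae κ hT hw (kk (k j)) _ f)).trans ?_
  refine Filter.Eventually.of_forall fun z => ?_
  unfold Ral
  refine Finset.sum_congr rfl fun j _ => ?_
  congr 1
  unfold Rz
  refine integral_congr_ae (Filter.Eventually.of_forall fun x' => ?_)
  simp only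
  rw [hk, actD_eq_act, hrep.Tzw]

/-- **It takes cuspidal values.** -/
theorem alW_mem_cuspX (hrep : B.Rep t) (hh : ∀ w, IsTest (h w))
    (hk : ∀ j x x', κ.kap (kk (k j)) x x' = H3.pk (fun w => symKer (h w) (A.shift j w)) x x')
    (f : autL2 (PG F) ((muXD (volume : Measure (Xi F)) D).withDensity w)) :
    ((evA (fun c => symOp κ hT hw (lettS t kk c)) (alW A k) f :
        autL2 (PG F) ((muXD (volume : Measure (Xi F)) D).withDensity w)) :
      Lp ℂ 2 ((muXD (volume : Measure (Xi F)) D).withDensity w)) ∈ cuspX hw := by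
  have hm : ∀ d, Measurable fun x => Ral A h (arep f) (x, d) :=
    measurable_Ral A hh (measurable_sl f)
  have hinv : Inv (Ral A h (arep f)) := inv_Ral A (inv_arep f)
  refine (mem_cuspX_iff_of_ae (measurable_from_prod_countable_left hm) (fun g z => ?_)
    (alW_ae κ hT hw A hrep hk f)).2 ?_
  · obtain ⟨g, rfl⟩ := QuotientGroup.mk_surjective g
    exact hinv g z.1 z.2
  · exact isCusp_Ral A hh (inv_arep f) (measurable_sl f) (locallyIntegrable_slice hw f)

end OneField

end Fermat.Agent.LT.Aleph

end
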