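import Mathlib

/-!
# The algebra of the operator killing the constant terms

`C` is an abelian group containing the image of a real vector space `ℝ^ι` with finite index, `p v` are elements
of `C`.  `T_v` acts on functions on `C` as the sum of the translations by `p v` and its inverse, `S_λ` as the
translation by the image of `λ`.  We construct polynomials in the `T_v` with coefficients in the group ring of
`ℝ^ι`, invariant under all sign changes, which act as `0` on all functions on `C`, and which do not vanish at a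
given system of eigenvalues (if the latter is not of the form `χ + χ⁻¹`).
-/

set_option autoImplicit false

open scoped BigOperators

noncomputable section

namespace Fermat.Agent.LT.Aleph

variable {ι V : Type} {C : Type} [CommGroup C]

/-- Formal operators: polynomials in the `T_v` whose coefficients are combinations of translations. -/
abbrev Op (ι V : Type) : Type := MvPolynomial V (AddMonoidAlgebra ℂ (ι → ℝ))

/-- A splitting of the quotient of `C` by a divisible group. -/
theorem exists_ret (E : Multiplicative (ι → ℝ) →* C) :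
    ∃ r : C →* C, (∀ t, r (E t) = 1) ∧ ∀ a, ∃ t, a = r a * E t := by
  classical
  let f : (ι → ℝ) →+ Additive C := MonoidHom.toAdditiveRight E
  let Q : AddSubgroup (Additive C) := f.range
  have hdiv : DivisibleBy Q ℤ :=
    Function.Surjective.divisibleBy f.rangeRestrict f.rangeRestrict_surjective
      (fun a n => map_zsmul _ n a)
  obtain ⟨g, hg⟩ := (Module.Baer.of_divisible Q).extension_property_addMonoidHom Q.subtype
    (Subtype.val_injective) (AddMonoidHom.id Q)
  have hg' : ∀ q : Q, g (q : Additive C) = q := fun q => DFunLike.congr_fun hg q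
  let r₁ : Additive C →+ Additive C := AddMonoidHom.id _ - Q.subtype.comp g
  refine ⟨MonoidHom.toAdditive.symm r₁, fun t => ?_, fun a => ?_⟩
  · have h2 := hg' ⟨f (Multiplicative.toAdd t), ⟨_, rfl⟩⟩
    have h3 : r₁ (f (Multiplicative.toAdd t)) = 0 := by
      rw [AddMonoidHom.sub_apply, AddMonoidHom.id_apply, AddMonoidHom.comp_apply, h2]
      exact sub_self _
    exact h3
  · obtain ⟨t, ht⟩ := (g (Additive.ofMul a)).2
    refine ⟨Multiplicative.ofAdd t, ?_⟩
    have h3 : Additive.ofMul a = r₁ (Additive.ofMul a) + f t := by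
      rw [ht, AddMonoidHom.sub_apply, AddMonoidHom.id_apply, AddMonoidHom.comp_apply]
      exact (sub_add_cancel _ _).symm
    exact h3

/-! ### The sign changes -/

/-- The sign change on `ℝ^ι`. -/
def flip (s : ι → ℤˣ) : (ι → ℝ) →+ (ι → ℝ) where
  toFun t i := ((s i : ℤ) : ℝ) * t i
  map_zero' := by ext i; simp
  map_add' x y := by ext i; simp [mul_add]

@[simp] lemma flip_apply (s : ι → ℤˣ) (t : ι → ℝ) (i : ι) : flip s t i = ((s i : ℤ) : ℝ) * t i := rfl

@[simp] lemma flip_one (t : ι → ℝ) : flip 1 t = t := by ext i; simp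

lemma flip_flip (s s' : ι → ℤˣ) (t : ι → ℝ) : flip s (flip s' t) = flip (s * s') t := by
  ext i; simp [mul_assoc]

/-- The sign change on the formal operators. -/
def flipOp (s : ι → ℤˣ) : Op ι V →+* Op ι V :=
  MvPolynomial.map (AddMonoidAlgebra.mapDomainRingHom ℂ (flip s))

/-- The translation `S_λ`. -/
def tr (t : ι → ℝ) : AddMonoidAlgebra ℂ (ι → ℝ) := AddMonoidAlgebra.single t 1

lemma flipOp_tr (s : ι → ℤˣ) (a : ℂ) (t : ι → ℝ) :
    flipOp (V := V) s (MvPolynomial.C (a • tr t)) = MvPolynomial.C (a • tr (flip s t)) := by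
  rw [flipOp, MvPolynomial.map_C]
  congr 1
  simp [tr]

lemma flipOp_X (s : ι → ℤˣ) (v : V) :
    flipOp s (MvPolynomial.X v : Op ι V) = MvPolynomial.X v := by
  rw [flipOp, MvPolynomial.map_X]

/-! ### The evaluations -/

/-- The action on the group ring of `C`. -/
def evC (E : Multiplicative (ι → ℝ) →* C) (p : V → C) : Op ι V →+* MonoidAlgebra ℂ C :=
  MvPolynomial.eval₂Hom
    (AddMonoidAlgebra.lift ℂ (MonoidAlgebra ℂ C) (ι → ℝ) ((MonoidAlgebra.of ℂ C).comp E) :
      AddMonoidAlgebra ℂ (ι → ℝ) →+* MonoidAlgebra ℂ C)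
    (fun v => MonoidAlgebra.single (p v) 1 + MonoidAlgebra.single (p v)⁻¹ 1)

lemma evC_X (E : Multiplicative (ι → ℝ) →* C) (p : V → C) (v : V) :
    evC E p (MvPolynomial.X v) = MonoidAlgebra.single (p v) 1 + MonoidAlgebra.single (p v)⁻¹ 1 := by
  simp [evC]

lemma evC_tr (E : Multiplicative (ι → ℝ) →* C) (p : V → C) (a : ℂ) (t : ι → ℝ) :
    evC E p (MvPolynomial.C (a • tr t)) = a • MonoidAlgebra.single (E (Multiplicative.ofAdd t)) 1 := by
  simp [evC, tr]

/-- The value at a system of eigenvalues `x`, at the origin of the dual of `ℝ^ι`. -/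
def ev (x : V → ℂ) : Op ι V →+* ℂ :=
  MvPolynomial.eval₂Hom (AddMonoidAlgebra.lift ℂ ℂ (ι → ℝ) 1 : AddMonoidAlgebra ℂ (ι → ℝ) →+* ℂ) x

lemma ev_X (x : V → ℂ) (v : V) : ev (ι := ι) x (MvPolynomial.X v) = x v := by simp [ev]

lemma ev_tr (x : V → ℂ) (a : ℂ) (t : ι → ℝ) : ev x (MvPolynomial.C (a • tr t)) = a := by
  simp [ev, tr]

/-! ### The construction -/

/-- One factor. -/
def fac (v : V) (z z' : ℂ) (t : ι → ℝ) : Op ι V :=
  MvPolynomial.X v - MvPolynomial.C (z • tr t) - MvPolynomial.C (z' • tr (-t))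

/-- The product over all signs. -/
def facs [Fintype ι] [DecidableEq ι] (v : V) (z z' : ℂ) (t : ι → ℝ) : Op ι V :=
  ∏ s : ι → ℤˣ, fac v z z' (flip s t)

lemma flipOp_fac (s : ι → ℤˣ) (v : V) (z z' : ℂ) (t : ι → ℝ) :
    flipOp s (fac v z z' t) = fac v z z' (flip s t) := by
  rw [fac, fac, map_sub, map_sub, flipOp_X, flipOp_tr, flipOp_tr, map_neg]

lemma flipOp_facs [Fintype ι] [DecidableEq ι] (s : ι → ℤˣ) (v : V) (z z' : ℂ) (t : ι → ℝ) :
    flipOp s (facs v z z' t) = facs v z z' t := by
  rw [facs, map_prod]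
  refine Fintype.prod_equiv (Equiv.mulLeft s) _ _ fun s' => ?_
  rw [flipOp_fac, flip_flip]
  rfl

section Idem

variable (A : Subgroup C) [Fintype A]

/-- The idempotent attached to a character of the finite group `A`. -/
def idem (χ : AddChar (Additive A) ℂ) : MonoidAlgebra ℂ C :=
  ((Fintype.card A : ℂ))⁻¹ • ∑ c : A, (χ (-Additive.ofMul c)) • MonoidAlgebra.single (c : C) 1

lemma sum_idem [Fintype (AddChar (Additive A) ℂ)] :
    ∑ χ : AddChar (Additive A) ℂ, idem A χ = 1 := by
  classical
  simp only [idem]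
  rw [← Finset.smul_sum, Finset.sum_comm]
  have h1 : ∀ c : A, ∑ χ : AddChar (Additive A) ℂ,
      (χ (-Additive.ofMul c)) • (MonoidAlgebra.single (c : C) (1 : ℂ)) =
      if c = 1 then (Fintype.card A : ℂ) • (1 : MonoidAlgebra ℂ C) else 0 := by
    intro c
    rw [← Finset.sum_smul]
    have h2 := AddChar.sum_apply_eq_ite (α := Additive A) (-Additive.ofMul c)
    have h4 : (Fintype.card (Additive A) : ℂ) = (Fintype.card A : ℂ) := by
      rw [Fintype.card_congr (Additive.toMul (α := A))]
    have h3 : (∑ χ : AddChar (Additive A) ℂ, χ (-Additive.ofMul c)) =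
        if c = 1 then (Fintype.card A : ℂ) else 0 := by
      have h5 : (-Additive.ofMul c = 0) ↔ c = 1 := by rw [neg_eq_zero]; exact Iff.rfl
      rw [← h4]
      simp only [h5] at h2
      convert h2
    rw [h3]
    split_ifs with h
    · rw [h]; rfl
    · rw [zero_smul]
  rw [Finset.sum_congr rfl fun c _ => h1 c, Finset.sum_ite_eq' Finset.univ (1 : A)]
  simp

lemma single_mul_idem (χ : AddChar (Additive A) ℂ) (a : A) :
    MonoidAlgebra.single (a : C) 1 * idem A χ = χ (Additive.ofMul a) • idem A χ := by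
  classical
  have h0 : (MonoidAlgebra.single (a : C) (1 : ℂ)) *
      ∑ c : A, (χ (-Additive.ofMul c)) • MonoidAlgebra.single (c : C) (1 : ℂ) =
      χ (Additive.ofMul a) •
        ∑ c : A, (χ (-Additive.ofMul c)) • MonoidAlgebra.single (c : C) (1 : ℂ) := by
    rw [Finset.mul_sum, Finset.smul_sum]
    refine Fintype.sum_equiv (Equiv.mulLeft a) _ _ fun c => ?_
    have h1 : (χ (Additive.ofMul a) * χ (-Additive.ofMul ((Equiv.mulLeft a) c)) : ℂ) =
        χ (-Additive.ofMul c) := by
      rw [← AddChar.map_add_eq_mul]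
      congr 1
      change Additive.ofMul a + -(Additive.ofMul a + Additive.ofMul c) = -Additive.ofMul c
      abel
    rw [mul_smul_comm, MonoidAlgebra.single_mul_single, one_mul, smul_smul, h1]
    rfl
  rw [idem, mul_smul_comm, h0, smul_comm]

lemma single_inv_mul_idem (χ : AddChar (Additive A) ℂ) (a : A) :
    MonoidAlgebra.single ((a : C)⁻¹) 1 * idem A χ = (χ (Additive.ofMul a))⁻¹ • idem A χ := by
  have h := single_mul_idem A χ a⁻¹
  rw [Subgroup.coe_inv] at h
  rw [h, ofMul_inv, AddChar.map_neg_eq_inv]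

end Idem

variable (E : Multiplicative (ι → ℝ) →* C) (p : V → C)

/-- The factor for `χ` and the trivial signs kills the `χ`-part. -/
lemma evC_fac_mul_idem (A : Subgroup C) [Fintype A] (χ : AddChar (Additive A) ℂ) (v : V) (a : A)
    (t : ι → ℝ) (hp : p v = a * E (Multiplicative.ofAdd t)) :
    evC E p (fac v (χ (Additive.ofMul a)) (χ (Additive.ofMul a))⁻¹ t) * idem A χ = 0 := by
  rw [fac, map_sub, map_sub, evC_X, evC_tr, evC_tr, sub_mul, sub_mul, add_mul]
  have h1 : (MonoidAlgebra.single (p v) 1 : MonoidAlgebra ℂ C) * idem A χ =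
      (χ (Additive.ofMul a) • MonoidAlgebra.single (E (Multiplicative.ofAdd t)) 1) * idem A χ := by
    have h2 : (MonoidAlgebra.single (p v) 1 : MonoidAlgebra ℂ C) =
        MonoidAlgebra.single (E (Multiplicative.ofAdd t)) 1 * MonoidAlgebra.single (a : C) 1 := by
      rw [MonoidAlgebra.single_mul_single, one_mul, hp, mul_comm]
    rw [h2, mul_assoc, single_mul_idem, mul_smul_comm, smul_mul_assoc]
  have h3 : (MonoidAlgebra.single (p v)⁻¹ 1 : MonoidAlgebra ℂ C) * idem A χ =
      ((χ (Additive.ofMul a))⁻¹ • MonoidAlgebra.single (E (Multiplicative.ofAdd (-t))) 1) *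
        idem A χ := by
    have h2 : (MonoidAlgebra.single (p v)⁻¹ 1 : MonoidAlgebra ℂ C) =
        MonoidAlgebra.single (E (Multiplicative.ofAdd (-t))) 1 *
          MonoidAlgebra.single ((a : C)⁻¹) 1 := by
      rw [MonoidAlgebra.single_mul_single, one_mul, hp, mul_inv, mul_comm, ofAdd_neg, map_inv]
    rw [h2, mul_assoc, single_inv_mul_idem, mul_smul_comm, smul_mul_assoc]
  rw [h1, h3]
  abel

/-- **The algebraic part of the construction of the operator killing the constant terms.** -/
theorem exists_aleph [Finite ι] (hE : E.range.FiniteIndex) (x : V → ℂ)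
    (hx : ∀ χ : C →* ℂˣ, (∀ t, χ (E t) = 1) → ∃ v, x v ≠ χ (p v) + ((χ (p v))⁻¹ : ℂˣ)) :
    ∃ D : Op ι V, (∀ s, flipOp s D = D) ∧ evC E p D = 0 ∧ ev x D ≠ 0 := by
  classical
  have := Fintype.ofFinite ι
  obtain ⟨r, hr1, hr2⟩ := exists_ret E
  -- the finite complement
  let A : Subgroup C := r.range
  have hAfin : Finite A := by
    have h1 : Finite (C ⧸ E.range) := Subgroup.finite_quotient_of_finiteIndex
    let q : C ⧸ E.range → A := Quotient.lift (fun a => (⟨r a, ⟨a, rfl⟩⟩ : A)) (by
      intro a b hab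
      have h2 : a⁻¹ * b ∈ E.range := QuotientGroup.leftRel_apply.mp hab
      obtain ⟨t, ht⟩ := h2
      have h3 : r (a⁻¹ * b) = 1 := by rw [← ht]; exact hr1 t
      rw [map_mul, map_inv] at h3
      exact Subtype.ext (inv_mul_eq_one.mp h3))
    refine Finite.of_surjective q ?_
    rintro ⟨_, a, rfl⟩
    exact ⟨Quotient.mk _ a, rfl⟩
  have := Fintype.ofFinite A
  have := Fintype.ofFinite (AddChar (Additive A) ℂ)
  -- the components of `p v`
  choose t ht using fun v => hr2 (p v)
  let c : V → A := fun v => ⟨r (p v), ⟨_, rfl⟩⟩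
  have hp : ∀ v, p v = (c v : C) * E (Multiplicative.ofAdd (Multiplicative.toAdd (t v))) := ht
  -- the choice of `v` for every character
  have hv : ∀ χ : AddChar (Additive A) ℂ, ∃ v, x v ≠ χ (Additive.ofMul (c v)) +
      (χ (Additive.ofMul (c v)))⁻¹ := by
    intro χ
    let χ' : C →* ℂ :=
      { toFun := fun a => χ (Additive.ofMul (⟨r a, ⟨a, rfl⟩⟩ : A))
        map_one' := by
          have : (⟨r 1, ⟨1, rfl⟩⟩ : A) = 1 := Subtype.ext (map_one r)
          rw [this, ofMul_one, AddChar.map_zero_eq_one]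
        map_mul' := fun a b => by
          have : (⟨r (a * b), ⟨a * b, rfl⟩⟩ : A) = ⟨r a, ⟨a, rfl⟩⟩ * ⟨r b, ⟨b, rfl⟩⟩ :=
            Subtype.ext (map_mul r a b)
          rw [this, ofMul_mul, AddChar.map_add_eq_mul] }
    obtain ⟨v, hv⟩ := hx χ'.toHomUnits (fun t => by
      refine Units.ext ?_
      change χ (Additive.ofMul (⟨r (E t), ⟨E t, rfl⟩⟩ : A)) = 1
      have : (⟨r (E t), ⟨E t, rfl⟩⟩ : A) = 1 := Subtype.ext (hr1 t)
      rw [this, ofMul_one, AddChar.map_zero_eq_one])
    refine ⟨v, fun h => hv ?_⟩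
    rw [Units.val_inv_eq_inv_val]
    exact h
  choose w hw using hv
  refine ⟨∏ χ : AddChar (Additive A) ℂ, facs (w χ) (χ (Additive.ofMul (c (w χ))))
    (χ (Additive.ofMul (c (w χ))))⁻¹ (Multiplicative.toAdd (t (w χ))), fun s => ?_, ?_, ?_⟩
  · rw [map_prod]
    exact Finset.prod_congr rfl fun χ _ => flipOp_facs s _ _ _ _
  · set D : Op ι V := ∏ χ : AddChar (Additive A) ℂ, facs (w χ) (χ (Additive.ofMul (c (w χ))))
      (χ (Additive.ofMul (c (w χ))))⁻¹ (Multiplicative.toAdd (t (w χ))) with hD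
    have hkill : ∀ χ : AddChar (Additive A) ℂ, evC E p D * idem A χ = 0 := by
      intro χ
      have h1 : fac (w χ) (χ (Additive.ofMul (c (w χ)))) (χ (Additive.ofMul (c (w χ))))⁻¹
          (Multiplicative.toAdd (t (w χ))) ∣ D := by
        refine dvd_trans ?_ (Finset.dvd_prod_of_mem _ (Finset.mem_univ χ))
        have h2 := Finset.dvd_prod_of_mem (fun s : ι → ℤˣ => fac (w χ)
          (χ (Additive.ofMul (c (w χ)))) (χ (Additive.ofMul (c (w χ))))⁻¹
          (flip s (Multiplicative.toAdd (t (w χ))))) (Finset.mem_univ 1)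
        rw [flip_one] at h2
        exact h2
      obtain ⟨D', hD'⟩ := h1
      rw [hD', map_mul, mul_comm (evC E p (fac _ _ _ _)), mul_assoc,
        evC_fac_mul_idem E p A χ (w χ) (c (w χ)) _ (hp _), mul_zero]
    rw [← mul_one (evC E p D), ← sum_idem A, Finset.mul_sum]
    exact Finset.sum_eq_zero fun χ _ => hkill χ
  · rw [map_prod, Finset.prod_ne_zero_iff]
    intro χ _
    rw [facs, map_prod, Finset.prod_ne_zero_iff]
    intro s _
    rw [fac, map_sub, map_sub, ev_X, ev_tr, ev_tr]
    intro h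
    apply hw χ
    rw [sub_sub, sub_eq_zero] at h
    exact h

end Fermat.Agent.LT.Aleph

end
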