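import Fermat.Agent.LT.Aleph.SymKer
import Fermat.Agent.LT.H3.Separate
import Fermat.Agent.LT.Red.KerInst

/-!
# The inverse Abel transform of a smooth function is Lipschitz

`lKer_ofAbel`: `g` even, `C⁴`, compactly supported ⇒ `ofAbel g` is an `LKer`;
`IsTest.lKer`: the kernels `symKer h t` are `LKer`.
-/

set_option autoImplicit false

open MeasureTheory Set Real
open scoped ContDiff Topology

namespace Fermat.Agent.LT

namespace H3

/-- comparison of a function with a majorant of its derivative on `[0, ∞)` -/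
theorem norm_le_of_deriv_le {f f' : ℝ → ℂ} {B B' : ℝ → ℝ} {a : ℝ}
    (hf : ∀ x, a ≤ x → HasDerivAt f (f' x) x) (hB : ∀ x, HasDerivAt B (B' x) x)
    (ha : ‖f a‖ ≤ B a) (hb : ∀ x, a ≤ x → ‖f' x‖ ≤ B' x) {x : ℝ} (hx : a ≤ x) :
    ‖f x‖ ≤ B x :=
  image_norm_le_of_norm_deriv_right_le_deriv_boundary (a := a) (b := x) (f' := f')
    (fun y hy => (hf y hy.1).continuousAt.continuousWithinAt)
    (fun y hy => (hf y hy.1).hasDerivWithinAt) ha hB (fun y hy => hb y hy.1) ⟨hx, le_rfl⟩

/-- The numerator of the derivative of `g' / sinh`. -/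
theorem norm_num_le {g : ℝ → ℂ} (hg : ContDiff ℝ 4 g) (he : ∀ r, g (-r) = g r)
    (hs : HasCompactSupport g) : ∃ M : ℝ, 0 ≤ M ∧ ∀ r, 0 ≤ r →
      ‖sinh r • deriv (deriv g) r - cosh r • deriv g r‖ ≤ M * sinh r ^ 3 := by
  have c4 : ContDiff ℝ (3 + 1) g := hg
  have c3 : ContDiff ℝ (2 + 1) (deriv g) := (contDiff_succ_iff_deriv.mp c4).2.2
  have c2 : ContDiff ℝ (1 + 1) (deriv (deriv g)) := (contDiff_succ_iff_deriv.mp c3).2.2
  have c1 : ContDiff ℝ 1 (deriv (deriv (deriv g))) := (contDiff_succ_iff_deriv.mp c2).2.2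
  set g1 := deriv g with hg1
  set g2 := deriv g1 with hg2
  set g3 := deriv g2 with hg3
  set g4 := deriv g3 with hg4
  have d1 : ∀ x, HasDerivAt g1 (g2 x) x := fun x =>
    (c3.differentiable (by norm_num) x).hasDerivAt
  have d2 : ∀ x, HasDerivAt g2 (g3 x) x := fun x =>
    (c2.differentiable (by norm_num) x).hasDerivAt
  have d3 : ∀ x, HasDerivAt g3 (g4 x) x := fun x =>
    (c1.differentiable one_ne_zero x).hasDerivAt
  have h10 : g1 0 = 0 := deriv_zero_of_even he
  have h30 : g3 0 = 0 := deriv_zero_of_even fun r => deriv_deriv_even he r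
  have cc : Continuous fun x => g4 x - g2 x :=
    (contDiff_one_iff_deriv.mp c1).2.sub c2.continuous
  have ccs : HasCompactSupport fun x => g4 x - g2 x := hs.deriv.deriv.deriv.deriv.sub hs.deriv.deriv
  obtain ⟨M, hM⟩ := ccs.exists_bound_of_continuous cc
  have hM0 : 0 ≤ M := (norm_nonneg _).trans (hM 0)
  -- the odd function `g''' - g'`
  have e1 : ∀ r, 0 ≤ r → ‖g3 r - g1 r‖ ≤ M * sinh r := fun r hr =>
    norm_le_of_deriv_le (a := 0) (f := fun r => g3 r - g1 r) (f' := fun r => g4 r - g2 r)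
      (B := fun r => M * sinh r) (B' := fun r => M * cosh r)
      (fun x _ => (d3 x).sub (d1 x)) (fun x => (Real.hasDerivAt_sinh x).const_mul M)
      (by simp [h10, h30])
      (fun x _ => (hM x).trans (le_mul_of_one_le_right hM0 (Real.one_le_cosh x))) hr
  refine ⟨M, hM0, fun r hr => ?_⟩
  refine norm_le_of_deriv_le (a := 0)
    (f := fun r => sinh r • g2 r - cosh r • g1 r) (f' := fun r => sinh r • (g3 r - g1 r))
    (B := fun r => M * sinh r ^ 3) (B' := fun r => M * (3 * sinh r ^ 2 * cosh r)) (fun x _ => ?_)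
    (fun x => ?_) (by simp [h10]) (fun x hx => ?_) hr
  · have h1 := ((Real.hasDerivAt_sinh x).smul (d2 x)).sub ((Real.hasDerivAt_cosh x).smul (d1 x))
    refine h1.congr_deriv ?_
    rw [smul_sub]
    abel
  · have h1 := ((Real.hasDerivAt_sinh x).pow 3).const_mul M
    refine h1.congr_deriv ?_
    norm_num
  · have hs0 : 0 ≤ sinh x := Real.sinh_nonneg_iff.mpr hx
    rw [norm_smul, Real.norm_of_nonneg hs0]
    calc sinh x * ‖g3 x - g1 x‖ ≤ sinh x * (M * sinh x) := by
          gcongr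
          exact e1 x hx
      _ ≤ M * (3 * sinh x ^ 2 * cosh x) := by
          have h1 := Real.one_le_cosh x
          have h2 : 0 ≤ M * sinh x ^ 2 := by positivity
          nlinarith

/-- `psi g` is Lipschitz as a function of `cosh r`. -/
theorem exists_psi_lipschitz {g : ℝ → ℂ} (hg : ContDiff ℝ 4 g) (he : ∀ r, g (-r) = g r)
    (hs : HasCompactSupport g) : ∃ K : ℝ, 0 ≤ K ∧ ∀ a b, 0 ≤ a → a ≤ b →
      ‖psi g b - psi g a‖ ≤ K * (cosh b - cosh a) := by
  obtain ⟨M, hM0, hM⟩ := norm_num_le hg he hs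
  have c4 : ContDiff ℝ (3 + 1) g := hg
  have c3 : ContDiff ℝ (2 + 1) (deriv g) := (contDiff_succ_iff_deriv.mp c4).2.2
  have d1 : ∀ x, HasDerivAt (deriv g) (deriv (deriv g) x) x := fun x =>
    (c3.differentiable (by norm_num) x).hasDerivAt
  have hc : Continuous (psi g) := continuous_psi (hg.of_le (by norm_num)) he
  -- the derivative away from zero
  have hd : ∀ x, 0 < x → HasDerivAt (psi g) (-((2 * π)⁻¹ • ((sinh x ^ 2)⁻¹ •
      (sinh x • deriv (deriv g) x - cosh x • deriv g x)))) x := by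
    intro x hx
    have hs0 : 0 < sinh x := Real.sinh_pos_iff.mpr hx
    have h1 : psi g =ᶠ[𝓝 x] fun r => -((2 * π)⁻¹ • ((sinh r)⁻¹ • deriv g r)) := by
      filter_upwards [isOpen_ne.mem_nhds hx.ne'] with s hs'
      rw [psi, if_neg hs', mul_inv, mul_smul]
    have h2 := ((((Real.hasDerivAt_sinh x).inv hs0.ne').smul (d1 x)).const_smul (2 * π)⁻¹).neg
    refine (h2.congr_of_eventuallyEq h1).congr_deriv ?_
    congr 2
    rw [smul_sub, smul_smul, smul_smul, neg_div, neg_smul, sub_eq_add_neg]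
    congr 2
    · rw [Pi.inv_apply]
      field_simp
    · congr 1
      rw [div_eq_mul_inv, mul_comm]
  have hpos : ∀ a b, 0 < a → a ≤ b →
      ‖psi g b - psi g a‖ ≤ (2 * π)⁻¹ * M * (cosh b - cosh a) := by
    intro a b ha hab
    refine norm_le_of_deriv_le (a := a) (f := fun x => psi g x - psi g a)
      (f' := fun x => -((2 * π)⁻¹ • ((sinh x ^ 2)⁻¹ •
      (sinh x • deriv (deriv g) x - cosh x • deriv g x))))
      (B := fun x => (2 * π)⁻¹ * M * (cosh x - cosh a))
      (B' := fun x => (2 * π)⁻¹ * M * sinh x)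
      (fun x hx => (hd x (ha.trans_le hx)).sub_const _)
      (fun x => ((Real.hasDerivAt_cosh x).sub_const _).const_mul _) (by simp) (fun x hx => ?_) hab
    have hx0 : 0 < x := ha.trans_le hx
    have hs0 : 0 < sinh x := Real.sinh_pos_iff.mpr hx0
    have hπ : 0 < (2 * π)⁻¹ := by positivity
    rw [norm_neg, norm_smul, norm_smul, Real.norm_of_nonneg hπ.le,
      Real.norm_of_nonneg (by positivity), mul_assoc]
    have h5 : (sinh x ^ 2)⁻¹ * ‖sinh x • deriv (deriv g) x - cosh x • deriv g x‖ ≤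
        M * sinh x := by
      calc (sinh x ^ 2)⁻¹ * ‖sinh x • deriv (deriv g) x - cosh x • deriv g x‖
          ≤ (sinh x ^ 2)⁻¹ * (M * sinh x ^ 3) := by
            gcongr
            exact hM x hx0.le
        _ = M * sinh x := by field_simp
    exact mul_le_mul_of_nonneg_left h5 hπ.le
  refine ⟨(2 * π)⁻¹ * M, by positivity, fun a b ha hab => ?_⟩
  rcases ha.lt_or_eq with ha' | ha'
  · exact hpos a b ha' hab
  · subst ha'
    rcases hab.lt_or_eq with hb' | hb'
    · have l1 : Filter.Tendsto (fun a => ‖psi g b - psi g a‖) (𝓝[>] 0) (𝓝 ‖psi g b - psi g 0‖) :=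
        ((continuous_const.sub hc).norm.tendsto 0).mono_left nhdsWithin_le_nhds
      have l2 : Filter.Tendsto (fun a => (2 * π)⁻¹ * M * (cosh b - cosh a)) (𝓝[>] 0)
          (𝓝 ((2 * π)⁻¹ * M * (cosh b - cosh 0))) :=
        ((continuous_const.mul (continuous_const.sub Real.continuous_cosh)).tendsto 0).mono_left
          nhdsWithin_le_nhds
      refine le_of_tendsto_of_tendsto l1 l2 ?_
      filter_upwards [Ioo_mem_nhdsGT hb'] with a ha2
      exact hpos a b ha2.1 ha2.2.le
    · subst hb'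
      simp

/-- **The inverse Abel transform is Lipschitz.** -/
theorem lKer_ofAbel {g : ℝ → ℂ} (hg : ContDiff ℝ 4 g) (he : ∀ r, g (-r) = g r)
    (hs : HasCompactSupport g) : LKer (ofAbel g) := by
  obtain ⟨K, hK0, hK⟩ := exists_psi_lipschitz hg he hs
  have key : ∀ s t, 1 ≤ s → s ≤ t → ‖ofAbel g t - ofAbel g s‖ ≤ K * (t - s) := by
    intro s t hs1 hst
    have ht1 := hs1.trans hst
    have h1 := hK (arcosh s) (arcosh t) (Real.arcosh_nonneg hs1)
      ((Real.arcosh_le_arcosh (by linarith) (by linarith)).mpr hst)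
    rw [Real.cosh_arcosh hs1, Real.cosh_arcosh ht1, ← ofAbel_cosh he, ← ofAbel_cosh he,
      Real.cosh_arcosh hs1, Real.cosh_arcosh ht1] at h1
    exact h1
  refine lKer_of_lipschitz (K := K) (fun s t hs1 ht1 => ?_)
    (isKer_ofAbel (hg.of_le (by norm_num)) he hs)
  rcases le_total s t with h | h
  · rw [norm_sub_rev, abs_sub_comm, abs_of_nonneg (by linarith)]
    exact key s t hs1 h
  · rw [abs_of_nonneg (by linarith)]
    exact key t s ht1 h

end H3

namespace Aleph

/-- **The kernels of the operator killing the constant terms are `LKer`.** -/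
theorem IsTest.lKer {h : ℝ → ℂ} (hh : IsTest h) (t : ℝ) : H3.LKer (symKer h t) :=
  H3.lKer_ofAbel (contDiff_infty.mp (hh.contDiff_sym t) 4) (hh.sym_neg t)
    (hh.hasCompactSupport_sym t)

end Aleph

end Fermat.Agent.LT
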