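import Fermat.Agent.LT.Aleph.AlOp
import Fermat.Agent.LT.Aleph.LKerSym
import Fermat.Agent.LT.Auto.Pack

/-!
# The common factor of the two trace formulas

`IsFac κ hT hw φ P` : the polynomial `P` in the commuting self-adjoint letters `φ` has real
coefficients, contains a full kernel in every word, maps `L²` to its cuspidal part and is bounded
from `L²` to `L^∞`. `exists_common` : one `P` with these properties on both sides, and with
non-zero value at the given system of eigenvalues.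
-/

set_option autoImplicit false
set_option linter.unusedSectionVars false

noncomputable section

open MeasureTheory NumberField
open scoped ENNReal ComplexConjugate BigOperators InnerProductSpace

namespace Fermat.Agent.LT.Aleph

open Fermat.Agent.LT.Iso Fermat.Agent.LT.Tr
open Fermat.Agent.LT.Desc (cuspX cuspX_le coe_mem_cuspX mem_cuspX_iff_of_ae exists_orbits)

/-! ### The factor on one side -/

section Fac

variable {F : Type*} [Field F] [NumberField F] [IsTotallyComplex F] {D : Type*}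
  [MeasurableSpace D] [DiscreteMeasurableSpace D] [Countable D] [MulAction (GL (Fin 2) F) D]
  [IsLevel F D] {w : Xi F × D → ℝ≥0∞} {𝒦 : Type*} [Semigroup 𝒦]

/-- the operator of a polynomial -/
def opP (κ : KerSg (PG F) (volume : Measure (Xi F)) 𝒦)
    (hT : ∃ T : Finset D, ∀ d, ∃ g : PG F, g • d ∈ T) (hw : IsWeight (PG F) w) {ι : Type*}
    (φ : ι → Symb (PG F) D 𝒦) (P : List ι →₀ ℂ) :
    autL2 (PG F) ((muXD (volume : Measure (Xi F)) D).withDensity w) →L[ℂ]
      autL2 (PG F) ((muXD (volume : Measure (Xi F)) D).withDensity w) :=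
  evA (fun c => symOp κ hT hw (φ c)) P

variable {κ : KerSg (PG F) (volume : Measure (Xi F)) 𝒦}
  {hT : ∃ T : Finset D, ∀ d, ∃ g : PG F, g • d ∈ T} {hw : IsWeight (PG F) w} {ι : Type*}
  {φ : ι → Symb (PG F) D 𝒦} {P Q : List ι →₀ ℂ}

variable (κ hT hw φ) in
/-- the properties of the common factor -/
structure IsFac (P : List ι →₀ ℂ) : Prop where
  real : RealW P
  full : ∀ l, P l ≠ 0 → (l.map φ).prod ∈ fullS (PG F) D 𝒦
  cusp : ∀ f, (opP κ hT hw φ P f : Lp ℂ 2 ((muXD (volume : Measure (Xi F)) D).withDensity w)) ∈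
    cuspX hw
  sup : ∃ C : ℝ, 0 ≤ C ∧ ∀ f, ∀ᵐ z ∂muXD (volume : Measure (Xi F)) D,
    ‖arep (opP κ hT hw φ P f) z‖ ≤ C * ‖f‖

theorem opP_mulW : opP κ hT hw φ (mulW P Q) = opP κ hT hw φ P * opP κ hT hw φ Q := evA_mulW _ P Q

theorem word_symOp (l : List ι) :
    (l.map fun c => symOp κ hT hw (φ c)).prod = symOp κ hT hw (l.map φ).prod := by
  rw [map_list_prod, List.map_map]
  rfl

theorem opP_eq_linS : opP κ hT hw φ P =
    linS κ hT hw P.support (fun l => P l) fun l => (l.map φ).prod := by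
  unfold opP evA linS Finsupp.sum
  refine Finset.sum_congr rfl fun l _ => ?_
  change P l • _ = P l • _
  rw [word_symOp]

variable (κ hT hw) in
theorem commute_symOp (hc : ∀ i j, Commute (φ i) (φ j)) (i j : ι) :
    Commute (symOp κ hT hw (φ i)) (symOp κ hT hw (φ j)) := (hc i j).map (symOp κ hT hw)

theorem opP_comm (hc : ∀ i j, Commute (φ i) (φ j)) (P Q : List ι →₀ ℂ) :
    opP κ hT hw φ P * opP κ hT hw φ Q = opP κ hT hw φ Q * opP κ hT hw φ P :=
  (evA_comm (φ := fun c => symOp κ hT hw (φ c)) (commute_symOp κ hT hw hc) P Q).eq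

/-- the operator commutes with every symbol which commutes with the letters -/
theorem opP_comm_symOp {s : Symb (PG F) D 𝒦} (hs : ∀ i, Commute s (φ i)) (P : List ι →₀ ℂ) :
    symOp κ hT hw s * opP κ hT hw φ P = opP κ hT hw φ P * symOp κ hT hw s :=
  (commute_evA (φ := fun c => symOp κ hT hw (φ c)) (fun i => (hs i).map (symOp κ hT hw)) P).eq

/-- **Self-adjointness.** -/
theorem IsFac.adjoint_of_real [Star 𝒦]
    (hstar : ∀ (k : 𝒦) x x', κ.kap (star k) x x' = conj (κ.kap k x' x))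
    (hc : ∀ i j, Commute (φ i) (φ j)) (hs : ∀ i, sstar (φ i) = φ i) (hP : RealW P) :
    ContinuousLinearMap.adjoint (opP κ hT hw φ P) = opP κ hT hw φ P := by
  have h1 : ∀ i, star (symOp κ hT hw (φ i)) = symOp κ hT hw (φ i) := fun i => by
    change ContinuousLinearMap.adjoint (symOp κ hT hw (φ i)) = _
    rw [adjoint_symOp κ hT hw hstar, hs]
  exact star_evA (φ := fun c => symOp κ hT hw (φ c)) (commute_symOp κ hT hw hc) h1 hP

theorem IsFac.adjoint [Star 𝒦]
    (hstar : ∀ (k : 𝒦) x x', κ.kap (star k) x x' = conj (κ.kap k x' x))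
    (hc : ∀ i j, Commute (φ i) (φ j)) (hs : ∀ i, sstar (φ i) = φ i)
    (h : IsFac κ hT hw φ P) :
    ContinuousLinearMap.adjoint (opP κ hT hw φ P) = opP κ hT hw φ P :=
  IsFac.adjoint_of_real hstar hc hs h.real

/-- **The factor maps `L²` into the main part.** -/
theorem IsFac.mem_main [StarMul 𝒦]
    (hstar : ∀ (k : 𝒦) x x', κ.kap (star k) x x' = conj (κ.kap k x' x))
    (h : IsFac κ hT hw φ P) (hC : StabRep (symOp κ hT hw) (cuspX hw))
    (f : autL2 (PG F) ((muXD (volume : Measure (Xi F)) D).withDensity w)) :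
    (opP κ hT hw φ P f : Lp ℂ 2 ((muXD (volume : Measure (Xi F)) D).withDensity w)) ∈
      hC.mainPart (fullS (PG F) D 𝒦) := by
  rw [opP_eq_linS]
  refine hC.linS_mem hstar (fun l hl => h.full l (Finsupp.mem_support_iff.1 hl)) ?_
  rw [← opP_eq_linS]
  exact h.cusp f

/-- **The factor kills the orthogonal complement of the main part.** -/
theorem IsFac.eq_zero [StarMul 𝒦]
    (hstar : ∀ (k : 𝒦) x x', κ.kap (star k) x x' = conj (κ.kap k x' x))
    (hc : ∀ i j, Commute (φ i) (φ j)) (hs : ∀ i, sstar (φ i) = φ i)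
    (h : IsFac κ hT hw φ P) (hC : StabRep (symOp κ hT hw) (cuspX hw))
    {f : autL2 (PG F) ((muXD (volume : Measure (Xi F)) D).withDensity w)}
    (hf : ∀ v ∈ hC.mainPart (fullS (PG F) D 𝒦),
      ⟪v, (f : Lp ℂ 2 ((muXD (volume : Measure (Xi F)) D).withDensity w))⟫_ℂ = 0) :
    opP κ hT hw φ P f = 0 := by
  have h1 : ⟪opP κ hT hw φ P f, opP κ hT hw φ P f⟫_ℂ = 0 := by
    have h2 := ContinuousLinearMap.adjoint_inner_left (opP κ hT hw φ P) f (opP κ hT hw φ P f)
    rw [h.adjoint hstar hc hs] at h2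
    rw [← h2]
    exact hf _ (h.mem_main hstar hC _)
  exact inner_self_eq_zero.1 h1

/-! ### Construction -/

/-- From a cuspidal polynomial to a factor. -/
theorem isFac_of (hc : ∀ i j, Commute (φ i) (φ j)) {R : List ι →₀ ℂ} (hR : RealW R)
    (hRf : ∀ l, R l ≠ 0 → (l.map φ).prod ∈ fullS (PG F) D 𝒦)
    (hRc : ∀ f, (opP κ hT hw φ R f :
      Lp ℂ 2 ((muXD (volume : Measure (Xi F)) D).withDensity w)) ∈ cuspX hw)
    (g : ι) {N n : ℕ} (hn : n ≤ N) (hN : ∃ C : ℝ, 0 ≤ C ∧
      ∀ f : autL2 (PG F) ((muXD (volume : Measure (Xi F)) D).withDensity w), IsCusp (arep f) →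
        ∀ᵐ z ∂muXD (volume : Measure (Xi F)) D,
          ‖arep ((symOp κ hT hw (φ g) ^ n) f) z‖ ≤ C * ‖f‖) :
    IsFac κ hT hw φ (mulW (Finsupp.single (List.replicate N g) 1) R) := by
  have hg : opP κ hT hw φ (Finsupp.single (List.replicate N g) 1) =
      symOp κ hT hw (φ g) ^ N := by
    unfold opP
    rw [evA_single, one_smul, List.map_replicate, List.prod_replicate]
  refine ⟨RealW.mulW (realW_single' _ (map_one _)) hR, fun l hl => ?_, fun f => ?_, ?_⟩
  · obtain ⟨m, hm, m', hm', rfl⟩ := exists_of_mem_mulW hl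
    rw [List.map_append, List.prod_append]
    have h1 := hRf m' (Finsupp.mem_support_iff.1 hm')
    have h2 : Commute (m.map φ).prod (m'.map φ).prod := by
      refine Commute.list_prod_left _ _ fun x hx => Commute.list_prod_right _ _ fun y hy => ?_
      obtain ⟨i, -, rfl⟩ := List.mem_map.1 hx
      obtain ⟨j, -, rfl⟩ := List.mem_map.1 hy
      exact hc i j
    rw [h2.eq]
    exact mul_mem_fullS _ h1
  · rw [opP_mulW, opP_comm hc]
    exact hRc _
  · obtain ⟨C, hC0, hC⟩ := hN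
    set T := symOp κ hT hw (φ g) ^ (N - n) with hTd
    set E := opP κ hT hw φ R with hE
    have hcomm : T * E = E * T := by
      have h1 : Commute (symOp κ hT hw (φ g)) E :=
        opP_comm_symOp (fun i => hc g i) R
      exact (h1.pow_left (N - n)).eq
    have hfac : opP κ hT hw φ (mulW (Finsupp.single (List.replicate N g) 1) R) =
        symOp κ hT hw (φ g) ^ n * (E * T) := by
      rw [opP_mulW, hg, ← hcomm, ← mul_assoc, hTd, ← pow_add, Nat.add_sub_cancel' hn]
    refine ⟨C * ‖E * T‖, by positivity, fun f => ?_⟩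
    rw [hfac]
    filter_upwards [hC ((E * T) f) (coe_mem_cuspX.1 (hRc (T f)))] with z hz
    refine hz.trans ?_
    rw [mul_assoc]
    exact mul_le_mul_of_nonneg_left ((E * T).le_opNorm f) hC0

end Fac

section full

variable {G D : Type*} [Group G] [MulAction G D] {𝒦 : Type*} [Semigroup 𝒦] {ι : Type*}
  {φ : ι → Symb G D 𝒦}

/-- left multiplication -/
theorem mul_mem_fullS_left (m : Symb G D 𝒦) {j : Symb G D 𝒦}
    (hj : j ∈ fullS G D 𝒦) : m * j ∈ fullS G D 𝒦 := by
  obtain ⟨k, a, rfl⟩ := exists_of_mem_fullS hj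
  obtain ⟨y, b⟩ := m
  induction y using WithOne.recOneCoe with
  | one => rw [Prod.mk_mul_mk, one_mul]; exact coe_mem_fullS _ _
  | coe l => rw [Prod.mk_mul_mk, ← WithOne.coe_mul]; exact coe_mem_fullS _ _

/-- a word which contains a full kernel -/
theorem prod_mem_fullS {i : ι} (hi : φ i ∈ fullS G D 𝒦) {l : List ι} (h : i ∈ l) :
    (l.map φ).prod ∈ fullS G D 𝒦 := by
  obtain ⟨l₁, l₂, rfl⟩ := List.append_of_mem h
  rw [List.map_append, List.prod_append, List.map_cons, List.prod_cons]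
  exact mul_mem_fullS_left _ (mul_mem_fullS _ hi)

end full

/-! ### The kernels -/

section kernels

variable {F : Type*} [Field F] {h : ℝ → ℂ} (hh : IsTest h)

/-- the product of the kernels `symKer h (T w)` -/
def kT (T : InfinitePlace F → ℝ) : Kinf F := fun w => Rad.of (symKer h (T w)) (hh.isKer (T w))

theorem star_of_real {k : ℝ → ℂ} (hk : H3.IsKer k) (hr : ∀ t, conj (k t) = k t) :
    star (Rad.of k hk) = Rad.of k hk := by
  refine Rad.ext_Ici fun t ht => ?_
  rw [Rad.star_fn, Rad.of_fn hk ht, hr]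

theorem star_kT (T : InfinitePlace F → ℝ) : star (kT hh T : Kinf F) = kT hh T :=
  funext fun w => star_of_real (hh.isKer (T w)) (hh.conj_symKer (T w))

theorem lKer_kT (T : InfinitePlace F → ℝ) (w : InfinitePlace F) :
    H3.LKer (kT hh T w).fn := by
  obtain ⟨C, hC0, hC⟩ := (hh.lKer (T w)).lip
  refine ⟨(kT hh T w).isKer, C, hC0, fun P Q Q' => ?_⟩
  change ‖(Rad.of (symKer h (T w)) (hh.isKer (T w))).fn _ -
    (Rad.of (symKer h (T w)) (hh.isKer (T w))).fn _‖ ≤ _
  rw [Rad.of_cu, Rad.of_cu]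
  exact hC P Q Q'

theorem sph_kT (T : InfinitePlace F → ℝ) (w : InfinitePlace F) (ν : ℂ) :
    H3.sph ν (kT hh T w).fn = H3.sph ν (symKer h (T w)) := by
  unfold H3.sph
  exact congrArg (H3.lap ν) (Rad.abel_of (hh.isKer (T w)))

theorem sph_zero_kT (h1 : ∫ r, h r = 1) (T : InfinitePlace F → ℝ) (w : InfinitePlace F) :
    H3.sph 0 (kT hh T w).fn = 1 := by
  rw [sph_kT, hh.sph_zero_symKer', h1]

theorem ker_kT [NumberField F] (T : InfinitePlace F → ℝ) (x x' : Xi F) :
    (kT hh T : Kinf F).ker x x' = H3.pk (fun w => symKer h (T w)) x x' := by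
  rw [Kinf.ker_def]
  refine Finset.prod_congr rfl fun w _ => ?_
  exact Rad.of_cu (hh.isKer (T w)) _ _

end kernels

/-! ### The two sides -/

section congr

variable {F : Type*} [Field F] [NumberField F] [IsTotallyComplex F] {D : Type*}
  [MeasurableSpace D] [DiscreteMeasurableSpace D] [Countable D] [MulAction (GL (Fin 2) F) D]
  [IsLevel F D] {w : Xi F × D → ℝ≥0∞} {𝒦 : Type*} [Semigroup 𝒦]

/-- The operator of a symbol depends only on its kernel. -/
theorem symOp_eq_kerSg (κ : KerSg (PG F) (volume : Measure (Xi F)) 𝒦)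
    (hT : ∃ T : Finset D, ∀ d, ∃ g : PG F, g • d ∈ T) (hw : IsWeight (PG F) w) {k : 𝒦}
    {k₀ : Kinf F} (h : κ.kap k = k₀.ker) (a : HK (PG F) D) :
    symOp κ hT hw ((k : WithOne 𝒦), a) = symOp (kerSg F) hT hw ((k₀ : WithOne (Kinf F)), a) := by
  rw [symOp_coe, symOp_coe]
  exact opF_eq κ hT hw ((kerSg F).hyp k₀).choose_spec (HK.exists_discHyp hT a).choose_spec h rfl

end congr

section Kside

variable {F : Type} [Field F] [NumberField F] [IsTotallyComplex F] {D : Type}
  [MeasurableSpace D] [DiscreteMeasurableSpace D] [Countable D] [MulAction (GL (Fin 2) F) D]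
  [IsLevel F D] {w : Xi F × D → ℝ≥0∞} {𝒦 : Type*} [Semigroup 𝒦]
  (κ : KerSg (PG F) (volume : Measure (Xi F)) 𝒦)
  (hT : ∃ T : Finset D, ∀ d, ∃ g : PG F, g • d ∈ T) (hw : IsWeight (PG F) w)
  {W : Type} {B : Bdry F D W} {x : W → ℝ} (A : Data B.E B.pc fun v => (x v : ℂ))
  {h : ℝ → ℂ} (hh : IsTest h) {t : W → HK (PG F) D} {𝒦₀ : Type*} {kk : 𝒦₀ → 𝒦}
  {k : Fin A.n → 𝒦₀}

/-- The operator killing the constant terms with an additional factor `g` at infinity. -/
theorem alW_mul_mem_cuspX (hrep : B.Rep t) (g : Kinf F)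
    (hk : ∀ j, κ.kap (kk (k j)) = (kT hh (A.shift j) * g).ker)
    (f : autL2 (PG F) ((muXD (volume : Measure (Xi F)) D).withDensity w)) :
    (opP κ hT hw (lettS t kk) (alW A k) f :
      Lp ℂ 2 ((muXD (volume : Measure (Xi F)) D).withDensity w)) ∈ cuspX hw := by
  have h1 : opP κ hT hw (lettS t kk) (alW A k) =
      evA (fun c => symOp (kerSg F) hT hw
        (lettS t (fun j : Fin A.n => (kT hh (A.shift j) : Kinf F)) c)) (alW A id) *
        symOp (kerSg F) hT hw ((g : WithOne (Kinf F)), 1) := by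
    unfold opP
    rw [evA_alW_symOp, evA_alW_symOp, Finset.sum_mul]
    refine Finset.sum_congr rfl fun j _ => ?_
    refine Eq.trans ?_ (ContinuousLinearMap.smul_comp _ _ _).symm
    refine congrArg _ ?_
    rw [symOp_eq_kerSg κ hT hw (hk j)]
    refine Eq.trans ?_ (map_mul (symOp (kerSg F) hT hw) _ _)
    rw [Prod.mk_mul_mk, ← WithOne.coe_mul, mul_one]
    rfl
  rw [h1]
  exact alW_mem_cuspX (kerSg F) hT hw A (kk := fun j : Fin A.n => (kT hh (A.shift j) : Kinf F))
    (k := id) hrep (h := fun _ => h) (fun _ => hh) (fun j x x' => ker_kT hh (A.shift j) x x') _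

/-- The same without the additional factor. -/
theorem alW_mem_cuspX' (hrep : B.Rep t)
    (hk : ∀ j, κ.kap (kk (k j)) = (kT hh (A.shift j) : Kinf F).ker)
    (f : autL2 (PG F) ((muXD (volume : Measure (Xi F)) D).withDensity w)) :
    (opP κ hT hw (lettS t kk) (alW A k) f :
      Lp ℂ 2 ((muXD (volume : Measure (Xi F)) D).withDensity w)) ∈ cuspX hw :=
  alW_mem_cuspX κ hT hw A hrep (h := fun _ => h) (fun _ => hh)
    (fun j x x' => by rw [hk]; exact ker_kT hh (A.shift j) x x') f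

end Kside

section letters

variable {G D : Type*} [Group G] [MulAction G D] {𝒦 : Type*} [CommSemigroup 𝒦] {W 𝒦₀ : Type*}
  {t : W → HK G D} {kk : 𝒦₀ → 𝒦}

theorem commute_lettS (htc : ∀ v v', Commute (t v) (t v')) (c c' : W ⊕ 𝒦₀) :
    Commute (lettS t kk c) (lettS t kk c') := by
  refine Prod.ext (mul_comm _ _) ?_
  rcases c with v | k <;> rcases c' with v' | k'
  · exact htc v v'
  · exact (mul_one _).trans (one_mul _).symm
  · exact (one_mul _).trans (mul_one _).symm
  · rfl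

theorem lettS_inr_mem (k : 𝒦₀) : lettS t kk (Sum.inr k : W ⊕ 𝒦₀) ∈ fullS G D 𝒦 :=
  coe_mem_fullS _ _

theorem prod_lettS_mem {l : List (W ⊕ 𝒦₀)} (h : ∃ k, (Sum.inr k : W ⊕ 𝒦₀) ∈ l) :
    (l.map (lettS t kk)).prod ∈ fullS G D 𝒦 := by
  obtain ⟨k, hk⟩ := h
  exact prod_mem_fullS (lettS_inr_mem k) hk

theorem sstar_lettS [Star 𝒦] (hts : ∀ v, star (t v) = t v) (hks : ∀ k, star (kk k) = kk k)
    (c : W ⊕ 𝒦₀) : sstar (lettS t kk c) = lettS t kk c := by
  rcases c with v | k
  · exact Prod.ext rfl (hts v)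
  · refine Prod.ext ?_ (star_one _)
    exact congrArg (fun y : 𝒦 => (y : WithOne 𝒦)) (hks k)

end letters

section main

variable {K L : Type} [Field K] [NumberField K] [IsTotallyComplex K] [Field L] [NumberField L]
  [IsTotallyComplex L] {p : Fin 3 × InfinitePlace K → InfinitePlace L}
  {D D' : Type} [MeasurableSpace D] [DiscreteMeasurableSpace D] [Countable D]
  [MulAction (GL (Fin 2) L) D] [IsLevel L D] [MeasurableSpace D'] [DiscreteMeasurableSpace D']
  [Countable D'] [MulAction (GL (Fin 2) K) D'] [IsLevel K D']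
  {w : Xi L × D → ℝ≥0∞} {w' : Xi K × D' → ℝ≥0∞}
  {𝒦 𝒦' : Type*} [CommSemigroup 𝒦] [StarMul 𝒦] [CommSemigroup 𝒦'] [StarMul 𝒦']

/-- **The common factor.** `W` : the common places, `𝒦₀` : the common kernels; `A`, `A'` : the data
of the operators killing the constant terms over `L` and over `K`. -/
theorem exists_common (hp : Function.Bijective p) (Kd : KDat L D 𝒦) (Kd' : KDat K D' 𝒦')
    (hw : IsWeight (PG L) w) (hw' : IsWeight (PG K) w')
    {W : Type} {B : Bdry L D W} {B' : Bdry K D' W} {x : W → ℝ}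
    (A : Data B.E B.pc fun v => (x v : ℂ)) (A' : Data B'.E B'.pc fun v => (x v : ℂ))
    {t : W → HK (PG L) D} (ht : B.Rep t) (htc : ∀ v v', Commute (t v) (t v'))
    {t' : W → HK (PG K) D'} (ht' : B'.Rep t') (htc' : ∀ v v', Commute (t' v) (t' v'))
    {𝒦₀ : Type*} {kL : 𝒦₀ → 𝒦} {kK : 𝒦₀ → 𝒦'} {i : 𝒦₀ → Kinf L}
    (hL : ∀ x, Kd.kap (kL x) = (i x).ker) (hK : ∀ x, Kd'.kap (kK x) = (tinf p (i x)).ker)
    (hex : ∀ k : Kinf L, star k = k → (∀ w, H3.LKer (k w).fn) → ∃ x, i x = k)
    {y : W ⊕ 𝒦₀ → ℝ} (hy : ∀ v, y (Sum.inl v) = Real.sqrt (B.q v) * x v)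
    (hq : ∀ v, B'.q v = B.q v)
    (hyk : ∀ x, ((y (Sum.inr x) : ℝ) : ℂ) = ∏ w, H3.sph 0 (i x w).fn) :
    ∃ P : List (W ⊕ 𝒦₀) →₀ ℂ, evN y P ≠ 0 ∧
      (∀ l, P l ≠ 0 → ∃ l₁ : List 𝒦₀, ∃ l₂, Kd.m ≤ l₁.length ∧ Kd'.m ≤ l₁.length ∧
        l = l₁.map Sum.inr ++ l₂) ∧
      IsFac Kd.toKerSg (exists_orbits L D) hw (lettS t kL) P ∧
      IsFac Kd'.toKerSg (exists_orbits K D') hw' (lettS t' kK) P := by
  classical
  obtain ⟨h, hh, h1, -, -⟩ := exists_isTest (ε := 1) one_pos
  -- the kernels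
  have hkT : ∀ T : InfinitePlace L → ℝ, ∃ x, i x = kT hh T := fun T =>
    hex _ (star_kT hh T) (lKer_kT hh T)
  choose X hX using hkT
  have hyX : ∀ T, y (Sum.inr (X T)) = 1 := by
    intro T
    have h2 : ((y (Sum.inr (X T)) : ℝ) : ℂ) = 1 := by
      rw [hyk, hX]
      exact Finset.prod_eq_one fun w _ => sph_zero_kT hh h1 T w
    exact_mod_cast h2
  let e : Fin 3 × InfinitePlace K ≃ InfinitePlace L := Equiv.ofBijective p hp
  have he : ∀ q, e q = p q := fun q => rfl
  let TK : Fin A'.n → InfinitePlace L → ℝ := fun j w =>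
    if (e.symm w).1 = 0 then A'.shift j (e.symm w).2 else 0
  have hTK : ∀ j, (tinf p (kT hh (TK j)) : Kinf K) =
      kT hh (A'.shift j) * (kT hh 0 * kT hh 0) := by
    intro j
    funext v
    have e1 : ∀ a, kT hh (TK j) (p (a, v)) = Rad.of (symKer h (if a = 0 then A'.shift j v else 0))
        (hh.isKer _) := by
      intro a
      have e2 : TK j (p (a, v)) = if a = 0 then A'.shift j v else 0 := by
        change (if (e.symm (p (a, v))).1 = 0 then _ else _) = _
        rw [← he, Equiv.symm_apply_apply]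
      change Rad.of (symKer h (TK j (p (a, v)))) _ = _
      simp only [e2]
    change kT hh (TK j) (p (0, v)) * kT hh (TK j) (p (1, v)) * kT hh (TK j) (p (2, v)) = _
    rw [e1, e1, e1, mul_assoc]
    rfl
  set PL : List (W ⊕ 𝒦₀) →₀ ℂ := alW A fun j => X (A.shift j) with hPL
  set PK : List (W ⊕ 𝒦₀) →₀ ℂ := alW A' fun j => X (TK j) with hPK
  set N : ℕ := max Kd.m Kd'.m with hN
  have hr : RealW (mulW PL PK) := (realW_alW A _).mulW (realW_alW A' _)
  have hfull : ∀ l : List (W ⊕ 𝒦₀), mulW PL PK l ≠ 0 → ∃ k, (Sum.inr k : W ⊕ 𝒦₀) ∈ l :=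
    fun l hl => exists_inr_mem_mulW (fun m hm => exists_inr_mem _ _ _ hm) hl
  refine ⟨mulW (Finsupp.single (List.replicate N (Sum.inr (X 0))) 1) (mulW PL PK), ?_, ?_, ?_, ?_⟩
  · rw [evN_mulW, evN_mulW]
    refine mul_ne_zero ?_ (mul_ne_zero ?_ ?_)
    · rw [evN_eq_evA, evA_single, List.map_replicate, List.prod_replicate, hyX]
      simp
    · exact evN_alW_ne_zero A _ hy (fun j => hyX _) one_ne_zero
    · exact evN_alW_ne_zero A' _ (fun v => by rw [hq]; exact hy v) (fun j => hyX _) one_ne_zero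
  · intro l hl
    obtain ⟨m, hm, m', -, rfl⟩ := exists_of_mem_mulW hl
    have hm' : List.replicate N (Sum.inr (X 0)) = m := by
      by_contra hne
      exact Finsupp.mem_support_iff.1 hm (Finsupp.single_eq_of_ne (Ne.symm hne))
    refine ⟨List.replicate N (X 0), m', ?_, ?_, ?_⟩
    · rw [List.length_replicate]; exact le_max_left _ _
    · rw [List.length_replicate]; exact le_max_right _ _
    · rw [List.map_replicate, hm']
  · refine isFac_of (commute_lettS htc) hr (fun l hl => prod_lettS_mem (hfull l hl)) (fun f => ?_) (Sum.inr (X 0))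
      (le_max_left Kd.m Kd'.m) ?_
    · rw [opP_mulW]
      exact alW_mem_cuspX' Kd.toKerSg (exists_orbits L D) hw A hh ht
        (fun j => by rw [hL, hX]) _
    · obtain ⟨C, hC0, hC⟩ := Kd.bound hw (List.replicate Kd.m (kL (X 0))) (List.length_replicate ..)
      refine ⟨C, hC0, fun f hf => ?_⟩
      have h2 := hC f hf
      rw [List.map_replicate, List.prod_replicate] at h2
      exact h2
  · refine isFac_of (commute_lettS htc') hr (fun l hl => prod_lettS_mem (hfull l hl)) (fun f => ?_) (Sum.inr (X 0))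
      (le_max_right Kd.m Kd'.m) ?_
    · rw [opP_mulW, opP_comm (commute_lettS htc')]
      exact alW_mul_mem_cuspX Kd'.toKerSg (exists_orbits K D') hw' A' hh ht'
        (kT hh 0 * kT hh 0) (fun j => by rw [hK, hX, hTK]) _
    · obtain ⟨C, hC0, hC⟩ := Kd'.bound hw' (List.replicate Kd'.m (kK (X 0)))
        (List.length_replicate ..)
      refine ⟨C, hC0, fun f hf => ?_⟩
      have h2 := hC f hf
      rw [List.map_replicate, List.prod_replicate] at h2
      exact h2

end main

end Fermat.Agent.LT.Aleph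

end
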