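import Fermat.Agent.LT.CT

/-!
# Logarithmic coordinates on products of hyperbolic spaces

`(z, u) ↦ (z, exp u)`: the invariant measure is `e ^ (-2 Σ u) dz du`.
-/

set_option autoImplicit false

open MeasureTheory NumberField Real
open scoped ENNReal BigOperators

namespace Fermat.Agent.LT.Aleph

noncomputable section

/-! ### A product formula -/

set_option backward.isDefEq.respectTransparency false in
theorem lintegral_fin_prod {n : ℕ} {E : Fin n → Type*} {mE : ∀ i, MeasurableSpace (E i)}
    {μ : (i : Fin n) → Measure (E i)} [∀ i, SigmaFinite (μ i)] (f : (i : Fin n) → E i → ℝ≥0∞)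
    (hf : ∀ i, Measurable (f i)) :
    ∫⁻ x : (i : Fin n) → E i, ∏ i, f i (x i) ∂(Measure.pi μ) = ∏ i, ∫⁻ x, f i x ∂(μ i) := by
  induction n with
  | zero => simp
  | succ n n_ih =>
      calc
        _ = ∫⁻ x : E 0 × ((i : Fin n) → E (Fin.succ i)),
            f 0 x.1 * ∏ i : Fin n, f (Fin.succ i) (x.2 i)
            ∂((μ 0).prod (Measure.pi (fun i ↦ μ i.succ))) := by
          rw [← ((measurePreserving_piFinSuccAbove μ 0).symm).lintegral_comp_emb
            (MeasurableEquiv.measurableEmbedding _)]
          simp_rw [MeasurableEquiv.piFinSuccAbove_symm_apply, Fin.insertNthEquiv,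
            Fin.prod_univ_succ, Fin.insertNth_zero, Equiv.coe_fn_mk, Fin.cons_succ,
            Fin.zero_succAbove, cast_eq, Fin.cons_zero]
        _ = (∫⁻ x, f 0 x ∂μ 0)
            * ∏ i : Fin n, ∫⁻ (x : E (Fin.succ i)), f (Fin.succ i) x ∂(μ i.succ) := by
          rw [← n_ih _ fun i => hf _, ← lintegral_prod_mul (hf 0).aemeasurable]
          exact (Finset.measurable_prod _ fun i _ =>
            (hf _).comp (measurable_pi_apply i)).aemeasurable
        _ = ∏ i, ∫⁻ x, f i x ∂(μ i) := by rw [Fin.prod_univ_succ]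

theorem lintegral_fintype_prod {ι : Type*} [Fintype ι] {E : ι → Type*}
    {mE : ∀ i, MeasurableSpace (E i)}
    {μ : (i : ι) → Measure (E i)} [∀ i, SigmaFinite (μ i)] (f : (i : ι) → E i → ℝ≥0∞)
    (hf : ∀ i, Measurable (f i)) :
    ∫⁻ x : (i : ι) → E i, ∏ i, f i (x i) ∂(Measure.pi μ) = ∏ i, ∫⁻ x, f i x ∂(μ i) := by
  let e := (Fintype.equivFin ι).symm
  rw [← (measurePreserving_piCongrLeft _ e).lintegral_comp_emb
    (MeasurableEquiv.measurableEmbedding _)]
  simp_rw [← e.prod_comp, MeasurableEquiv.coe_piCongrLeft, Equiv.piCongrLeft_apply_apply]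
  exact lintegral_fin_prod _ fun i => hf _

/-! ### One variable -/

/-- The point `(z, e ^ u)`. -/
def ps (p : ℂ × ℝ) : H3 := H3.mk p.1 (exp p.2) (exp_pos _)

lemma ps_eq (z : ℂ) (u : ℝ) : ps (z, u) = H3.ofPair (z, exp u) :=
  (H3.ofPair_of_pos (p := (z, exp u)) (exp_pos u)).symm

lemma continuous_ps : Continuous ps := by
  refine Continuous.subtype_mk ?_ _
  fun_prop

/-- Logarithmic coordinates on `ℍ₃`. -/
def psHomeo : ℂ × ℝ ≃ₜ H3 where
  toFun := ps
  invFun P := (P.z, log P.y)
  left_inv p := Prod.ext rfl (log_exp p.2)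
  right_inv P := H3.ext rfl (exp_log P.y_pos)
  continuous_toFun := continuous_ps
  continuous_invFun := H3.continuous_z.prodMk
    (Continuous.log H3.continuous_y fun P => P.y_ne)

theorem lintegral_H3 {f : H3 → ℝ≥0∞} (hf : Measurable f) :
    ∫⁻ P, f P = ∫⁻ p : ℂ × ℝ, ENNReal.ofReal (exp (-2 * p.2)) * f (ps p) := by
  rw [H3.lintegral_eq_iterated hf, ← range_exp, ← Set.image_univ,
    lintegral_image_eq_lintegral_abs_deriv_mul MeasurableSet.univ
      (fun x _ => (hasDerivAt_exp x).hasDerivWithinAt) exp_injective.injOn,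
    Measure.volume_eq_prod, lintegral_prod_symm _ (by
      refine Measurable.aemeasurable (Measurable.mul ?_ (hf.comp continuous_ps.measurable))
      fun_prop), Measure.restrict_univ]
  refine lintegral_congr fun u => ?_
  have h1 : Measurable fun z : ℂ => f (ps (z, u)) := hf.comp
    (continuous_ps.measurable.comp (measurable_id.prodMk measurable_const))
  simp only
  rw [lintegral_const_mul _ h1, ← mul_assoc, ← ENNReal.ofReal_mul (abs_nonneg _)]
  congr 1
  · congr 1
    rw [abs_of_pos (exp_pos u), ← exp_nat_mul, ← exp_neg, ← exp_add]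
    congr 1
    push_cast
    ring
  · exact lintegral_congr fun z => by rw [ps_eq]

/-! ### Several variables -/

variable {ι : Type*} [Fintype ι]

/-- The density `e ^ (-2 Σ u)`. -/
def rho (p : (ι → ℂ) × (ι → ℝ)) : ℝ≥0∞ := ENNReal.ofReal (exp (-2 * ∑ i, p.2 i))

lemma rho_eq (p : (ι → ℂ) × (ι → ℝ)) : rho p = ∏ i, ENNReal.ofReal (exp (-2 * p.2 i)) := by
  rw [rho, Finset.mul_sum, exp_sum, ENNReal.ofReal_prod_of_nonneg fun i _ => (exp_pos _).le]

lemma measurable_rho : Measurable (rho (ι := ι)) := by
  unfold rho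
  fun_prop

/-- Logarithmic coordinates. -/
def Ps (p : (ι → ℂ) × (ι → ℝ)) : ι → H3 := fun i => ps (p.1 i, p.2 i)

omit [Fintype ι] in
lemma continuous_Ps : Continuous (Ps (ι := ι)) :=
  continuous_pi fun i => continuous_ps.comp (by fun_prop)

/-- Logarithmic coordinates, as a homeomorphism. -/
def PsHomeo : (ι → ℂ) × (ι → ℝ) ≃ₜ (ι → H3) where
  toFun := Ps
  invFun x := (fun i => (x i).z, fun i => log (x i).y)
  left_inv p := Prod.ext rfl (funext fun i => log_exp (p.2 i))
  right_inv x := funext fun i => H3.ext rfl (exp_log (x i).y_pos)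
  continuous_toFun := continuous_Ps
  continuous_invFun := (continuous_pi fun i => H3.continuous_z.comp (continuous_apply i)).prodMk
    (continuous_pi fun i => Continuous.log (H3.continuous_y.comp (continuous_apply i))
      fun x => (x i).y_ne)

theorem measurePreserving_Ps : MeasurePreserving (Ps (ι := ι))
    ((volume : Measure ((ι → ℂ) × (ι → ℝ))).withDensity rho) volume := by
  refine ⟨continuous_Ps.measurable, ?_⟩
  symm
  refine Measure.pi_eq fun s hs => ?_
  rw [Measure.map_apply continuous_Ps.measurable (MeasurableSet.univ_pi hs),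
    withDensity_apply _ (continuous_Ps.measurable (MeasurableSet.univ_pi hs)),
    ← lintegral_indicator (continuous_Ps.measurable (MeasurableSet.univ_pi hs))]
  have h1 : ∀ p : (ι → ℂ) × (ι → ℝ), (Ps ⁻¹' Set.univ.pi s).indicator rho p =
      ∏ i, (ENNReal.ofReal (exp (-2 * p.2 i)) * (s i).indicator 1 (ps (p.1 i, p.2 i))) := by
    intro p
    rw [Finset.prod_mul_distrib, ← rho_eq]
    by_cases hp : p ∈ Ps ⁻¹' Set.univ.pi s
    · rw [Set.indicator_of_mem hp, Finset.prod_eq_one, mul_one]
      intro i _
      exact Set.indicator_of_mem (hp i (Set.mem_univ i)) _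
    · rw [Set.indicator_of_notMem hp]
      rw [Set.mem_preimage, Set.mem_univ_pi, not_forall] at hp
      obtain ⟨i, hi⟩ := hp
      rw [Finset.prod_eq_zero (Finset.mem_univ i), mul_zero]
      exact Set.indicator_of_notMem hi _
  simp_rw [h1]
  have h2 := (volume_measurePreserving_arrowProdEquivProdArrow ℂ ℝ ι)
  rw [← h2.lintegral_comp_emb (MeasurableEquiv.measurableEmbedding _)]
  have h3 : ∀ i, Measurable fun p : ℂ × ℝ =>
      ENNReal.ofReal (exp (-2 * p.2)) * (s i).indicator 1 (ps p) := fun i =>
    Measurable.mul (by fun_prop) ((measurable_one.indicator (hs i)).comp continuous_ps.measurable)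
  refine (lintegral_fintype_prod (μ := fun _ : ι => (volume : Measure (ℂ × ℝ)))
    (fun i p => ENNReal.ofReal (exp (-2 * p.2)) * (s i).indicator 1 (ps p)) h3).trans ?_
  refine Finset.prod_congr rfl fun i _ => ?_
  rw [← lintegral_H3 (measurable_one.indicator (hs i)), lintegral_indicator_one (hs i)]

theorem measurableEmbedding_Ps : MeasurableEmbedding (Ps (ι := ι)) :=
  (PsHomeo (ι := ι)).measurableEmbedding

/-- The integral in logarithmic coordinates. -/
theorem integral_Ps (f : (ι → H3) → ℂ) :
    ∫ x, f x = ∫ p : (ι → ℂ) × (ι → ℝ), (exp (-2 * ∑ i, p.2 i) : ℂ) * f (Ps p) := by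
  rw [← (measurePreserving_Ps (ι := ι)).integral_comp measurableEmbedding_Ps,
    integral_withDensity_eq_integral_toReal_smul measurable_rho
      (Filter.Eventually.of_forall fun p => ENNReal.ofReal_lt_top)]
  refine integral_congr_ae (Filter.Eventually.of_forall fun p => ?_)
  simp only [rho, ENNReal.toReal_ofReal (exp_pos _).le, Complex.real_smul]

theorem integrable_Ps_iff (f : (ι → H3) → ℂ) :
    Integrable f ↔ Integrable fun p : (ι → ℂ) × (ι → ℝ) =>
      (exp (-2 * ∑ i, p.2 i) : ℂ) * f (Ps p) := by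
  rw [← (measurePreserving_Ps (ι := ι)).integrable_comp_emb measurableEmbedding_Ps,
    integrable_withDensity_iff_integrable_smul' measurable_rho
      (Filter.Eventually.of_forall fun p => ENNReal.ofReal_lt_top)]
  refine integrable_congr (Filter.Eventually.of_forall fun p => ?_)
  simp only [rho, ENNReal.toReal_ofReal (exp_pos _).le, Complex.real_smul, Function.comp_apply]

/-- Local integrability in logarithmic coordinates. -/
theorem locallyIntegrable_Ps {f : (ι → H3) → ℂ} (hf : LocallyIntegrable f) :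
    LocallyIntegrable fun p : (ι → ℂ) × (ι → ℝ) => f (Ps p) := by
  rw [locallyIntegrable_iff]
  intro K hK
  have h1 : IsCompact (Ps '' K) := hK.image continuous_Ps
  have h2 := (locallyIntegrable_iff.mp hf) _ h1
  rw [← integrable_indicator_iff h1.measurableSet, integrable_Ps_iff] at h2
  have h3 : IntegrableOn (fun p : (ι → ℂ) × (ι → ℝ) => (exp (-2 * ∑ i, p.2 i) : ℂ) * f (Ps p)) K := by
    rw [← integrable_indicator_iff hK.measurableSet]
    refine h2.congr (Filter.Eventually.of_forall fun p => ?_)
    by_cases hp : p ∈ K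
    · simp only
      rw [Set.indicator_of_mem hp, Set.indicator_of_mem (Set.mem_image_of_mem _ hp)]
    · simp only
      rw [Set.indicator_of_notMem hp, Set.indicator_of_notMem, mul_zero]
      exact fun h => hp (((PsHomeo (ι := ι)).injective.mem_set_image).mp h)
  have h4 : ContinuousOn (fun p : (ι → ℂ) × (ι → ℝ) => (exp (2 * ∑ i, p.2 i) : ℂ)) K := by
    fun_prop
  have h5 := h3.continuousOn_mul h4 hK
  refine h5.congr_fun (fun p _ => ?_) hK.measurableSet
  simp only
  rw [← mul_assoc, ← Complex.ofReal_mul, ← exp_add]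
  simp

end

end Fermat.Agent.LT.Aleph
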