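import Fermat.Agent.LT.Aleph.CTerm
import Fermat.Agent.LT.Aleph.SymKer
import Fermat.Agent.LT.H3.Pi
import Fermat.Agent.LT.H3.Spherical

/-!
# The value of the operator killing the constant terms on a joint eigenfunction

`integral_pk_eq`: if `f` is an eigenfunction in every variable then the product kernel acts by the
product of the eigenvalues. `Bdry.Ra` is the operator attached to the data of `Kill.lean`.
-/

set_option autoImplicit false

open scoped BigOperators
open MeasureTheory NumberField
open Fermat.Agent.LT.H3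

noncomputable section

namespace Fermat.Agent.LT.Aleph

/-! ### Product kernels on functions which are eigenfunctions in every variable -/

/-- the radius outside which finitely many kernels vanish -/
theorem exists_bdd {ι : Type*} [Fintype ι] {k : ι → ℝ → ℂ} (hk : ∀ i, IsKer (k i)) :
    ∃ R : ℝ, ∀ i t, R < t → k i t = 0 := by
  choose C hC using fun i => (hk i).bdd
  refine ⟨∑ i, |C i|, fun i t ht => hC i t (le_trans ?_ ht.le)⟩
  exact (le_abs_self _).trans
    (Finset.single_le_sum (f := fun i => |C i|) (fun j _ => abs_nonneg _) (Finset.mem_univ i))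

theorem pk_cons {n : ℕ} (k : Fin (n + 1) → ℝ → ℂ) (x : Fin (n + 1) → H3) (P : H3)
    (y : Fin n → H3) : pk k x (Fin.cons P y : Fin (n + 1) → H3) =
      k 0 (cu (x 0) P) * pk (fun i => k i.succ) (fun i => x i.succ) y := by
  simp only [pk, Fin.prod_univ_succ, Fin.cons_zero, Fin.cons_succ]

theorem integral_pk_fin : ∀ (n : ℕ) (k : Fin n → ℝ → ℂ) (_ : ∀ i, IsKer (k i))
    (f : (Fin n → H3) → ℂ) (_ : Continuous f) (lam : Fin n → ℂ)
    (_ : ∀ i x, ∫ P, k i (cu (x i) P) * f (Function.update x i P) = lam i * f x)
    (x : Fin n → H3), ∫ x', pk k x x' * f x' = (∏ i, lam i) * f x := by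
  intro n
  induction n with
  | zero =>
    intro k _ f _ lam _ x
    have h1 : (volume : Measure (Fin 0 → H3)) = Measure.dirac x :=
      Measure.volume_pi_eq_dirac x
    rw [h1, integral_dirac]
    simp [pk]
  | succ n ih =>
    intro k hk f hf lam h x
    obtain ⟨R, hR⟩ := exists_bdd hk
    have hmp := (volume_preserving_piFinSuccAbove (fun _ : Fin (n + 1) => H3) 0).symm
    have hsymm : ∀ p : H3 × (Fin n → H3),
        (MeasurableEquiv.piFinSuccAbove (fun _ : Fin (n + 1) => H3) 0).symm p =
          (Fin.cons p.1 p.2 : Fin (n + 1) → H3) := by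
      intro p
      rw [MeasurableEquiv.piFinSuccAbove_symm_apply]
      simp [Fin.insertNthEquiv]
    have hcont : Continuous fun p : H3 × (Fin n → H3) => (Fin.cons p.1 p.2 : Fin (n + 1) → H3) := by
      refine continuous_pi fun i => ?_
      refine Fin.cases ?_ (fun j => ?_) i
      · simpa using continuous_fst
      · simp only [Fin.cons_succ]
        exact (continuous_apply j).comp continuous_snd
    have hint : Integrable (fun p : H3 × (Fin n → H3) =>
        pk k x (Fin.cons p.1 p.2 : Fin (n + 1) → H3) * f (Fin.cons p.1 p.2)) := by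
      have h1 := integrable_pk_mul (fun i => (hk i).cont) hR hf x
      have h2 := (hmp.integrable_comp_emb (MeasurableEquiv.measurableEmbedding _)
        (g := fun x' => pk k x x' * f x')).mpr h1
      refine (integrable_congr (Filter.Eventually.of_forall fun p => ?_)).mp h2
      simp only [Function.comp_apply, hsymm]
    have h3 : ∫ x', pk k x x' * f x' = ∫ p : H3 × (Fin n → H3),
        pk k x (Fin.cons p.1 p.2 : Fin (n + 1) → H3) * f (Fin.cons p.1 p.2) := by
      rw [← hmp.integral_comp']
      refine integral_congr_ae (Filter.Eventually.of_forall fun p => ?_)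
      simp only [hsymm]
    rw [h3, Measure.volume_eq_prod, integral_prod _ hint]
    have h4 : ∀ P : H3, ∫ y : Fin n → H3, pk k x (Fin.cons P y : Fin (n + 1) → H3) *
        f (Fin.cons P y) = (∏ i : Fin n, lam i.succ) *
          (k 0 (cu (x 0) P) * f (Function.update x 0 P)) := by
      intro P
      have h5 : ∀ y : Fin n → H3, pk k x (Fin.cons P y : Fin (n + 1) → H3) *
          f (Fin.cons P y) = k 0 (cu (x 0) P) *
            (pk (fun i => k i.succ) (fun i => x i.succ) y * f (Fin.cons P y)) := by
        intro y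
        rw [pk_cons, mul_assoc]
      simp only [h5]
      rw [integral_const_mul]
      have h6 := ih (fun i => k i.succ) (fun i => hk i.succ) (fun y => f (Fin.cons P y))
        (hf.comp (hcont.comp (continuous_const.prodMk continuous_id))) (fun i => lam i.succ) ?_
        (fun i => x i.succ)
      · rw [h6]
        have h7 : (Fin.cons P fun i => x i.succ : Fin (n + 1) → H3) = Function.update x 0 P := by
          rw [← Fin.cons_self_tail (Function.update x 0 P)]
          simp only [Function.update_self, Fin.tail_update_zero]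
          rfl
        rw [h7]
        ring
      · intro i y
        have h8 := h i.succ (Fin.cons P y)
        simp only [Fin.cons_succ] at h8
        rw [← h8]
        refine integral_congr_ae (Filter.Eventually.of_forall fun Q => ?_)
        simp only [Fin.cons_update]
    simp only [h4]
    rw [integral_const_mul, h 0 x, Fin.prod_univ_succ]
    ring

/-- **Product kernels act by the product of the eigenvalues.** -/
theorem integral_pk_eq {ι : Type*} [Fintype ι] [DecidableEq ι] {k : ι → ℝ → ℂ}
    (hk : ∀ i, IsKer (k i)) {f : (ι → H3) → ℂ} (hf : Continuous f) {lam : ι → ℂ}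
    (h : ∀ i x, ∫ P, k i (cu (x i) P) * f (Function.update x i P) = lam i * f x)
    (x : ι → H3) : ∫ x', pk k x x' * f x' = (∏ i, lam i) * f x := by
  classical
  let e : Fin (Fintype.card ι) ≃ ι := (Fintype.equivFin ι).symm
  have hmp := volume_measurePreserving_piCongrLeft (fun _ : ι => H3) e
  have hc : ∀ y : Fin (Fintype.card ι) → H3,
      MeasurableEquiv.piCongrLeft (fun _ : ι => H3) e y = y ∘ e.symm := by
    intro y
    funext i
    obtain ⟨j, rfl⟩ := e.surjective i
    rw [MeasurableEquiv.coe_piCongrLeft, Equiv.piCongrLeft_apply_apply]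
    simp
  rw [← hmp.integral_comp']
  simp only [hc]
  have hpk : ∀ y : Fin (Fintype.card ι) → H3,
      pk k x (y ∘ e.symm) = pk (fun j => k (e j)) (fun j => x (e j)) y := by
    intro y
    unfold pk
    rw [← e.prod_comp]
    simp
  simp only [hpk]
  have hcont : Continuous fun y : Fin (Fintype.card ι) → H3 => y ∘ e.symm :=
    continuous_pi fun i => continuous_apply (e.symm i)
  have h1 := integral_pk_fin _ (fun j => k (e j)) (fun j => hk (e j))
    (fun y => f (y ∘ e.symm)) (hf.comp hcont) (fun j => lam (e j)) ?_ (fun j => x (e j))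
  · rw [h1, e.prod_comp lam]
    congr 2
    funext i
    simp
  · intro j y
    have h2 := h (e j) (y ∘ e.symm)
    simp only [Function.comp_apply, Equiv.symm_apply_apply] at h2
    rw [← h2]
    refine integral_congr_ae (Filter.Eventually.of_forall fun P => ?_)
    have h3 : Function.update y j P ∘ e.symm = Function.update (y ∘ e.symm) (e j) P := by
      funext i
      obtain ⟨l, rfl⟩ := e.surjective i
      by_cases hl : l = j
      · subst hl
        simp
      · have h4 : e l ≠ e j := fun h => hl (e.injective h)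
        simp [Function.update_of_ne hl, Function.update_of_ne h4]
    simp only [h3]

/-- `integral_pk_eq` with `IsEig` in every variable (`lam i` a functional on the kernels). -/
theorem integral_pk_eq_of_isEig {ι : Type*} [Fintype ι] [DecidableEq ι] {k : ι → ℝ → ℂ}
    (hk : ∀ i, IsKer (k i)) {f : (ι → H3) → ℂ} (hf : Continuous f) {lam : ι → (ℝ → ℂ) → ℂ}
    (h : ∀ i x, IsEig (fun P => f (Function.update x i P)) (lam i)) (x : ι → H3) :
    ∫ x', pk k x x' * f x' = (∏ i, lam i (k i)) * f x := by
  refine integral_pk_eq (lam := fun i => lam i (k i)) hk hf (fun i x => ?_) x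
  have h1 := (h i x).eig (k i) (hk i) (x i)
  simpa [Rk] using h1

/-! ### Words -/

namespace Bdry

variable {F : Type} [Field F] [NumberField F] {D : Type} [MulAction (GL (Fin 2) F) D]
  {V : Type} (B : Bdry F D V)

theorem Tz_const_mul (v : V) (c : ℂ) (f : Xi F × D → ℂ) :
    Tz B v (fun p => c * f p) = fun p => c * Tz B v f p := by
  funext p
  simp only [Tz, Finsupp.sum, Finset.mul_sum]
  exact Finset.sum_congr rfl fun d' _ => by ring

theorem continuous_Tz (v : V) {f : Xi F × D → ℂ} (hf : ∀ d, Continuous fun x => f (x, d)) (d : D) :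
    Continuous fun x => Tz B v f (x, d) := by
  exact continuous_finsetSum (B.row v d).support fun d' _ =>
    Continuous.mul (continuous_const (y := B.row v d d')) (hf d')

theorem continuous_Tzw (l : List V) {f : Xi F × D → ℂ} (hf : ∀ d, Continuous fun x => f (x, d)) :
    ∀ d, Continuous fun x => Tzw B l f (x, d) := by
  induction l with
  | nil => exact hf
  | cons v l ih => exact B.continuous_Tz v ih

/-- A word acts on an eigenfunction by the product of the eigenvalues. -/
theorem Tzw_eq {x : V → ℂ} {f : Xi F × D → ℂ}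
    (hT : ∀ v p, Tz B v f p = ((Real.sqrt (B.q v) : ℝ) : ℂ) * x v * f p) (l : List V)
    (p : Xi F × D) : Tzw B l f p = ((B.sq l : ℝ) : ℂ) * (l.map x).prod * f p := by
  induction l generalizing p with
  | nil => simp [Tzw, sq]
  | cons v l ih =>
    have h1 : Tzw B l f = fun p => ((B.sq l : ℝ) : ℂ) * (l.map x).prod * f p := funext ih
    rw [Tzw_cons, h1, Tz_const_mul]
    simp only [hT, sq_cons, List.map_cons, List.prod_cons]
    push_cast
    ring

/-- The operator attached to the data `A` and to kernels `κ j w`: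
`∑_j c_j (∏ √q)⁻¹ R(κ_j) T^{word j}`. -/
def RA {x : V → ℂ} (A : Data B.E B.pc x) (κ : Fin A.n → InfinitePlace F → ℝ → ℂ)
    (f : Xi F × D → ℂ) : Xi F × D → ℂ :=
  fun p => ∑ j, ((A.coef j : ℝ) : ℂ) * ((B.sq (A.word j) : ℝ) : ℂ)⁻¹ *
    Rz (κ j) (Tzw B (A.word j) f) p

/-- The value of the operator of the data `A` at the kernels `κ` and at the parameters `ν`. -/
def val {x : V → ℂ} (A : Data B.E B.pc x) (κ : Fin A.n → InfinitePlace F → ℝ → ℂ)
    (ν : InfinitePlace F → ℂ) : ℂ :=
  ∑ j, ((A.coef j : ℝ) : ℂ) * (((A.word j).map x).prod * ∏ w, sph (ν w) (κ j w))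

open Classical in
/-- **The operator acts on a joint eigenfunction by its value.** -/
theorem RA_eq {x : V → ℂ} (A : Data B.E B.pc x) {κ : Fin A.n → InfinitePlace F → ℝ → ℂ}
    (hκ : ∀ j w, IsKer (κ j w)) {ν : InfinitePlace F → ℂ} {f : Xi F × D → ℂ}
    (hf : ∀ d, Continuous fun x => f (x, d))
    (hT : ∀ v p, Tz B v f p = ((Real.sqrt (B.q v) : ℝ) : ℂ) * x v * f p)
    (hR : ∀ (w : InfinitePlace F) (k : ℝ → ℂ), IsKer k → ∀ (x : Xi F) (d : D),
      ∫ P, k (cu (x w) P) * f ((Function.update x w P : InfinitePlace F → H3), d) =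
        sph (ν w) k * f (x, d))
    (p : Xi F × D) : B.RA A κ f p = B.val A κ ν * f p := by
  rw [RA, val, Finset.sum_mul]
  refine Finset.sum_congr rfl fun j _ => ?_
  have hsq : ((B.sq (A.word j) : ℝ) : ℂ) ≠ 0 := by
    exact_mod_cast (B.sq_pos (A.word j)).ne'
  have h1 : ∫ x' : Xi F, pk (κ j) p.1 x' * f (x', p.2) =
      (∏ w, sph (ν w) (κ j w)) * f p :=
    integral_pk_eq (ι := InfinitePlace F) (k := κ j) (hκ j)
      (f := fun x' : InfinitePlace F → H3 => f ((x' : Xi F), p.2)) (hf p.2)
      (lam := fun w => sph (ν w) (κ j w)) (fun w x => hR w (κ j w) (hκ j w) x p.2) p.1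
  have h2 : Rz (κ j) (Tzw B (A.word j) f) p =
      (((B.sq (A.word j) : ℝ) : ℂ) * ((A.word j).map x).prod) *
        ∫ x' : Xi F, pk (κ j) p.1 x' * f (x', p.2) := by
    rw [Rz, ← integral_const_mul]
    refine integral_congr_ae (Filter.Eventually.of_forall fun x' => ?_)
    simp only [B.Tzw_eq hT]
    ring
  rw [h2, h1]
  field_simp

/-- The kernels `symKer (h w) (shift j w)` attached to test functions `h w`. -/
def ker {x : V → ℂ} (A : Data B.E B.pc x) (h : InfinitePlace F → ℝ → ℂ) (j : Fin A.n)
    (w : InfinitePlace F) : ℝ → ℂ := symKer (h w) (A.shift j w)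

theorem isKer_ker {x : V → ℂ} (A : Data B.E B.pc x) {h : InfinitePlace F → ℝ → ℂ}
    (hh : ∀ w, IsTest (h w)) (j : Fin A.n) (w : InfinitePlace F) : IsKer (B.ker A h j w) :=
  (hh w).isKer _

/-- The value at the origin at infinity. -/
theorem val_zero {x : V → ℂ} (A : Data B.E B.pc x) {h : InfinitePlace F → ℝ → ℂ}
    (hh : ∀ w, IsTest (h w)) : B.val A (B.ker A h) 0 =
      (∑ j, ((A.coef j : ℝ) : ℂ) * ((A.word j).map x).prod) * ∏ w, ∫ u, h w u := by
  classical
  rw [← A.value_eq fun w => (hh w).integrable]
  unfold val ker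
  refine Finset.sum_congr rfl fun j _ => ?_
  congr 2
  exact Finset.prod_congr rfl fun w _ => (hh w).sph_zero_symKer _

theorem val_ne_zero {x : V → ℂ} (A : Data B.E B.pc x) {h : InfinitePlace F → ℝ → ℂ}
    (hh : ∀ w, IsTest (h w)) (h0 : ∀ w, ∫ u, h w u ≠ 0) : B.val A (B.ker A h) 0 ≠ 0 := by
  rw [B.val_zero A hh]
  exact mul_ne_zero A.value_ne (Finset.prod_ne_zero_iff.mpr fun w _ => h0 w)

/-- If the eigenvalues are real then so is the value at the origin. -/
theorem conj_val {x : V → ℂ} (hx : ∀ v, starRingEnd ℂ (x v) = x v) (A : Data B.E B.pc x)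
    {h : InfinitePlace F → ℝ → ℂ} (hh : ∀ w, IsTest (h w)) :
    starRingEnd ℂ (B.val A (B.ker A h) 0) = B.val A (B.ker A h) 0 := by
  have h1 : ∀ l : List V, starRingEnd ℂ (l.map x).prod = (l.map x).prod := by
    intro l
    induction l with
    | nil => simp
    | cons v l ih => rw [List.map_cons, List.prod_cons, map_mul, hx, ih]
  rw [B.val_zero A hh, map_mul, map_sum, map_prod]
  congr 1
  · refine Finset.sum_congr rfl fun j _ => ?_
    rw [map_mul, h1, Complex.conj_ofReal]
  · refine Finset.prod_congr rfl fun w _ => ?_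
    rw [← integral_conj]
    simp only [(hh w).real]

open Classical in
/-- The operator acts on a joint eigenfunction with `IsEig` at every place by its value. -/
theorem RA_eq_of_isEig {x : V → ℂ} (A : Data B.E B.pc x)
    {κ : Fin A.n → InfinitePlace F → ℝ → ℂ} (hκ : ∀ j w, IsKer (κ j w))
    {ν : InfinitePlace F → ℂ} {f : Xi F × D → ℂ} (hf : ∀ d, Continuous fun x => f (x, d))
    (hT : ∀ v p, Tz B v f p = ((Real.sqrt (B.q v) : ℝ) : ℂ) * x v * f p)
    (hR : ∀ (w : InfinitePlace F) (x : Xi F) (d : D), IsEig
      (fun P => f ((Function.update x w P : InfinitePlace F → H3), d)) (sph (ν w)))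
    (p : Xi F × D) : B.RA A κ f p = B.val A κ ν * f p := by
  refine B.RA_eq A hκ hf hT (fun w k hk x d => ?_) p
  have h1 := (hR w x d).eig k hk (x w)
  simp only [Function.update_eq_self] at h1
  exact h1

open Classical in
/-- **The operator attached to test functions of non-zero integral acts on a joint eigenfunction
with all parameters zero at infinity by a non-zero number.** -/
theorem RA_ker_eq {x : V → ℂ} (A : Data B.E B.pc x) {h : InfinitePlace F → ℝ → ℂ}
    (hh : ∀ w, IsTest (h w)) {f : Xi F × D → ℂ} (hf : ∀ d, Continuous fun x => f (x, d))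
    (hT : ∀ v p, Tz B v f p = ((Real.sqrt (B.q v) : ℝ) : ℂ) * x v * f p)
    (hR : ∀ (w : InfinitePlace F) (x : Xi F) (d : D), IsEig
      (fun P => f ((Function.update x w P : InfinitePlace F → H3), d)) (sph 0))
    (p : Xi F × D) : B.RA A (B.ker A h) f p = B.val A (B.ker A h) 0 * f p :=
  B.RA_eq_of_isEig A (B.isKer_ker A hh) (ν := 0) hf hT hR p

/-! ### Restriction of the set of places -/

/-- The same boundary with fewer (or renamed) Hecke operators. -/
def comap {V' : Type} (g : V' → V) : Bdry F D V' where
  C0 := B.C0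
  inst := B.inst
  i0 := B.i0
  fin := B.fin
  nm := B.nm
  nm_pos := B.nm_pos
  nm_i0 := B.nm_i0
  p v := B.p (g v)
  q v := B.q (g v)
  q_pos v := B.q_pos (g v)
  nm_p v := B.nm_p (g v)
  row v := B.row (g v)
  row_smul v := B.row_smul (g v)
  orb := B.orb
  orb_one := B.orb_one
  orb_i0 := B.orb_i0
  row_orb φ hφ v := B.row_orb φ hφ (g v)

variable {V' : Type} (g : V' → V)

theorem comap_E : (B.comap g).E = B.E := rfl

theorem comap_i0 : (B.comap g).i0 = B.i0 := rfl

theorem comap_p (v : V') : (B.comap g).p v = B.p (g v) := rfl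

theorem comap_q (v : V') : (B.comap g).q v = B.q (g v) := rfl

theorem comap_row (v : V') : (B.comap g).row v = B.row (g v) := rfl

theorem comap_pc (v : V') : (B.comap g).pc v = B.pc (g v) := rfl

theorem comap_sq (l : List V') : (B.comap g).sq l = B.sq (l.map g) := by
  simp only [sq, List.map_map, Function.comp_def, comap_q]

theorem Tz_comap (v : V') (f : Xi F × D → ℂ) : Tz (B.comap g) v f = Tz B (g v) f := rfl

theorem Tzw_comap (l : List V') (f : Xi F × D → ℂ) :
    Tzw (B.comap g) l f = Tzw B (l.map g) f := by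
  induction l with
  | nil => rfl
  | cons v l ih => rw [Tzw_cons, List.map_cons, Tzw_cons, ih, Tz_comap]

end Bdry

end Fermat.Agent.LT.Aleph

end
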