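import Fermat.Agent.LT.Aleph.Common
import Fermat.Agent.LT.Sttf.SymTr

/-!
# The common factor is a Hilbert-Schmidt operator

* `isHS_homS_of_sup` : a linear combination of operators of symbols which is bounded from `L²` to
  `L^∞` is Hilbert-Schmidt on every stable subspace;
* `IsFac.isHS`, `IsFac.full_mem`, `IsFac.adjoint_linS`, `IsFac.linS_eq_zero` : the four properties
  of the factor used by the trace formula.
-/

set_option autoImplicit false
set_option linter.unusedSectionVars false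

noncomputable section

open MeasureTheory NumberField
open scoped ENNReal ComplexConjugate BigOperators InnerProductSpace

namespace Fermat.Agent.LT

open Fermat.Agent.LT.Desc (cuspX exists_orbits)

section Gen

variable {G X D : Type*} [Group G] [MulAction G X] [MulAction G D] [MeasurableSpace X]
  [MeasurableSpace D] [MeasurableSingletonClass D] [Countable D] {mX : Measure X} [SFinite mX]
  [MeasurableConstSMul G (X × D)] [SMulInvariantMeasure G (X × D) (muXD mX D)] [Countable G]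
  {w : X × D → ℝ≥0∞} {𝒦 : Type*} [Semigroup 𝒦] {κ : KerSg G mX 𝒦}
  {hT : ∃ T : Finset D, ∀ d, ∃ g : G, g • d ∈ T} {hw : IsWeight G w}
  {𝒱 : Submodule ℂ (Lp ℂ 2 ((muXD mX D).withDensity w))}

theorem isHS_homS_of_sup [IsFiniteMeasure ((muXD mX D).withDensity w)] {ι : Type*}
    (h : StabRep (symOp κ hT hw) 𝒱) {t : Finset ι} {c : ι → ℂ} {s : ι → Symb G D 𝒦}
    (hb : ∃ C : ℝ, ∀ f : autL2 G ((muXD mX D).withDensity w), ∀ᵐ z ∂muXD mX D,
      ‖arep (linS κ hT hw t c s f) z‖ ≤ C * ‖f‖) : IsHS (homS h t c s) := by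
  obtain ⟨C, hC⟩ := hb
  refine isHS_of_ae (B := C) fun v => ?_
  filter_upwards [coeFn_ae_arep (linS κ hT hw t c s ⟨v, h.le v.2⟩),
    (withDensity_ac (muXD mX D) w).ae_le (hC ⟨v, h.le v.2⟩)] with z h1 h2
  rw [coe_homS h t c s v, h1]
  exact h2

end Gen

end Fermat.Agent.LT

namespace Fermat.Agent.LT.Aleph

open Fermat.Agent.LT.Iso Fermat.Agent.LT.Tr
open Fermat.Agent.LT.Desc (cuspX cuspX_le coe_mem_cuspX mem_cuspX_iff_of_ae exists_orbits)

section Fac

variable {F : Type*} [Field F] [NumberField F] [IsTotallyComplex F] {D : Type*}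
  [MeasurableSpace D] [DiscreteMeasurableSpace D] [Countable D] [MulAction (GL (Fin 2) F) D]
  [IsLevel F D] {w : Xi F × D → ℝ≥0∞} {𝒦 : Type*} [Semigroup 𝒦]
  {κ : KerSg (PG F) (volume : Measure (Xi F)) 𝒦}
  {hT : ∃ T : Finset D, ∀ d, ∃ g : PG F, g • d ∈ T} {hw : IsWeight (PG F) w} {ι : Type*}
  {φ : ι → Symb (PG F) D 𝒦} {P : List ι →₀ ℂ}
  {𝒱 : Submodule ℂ (Lp ℂ 2 ((muXD (volume : Measure (Xi F)) D).withDensity w))}

theorem IsFac.isHS (h : IsFac κ hT hw φ P) (hV : StabRep (symOp κ hT hw) 𝒱) :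
    IsHS (homS hV P.support P fun l => (l.map φ).prod) := by
  obtain ⟨C, -, hC⟩ := h.sup
  have : IsFiniteMeasure ((muXD (volume : Measure (Xi F)) D).withDensity w) :=
    isFiniteMeasure_weight F D hw
  refine isHS_homS_of_sup hV ⟨C, fun f => ?_⟩
  have h1 := hC f
  rwa [opP_eq_linS] at h1

theorem IsFac.full_mem (h : IsFac κ hT hw φ P) :
    ∀ l ∈ P.support, (l.map φ).prod ∈ fullS (PG F) D 𝒦 :=
  fun l hl => h.full l (Finsupp.mem_support_iff.1 hl)

theorem IsFac.adjoint_linS [Star 𝒦]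
    (hstar : ∀ (k : 𝒦) x x', κ.kap (star k) x x' = conj (κ.kap k x' x))
    (hc : ∀ i j, Commute (φ i) (φ j)) (hs : ∀ i, sstar (φ i) = φ i)
    (h : IsFac κ hT hw φ P) :
    ContinuousLinearMap.adjoint (linS κ hT hw P.support P fun l => (l.map φ).prod) =
      linS κ hT hw P.support P fun l => (l.map φ).prod := by
  rw [← opP_eq_linS]
  exact h.adjoint hstar hc hs

theorem IsFac.linS_eq_zero [StarMul 𝒦]
    (hstar : ∀ (k : 𝒦) x x', κ.kap (star k) x x' = conj (κ.kap k x' x))
    (hc : ∀ i j, Commute (φ i) (φ j)) (hs : ∀ i, sstar (φ i) = φ i)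
    (h : IsFac κ hT hw φ P) (hC : StabRep (symOp κ hT hw) (cuspX hw))
    {f : autL2 (PG F) ((muXD (volume : Measure (Xi F)) D).withDensity w)}
    (hf : (f : Lp ℂ 2 ((muXD (volume : Measure (Xi F)) D).withDensity w)) ∈
      (hC.mainPart (fullS (PG F) D 𝒦))ᗮ) :
    linS κ hT hw P.support P (fun l => (l.map φ).prod) f = 0 := by
  rw [← opP_eq_linS]
  exact h.eq_zero hstar hc hs hC fun v hv => (Submodule.mem_orthogonal _ _).1 hf v hv

end Fac

end Fermat.Agent.LT.Aleph
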