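import Fermat.Agent.LT.Aleph.UT
import Fermat.Agent.LT.SApprox

/-!
# The group `C₀ = 𝔸_f^× / V` and its action on `N(𝔸_f) \ D` (helper36)

`U : Lev F` a level, `D U` helper34's restricted product.

* `NDv U v = N(F_v) \ D_v`, `VF U v` : the units of `F_v` acting trivially on it.
* `C0 U` : the restricted direct product of the groups `F_vˣ / V_v`; `i0 U : Fˣ →* C0 U`.
* `ND U` : the restricted product of the `N(F_v) \ D_v`, with the action of `C0 U`.
* `pr U : D U → ND U`, `pr_eq_iff : pr U d = pr U d' ↔ ∃ b : F, n(b) d = d'` (approximation).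
-/

set_option autoImplicit false

open Matrix NumberField IsDedekindDomain WithZero
open scoped WithZero

noncomputable section

namespace Fermat.Agent.LT.Aleph

open Lvl

/-! ### Quotients of groups acting -/

section Quot

variable {A X : Type*} [CommGroup A] [MulAction A X] (V : Subgroup A)
  (hV : ∀ a ∈ V, ∀ x : X, a • x = x)

/-- The action of `A ⧸ V`, when `V` acts trivially. -/
@[reducible] def quotAction : MulAction (A ⧸ V) X :=
  MulAction.compHom X (QuotientGroup.lift V (MulAction.toPermHom A X) fun a ha => by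
    ext x
    exact hV a ha x)

end Quot

section Local

variable {F : Type*} [Field F] [NumberField F] (U : Lev F) (v : HeightOneSpectrum (𝓞 F))

/-- `N(F_v) \ D_v`. -/
abbrev NDv : Type _ := NQ (v.adicCompletion F) (Dv U v)

/-- The units of `F_v` acting trivially on `N(F_v) \ D_v`. -/
def VF : Subgroup (v.adicCompletion F)ˣ where
  carrier := {a | Valued.v (a : v.adicCompletion F) = 1 ∧ ∀ x : NDv U v, a • x = x}
  mul_mem' := by
    rintro a b ⟨ha, ha'⟩ ⟨hb, hb'⟩
    refine ⟨by rw [Units.val_mul, map_mul, ha, hb, one_mul], fun x => ?_⟩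
    rw [mul_smul, hb', ha']
  one_mem' := ⟨by simp, fun x => one_smul _ x⟩
  inv_mem' := by
    rintro a ⟨ha, ha'⟩
    refine ⟨by rw [Units.val_inv_eq_inv_val, map_inv₀, ha, inv_one], fun x => ?_⟩
    rw [inv_smul_eq_iff, ha']

variable {U v}

theorem mem_VF {a : (v.adicCompletion F)ˣ} : a ∈ VF U v ↔
    Valued.v (a : v.adicCompletion F) = 1 ∧ ∀ x : NDv U v, a • x = x := Iff.rfl

/-- `v` is a good place for the level `U`. -/
def Good (U : Lev F) (v : HeightOneSpectrum (𝓞 F)) : Prop :=
  U.U v = GLO (Valued.v : Valuation (v.adicCompletion F) ℤᵐ⁰)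

theorem finite_not_good (U : Lev F) : {v | ¬ Good U v}.Finite := U.ae

theorem smul_eq_self_aux {E Γ : Type*} [Field E] [LinearOrderedCommGroupWithZero Γ]
    {w : Valuation E Γ} {H : Subgroup (GL (Fin 2) E)} (h : H = GLO w) {a : Eˣ}
    (ha : w (a : E) = 1) (x : NQ E (Cos H)) : a • x = x := by
  subst h
  exact NQ.smul_eq_self_of_unit ha x

theorem mem_VF_of_good (h : Good U v) {a : (v.adicCompletion F)ˣ} : a ∈ VF U v ↔
    Valued.v (a : v.adicCompletion F) = 1 :=
  ⟨fun h => h.1, fun ha => ⟨ha, smul_eq_self_aux h ha⟩⟩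

variable (U v) in
theorem exists_cong_mem_VF : ∃ n : ℕ, ∀ a : (v.adicCompletion F)ˣ,
    Valued.v ((a : v.adicCompletion F) - 1) ≤ exp (-(n : ℤ)) → a ∈ VF U v := by
  obtain ⟨n, hn⟩ := U.isOpen v
  refine ⟨n + 1, fun a ha => ⟨?_, ?_⟩⟩
  · have h1 : Valued.v ((a : v.adicCompletion F) - 1) < 1 := by
      refine ha.trans_lt ?_
      rw [← exp_zero, exp_lt_exp]
      push_cast
      omega
    have h2 := Valuation.map_add_eq_of_lt_right (v := (Valued.v : Valuation (v.adicCompletion F) ℤᵐ⁰))
      (x := (a : v.adicCompletion F) - 1) (y := 1) (by rwa [map_one])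
    rwa [sub_add_cancel, map_one] at h2
  · refine NQ.smul_eq_self_of_cong hn (ha.trans ?_)
    rw [exp_le_exp]
    push_cast
    omega

variable (U v)

instance : MulAction ((v.adicCompletion F)ˣ ⧸ VF U v) (NDv U v) :=
  quotAction (VF U v) fun _ h => h.2

/-- The local component of `C0 U`. -/
def C0v : Type _ := (v.adicCompletion F)ˣ ⧸ VF U v

instance : CommGroup (C0v U v) := inferInstanceAs (CommGroup ((v.adicCompletion F)ˣ ⧸ VF U v))

/-- the projection -/
def C0v.mk : (v.adicCompletion F)ˣ →* C0v U v := QuotientGroup.mk' (VF U v)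

instance : MulAction (C0v U v) (NDv U v) :=
  inferInstanceAs (@MulAction ((v.adicCompletion F)ˣ ⧸ VF U v) (NDv U v) _)

variable {U v}

theorem C0v.mk_surjective : Function.Surjective (C0v.mk U v) :=
  QuotientGroup.mk'_surjective (VF U v)

theorem C0v.mk_eq_one_iff {a : (v.adicCompletion F)ˣ} : C0v.mk U v a = 1 ↔ a ∈ VF U v :=
  QuotientGroup.eq_one_iff a

theorem C0v.mk_smul (a : (v.adicCompletion F)ˣ) (x : NDv U v) :
    C0v.mk U v a • x = a • x := rfl

end Local

section Global

variable {F : Type*} [Field F] [NumberField F] (U : Lev F)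

/-- The group `𝔸_f^× / V`. -/
def C0 : Subgroup (∀ v : HeightOneSpectrum (𝓞 F), C0v U v) where
  carrier := {c | {v | c v ≠ 1}.Finite}
  mul_mem' := by
    intro c c' hc hc'
    refine (hc.union hc').subset fun v hv => ?_
    by_contra h
    simp only [Set.mem_union, Set.mem_ofPred_eq, not_or, not_not] at h
    exact hv (by rw [Pi.mul_apply, h.1, h.2, one_mul])
  one_mem' := by simp
  inv_mem' := by
    intro c hc
    refine hc.subset fun v hv h => hv ?_
    rw [Pi.inv_apply, h, inv_one]

/-- The restricted product of the sets `N(F_v) \ D_v`. -/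
abbrev ND : Type _ := RProd (NDv U) (fun v => NQ.mk (v.adicCompletion F) (base U v))

instance : MulAction (C0 U) (ND U) where
  smul c x := ⟨fun v => (c : ∀ v, C0v U v) v • x v, ((show {v | (c : ∀ v, C0v U v) v ≠ 1}.Finite
    from c.2).union x.fin).subset fun v hv => by
      by_contra h
      simp only [Set.mem_union, Set.mem_ofPred_eq, not_or, not_not] at h
      refine hv ?_
      show (c : ∀ v, C0v U v) v • x v = _
      rw [h.1, one_smul]
      exact h.2⟩
  one_smul x := RProd.ext' fun v => by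
    show ((1 : C0 U) : ∀ v, C0v U v) v • x v = x v
    exact one_smul _ (x v)
  mul_smul c c' x := RProd.ext' fun v => by
    show ((c * c' : C0 U) : ∀ v, C0v U v) v • x v =
      (c : ∀ v, C0v U v) v • ((c' : ∀ v, C0v U v) v • x v)
    exact mul_smul _ _ (x v)

variable {U}

@[simp] theorem C0_smul_apply (c : C0 U) (x : ND U) (v : HeightOneSpectrum (𝓞 F)) :
    (c • x) v = (c : ∀ v, C0v U v) v • x v := rfl

theorem C0_mul_apply (c c' : C0 U) (v : HeightOneSpectrum (𝓞 F)) :
    ((c * c' : C0 U) : ∀ v, C0v U v) v = (c : ∀ v, C0v U v) v * (c' : ∀ v, C0v U v) v := rfl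

theorem C0_ext {c c' : C0 U} (h : ∀ v, (c : ∀ v, C0v U v) v = (c' : ∀ v, C0v U v) v) : c = c' :=
  Subtype.ext (funext h)

/-- the embedding `F_v ← F` on units -/
abbrev uv (v : HeightOneSpectrum (𝓞 F)) : Fˣ →* (v.adicCompletion F)ˣ :=
  Units.map (algebraMap F (v.adicCompletion F) : F →* v.adicCompletion F)

theorem finite_val_ne_one (a : Fˣ) :
    {v : HeightOneSpectrum (𝓞 F) | v.valuation F (a : F) ≠ 1}.Finite := by
  refine (CFT.SUnits.finite_ord_ne_zero (R := 𝓞 F) F a).subset fun v hv h => hv ?_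
  exact (CFT.SUnits.ord_eq_zero_iff F v a).mp h

variable (U) in
/-- The diagonal map `Fˣ → C₀`. -/
def i0 : Fˣ →* C0 U where
  toFun a := ⟨fun v => C0v.mk U v (uv v a), by
    refine ((finite_val_ne_one a).union (finite_not_good U)).subset fun v hv => ?_
    by_contra h
    simp only [Set.mem_union, Set.mem_ofPred_eq, not_or, not_not] at h
    refine hv (C0v.mk_eq_one_iff.mpr ((mem_VF_of_good h.2).mpr ?_))
    rw [Units.coe_map, MonoidHom.coe_coe]
    exact (Loc.v_ι v (a : F)).trans h.1⟩
  map_one' := C0_ext fun v => by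
    show C0v.mk U v (uv v 1) = 1
    rw [map_one, map_one]
  map_mul' a b := C0_ext fun v => by
    show C0v.mk U v (uv v (a * b)) = C0v.mk U v (uv v a) * C0v.mk U v (uv v b)
    rw [map_mul, map_mul]

theorem i0_apply (a : Fˣ) (v : HeightOneSpectrum (𝓞 F)) :
    (i0 U a : ∀ v, C0v U v) v = C0v.mk U v (uv v a) := rfl

variable (U) in
/-- The projection `D → N(𝔸_f) \ D`. -/
def pr : D U → ND U := RProd.map (fun v => NQ.mk (v.adicCompletion F)) (by simp)

@[simp] theorem pr_apply (d : D U) (v : HeightOneSpectrum (𝓞 F)) :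
    pr U d v = NQ.mk (v.adicCompletion F) (d v) := rfl

variable (U) in
theorem pr_surjective : Function.Surjective (pr U) := by
  classical
  intro x
  choose d hd using fun v => NQ.mk_surjective (x v)
  refine ⟨⟨fun v => if x v = NQ.mk (v.adicCompletion F) (base U v) then base U v else d v,
    x.fin.subset fun v hv h => ?_⟩, RProd.ext' fun v => ?_⟩
  · refine hv ?_
    show (if x v = NQ.mk (v.adicCompletion F) (base U v) then base U v else d v) = _
    rw [if_pos h]
  · show NQ.mk _ (if x v = NQ.mk (v.adicCompletion F) (base U v) then base U v else d v) = x v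
    split_ifs with h
    · exact h.symm
    · exact hd v

theorem i0_smul_pr (a : Fˣ) (d : D U) : i0 U a • pr U d = pr U (dg a • d) := by
  refine RProd.ext' fun v => ?_
  rw [C0_smul_apply, i0_apply, C0v.mk_smul, pr_apply, pr_apply, NQ.smul_mk, RProd.smul_apply,
    smulF_def, gmap, map_bor, map_zero]

/-! ### Approximation -/

theorem exists_un_smul_eq {E Γ : Type*} [Field E] [LinearOrderedCommGroupWithZero Γ]
    {w : Valuation E Γ} {H : Subgroup (GL (Fin 2) E)} {δ : Γ} (hδ : δ ≠ 0)
    (hH : ∀ g : GL (Fin 2) E, Bd w ((g : Matrix (Fin 2) (Fin 2) E) - 1) δ → g ∈ H)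
    (d : Cos H) : ∃ γ : Γ, γ ≠ 0 ∧ ∀ x : E, w x ≤ γ → un x • d = d := by
  obtain ⟨g, rfl⟩ := Cos.mk_surjective d
  obtain ⟨α, hα, hg⟩ := exists_bd w (g : Matrix (Fin 2) (Fin 2) E)
  obtain ⟨β, hβ, hg'⟩ := exists_bd w ((g⁻¹ : GL (Fin 2) E) : Matrix (Fin 2) (Fin 2) E)
  refine ⟨β⁻¹ * δ * α⁻¹, by simp [hα, hβ, hδ], fun x hx => ?_⟩
  rw [Cos.smul_mk]
  have h1 : g⁻¹ * un x * g ∈ H := by
    apply hH
    have h2 : ((g⁻¹ * un x * g : GL (Fin 2) E) : Matrix (Fin 2) (Fin 2) E) - 1 =
        ((g⁻¹ : GL (Fin 2) E) : Matrix (Fin 2) (Fin 2) E) *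
          ((un x : Matrix (Fin 2) (Fin 2) E) - 1) * (g : Matrix (Fin 2) (Fin 2) E) := by
      rw [mul_sub, sub_mul, mul_one, ← Units.val_mul, ← Units.val_mul, ← Units.val_mul,
        inv_mul_cancel, Units.val_one]
    rw [h2]
    have h3 : Bd w ((un x : Matrix (Fin 2) (Fin 2) E) - 1) (β⁻¹ * δ * α⁻¹) := by
      intro i j
      rw [coe_bor, Matrix.sub_apply]
      fin_cases i <;> fin_cases j <;> simp [hx]
    refine ((hg'.mul h3).mul hg).mono (le_of_eq ?_)
    field_simp
  have h5 : un x * g = g * (g⁻¹ * un x * g) := by group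
  rw [h5, Cos.mk_mul h1]

theorem un_smul_base_aux {E Γ : Type*} [Field E] [LinearOrderedCommGroupWithZero Γ]
    {w : Valuation E Γ} {H : Subgroup (GL (Fin 2) E)} (h : H = GLO w) {x : E}
    (hx : w x ≤ 1) : un x • Cos.mk H 1 = Cos.mk H 1 := by
  subst h
  rw [Cos.smul_mk, mul_one]
  have := Cos.mk_mul (H := GLO w) (g := 1) (k := un x) (bor_mem_GLO (by simp) hx)
  rwa [one_mul] at this

/-- **Approximation**: the `N(𝔸_f)`-orbits are the `N(F)`-orbits. -/
theorem pr_eq_iff {d d' : D U} : pr U d = pr U d' ↔ ∃ b : F, un b • d = d' := by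
  classical
  constructor
  · intro h
    have h1 : ∀ v, ∃ c : v.adicCompletion F, un c • d v = d' v := fun v =>
      NQ.mk_eq_iff.mp (by rw [← pr_apply, h, pr_apply])
    choose c hc using h1
    have h2 : ∀ v, ∃ γ : ℤᵐ⁰, γ ≠ 0 ∧ ∀ x : v.adicCompletion F, Valued.v x ≤ γ →
        un x • d v = d v := fun v => by
      obtain ⟨n, hn⟩ := U.isOpen v
      exact exists_un_smul_eq exp_ne_zero hn (d v)
    choose γ hγ0 hγ using h2
    have hfin := (d.fin.union d'.fin).union (finite_not_good U)
    set S : Finset (HeightOneSpectrum (𝓞 F)) := hfin.toFinset with hS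
    obtain ⟨γ', hγ', hle⟩ : ∃ γ' : ℤᵐ⁰, γ' ≠ 0 ∧ ∀ v ∈ S, γ' ≤ γ v := by
      clear_value S
      clear hS
      induction S using Finset.induction_on with
      | empty => exact ⟨1, one_ne_zero, by simp⟩
      | insert a T ha ih =>
        obtain ⟨γ', h0, h1⟩ := ih
        refine ⟨min γ' (γ a), ?_, fun v hv => ?_⟩
        · rcases min_choice γ' (γ a) with h | h <;> rw [h]
          · exact h0
          · exact hγ0 a
        · rcases Finset.mem_insert.mp hv with rfl | hv
          · exact min_le_right _ _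
          · exact (min_le_left _ _).trans (h1 v hv)
    obtain ⟨b, hb, hbc⟩ := Loc.exists_OS_approx S (fun v => c v) hγ'
    refine ⟨b, RProd.ext' fun v => ?_⟩
    rw [RProd.smul_apply, smulF_def, gmap, map_bor, map_one]
    by_cases hv : v ∈ S
    · have h3 : algebraMap F (v.adicCompletion F) b = c v +
          (algebraMap F (v.adicCompletion F) b - c v) := by ring
      rw [← hc v]
      show un (algebraMap F (v.adicCompletion F) b) • d v = _
      rw [h3, un_add, mul_smul, hγ v _ ((hbc ⟨v, hv⟩).le.trans (hle v hv))]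
    · rw [hS, Set.Finite.mem_toFinset] at hv
      simp only [Set.mem_union, Set.mem_ofPred_eq, not_or, not_not] at hv
      rw [hv.1.1, hv.1.2]
      refine un_smul_base_aux hv.2 ?_
      rw [Loc.v_ι]
      refine Loc.mem_OS_iff.mp hb v ?_
      rw [hS, Set.Finite.mem_toFinset]
      simp only [Set.mem_union, Set.mem_ofPred_eq, not_or, not_not]
      exact hv
  · rintro ⟨b, rfl⟩
    refine RProd.ext' fun v => ?_
    rw [pr_apply, pr_apply, RProd.smul_apply, smulF_def, gmap, map_bor, map_one, NQ.mk_un_smul]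

end Global

end Fermat.Agent.LT.Aleph

end
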