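import Fermat.Agent.LT.Aleph.Ideles
import Fermat.Agent.CFT.SClass

/-!
# `C₀ / Fˣ` is finite, the norm on `C₀`, the classes of the places (helper36)

* `ordC`, `divC U : C0 U →* Multiplicative (HeightOneSpectrum (𝓞 F) →₀ ℤ)`, `divC_i0`;
* `finiteIndex_i0 : (i0 U).range.FiniteIndex`;
* `nmC U : C0 U →* ℝ`, `nmC_i0` (product formula);
* `pC U v : C0 U` : a uniformizer at `v`.
-/

set_option autoImplicit false

open Matrix NumberField IsDedekindDomain WithZero
open scoped WithZero

noncomputable section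

namespace Fermat.Agent.LT.Aleph

open Lvl Fermat.Agent.CFT.SUnits

section Local

variable {F : Type*} [Field F] [NumberField F] (U : Lev F) (v : HeightOneSpectrum (𝓞 F))

/-- the order of a unit of `F_v` -/
def ordv : (v.adicCompletion F)ˣ →* Multiplicative ℤ where
  toFun a := Multiplicative.ofAdd (-(log (Valued.v (a : v.adicCompletion F))))
  map_one' := by
    rw [Units.val_one, map_one, log_one, neg_zero]
    rfl
  map_mul' a b := by
    rw [Units.val_mul, map_mul, log_mul, neg_add]
    · rfl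
    · exact (Valuation.ne_zero_iff _).mpr a.ne_zero
    · exact (Valuation.ne_zero_iff _).mpr b.ne_zero

variable {v} in
theorem ordv_eq_one_iff {a : (v.adicCompletion F)ˣ} :
    ordv v a = 1 ↔ Valued.v (a : v.adicCompletion F) = 1 := by
  have h0 : (Valued.v (a : v.adicCompletion F)) ≠ 0 := (Valuation.ne_zero_iff _).mpr a.ne_zero
  constructor
  · intro h
    have h1 : log (Valued.v (a : v.adicCompletion F)) = 0 := by
      have := congrArg Multiplicative.toAdd h
      simpa [ordv] using this
    rw [← exp_log h0, h1, exp_zero]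
  · intro h
    show Multiplicative.ofAdd (-(log (Valued.v (a : v.adicCompletion F)))) = 1
    rw [h, log_one, neg_zero]
    rfl

/-- the order on `C0v` -/
def ordC : C0v U v →* Multiplicative ℤ :=
  QuotientGroup.lift (VF U v) (ordv v) fun a ha => by
    show ordv v a = 1
    exact ordv_eq_one_iff.mpr ha.1

variable {U v}

@[simp] theorem ordC_mk (a : (v.adicCompletion F)ˣ) : ordC U v (C0v.mk U v a) = ordv v a := rfl

theorem ordv_uv (a : Fˣ) : (ordv v (uv v a)).toAdd = ord v a := by
  show -(log (Valued.v (algebraMap F (v.adicCompletion F) (a : F)))) = ord v a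
  rw [Loc.v_ι, valuation_eq_exp_neg_ord, log_exp, neg_neg]

theorem eq_one_of_good (h : Good U v) {x : C0v U v} (hx : ordC U v x = 1) : x = 1 := by
  obtain ⟨a, rfl⟩ := C0v.mk_surjective x
  rw [ordC_mk, ordv_eq_one_iff] at hx
  exact C0v.mk_eq_one_iff.mpr ((mem_VF_of_good h).mpr hx)

variable (U v) in
theorem finite_ker_ordC : Finite (ordC U v).ker := by
  obtain ⟨n, hn⟩ := exists_cong_mem_VF U v
  have hfin : Finite (𝓞 F ⧸ v.asIdeal ^ n) :=
    Ideal.finiteQuotientOfFreeOfNeBot _ (pow_ne_zero _ v.ne_bot)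
  have key : ∀ x : (ordC U v).ker, ∃ (a : (v.adicCompletion F)ˣ) (r : 𝓞 F),
      C0v.mk U v a = x ∧ Valued.v (a : v.adicCompletion F) = 1 ∧
        Valued.v (algebraMap F (v.adicCompletion F) (r : F) - a) ≤ exp (-(n : ℤ)) := by
    rintro ⟨x, hx⟩
    obtain ⟨a, rfl⟩ := C0v.mk_surjective x
    rw [MonoidHom.mem_ker, ordC_mk, ordv_eq_one_iff] at hx
    obtain ⟨k, hk⟩ := Loc.exists_ι_sub_lt v (a : v.adicCompletion F) (γ := exp (-(n : ℤ)))
      exp_ne_zero
    have hk1 : v.valuation F k ≤ 1 := by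
      rw [← Loc.v_ι, show Loc.ι v k = (a : v.adicCompletion F) + (Loc.ι v k - a) by ring]
      refine (Valued.v.map_add _ _).trans (max_le hx.le (hk.le.trans ?_))
      rw [← exp_zero, exp_le_exp]
      omega
    obtain ⟨r, hr⟩ := v.exists_valuation_sub_lt_of_integer hk1
      (Units.mk0 (exp (-(n : ℤ))) exp_ne_zero)
    refine ⟨a, r, rfl, hx, ?_⟩
    rw [show algebraMap F (v.adicCompletion F) (r : F) - a =
      Loc.ι v (algebraMap (𝓞 F) F r - k) + (Loc.ι v k - a) by rw [map_sub]; ring]
    refine (Valued.v.map_add _ _).trans (max_le ?_ hk.le)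
    rw [Loc.v_ι]
    exact hr.le
  choose a r ha ha1 har using key
  refine Finite.of_injective (fun x => (Ideal.Quotient.mk (v.asIdeal ^ n) (r x))) ?_
  intro x y hxy
  rw [Ideal.Quotient.eq, ← HeightOneSpectrum.intValuation_le_pow_iff_mem] at hxy
  have h1 : Valued.v (algebraMap F (v.adicCompletion F) (r x : F) -
      algebraMap F (v.adicCompletion F) (r y : F)) ≤ exp (-(n : ℤ)) := by
    rw [← map_sub, Loc.v_ι, ← map_sub, HeightOneSpectrum.valuation_of_algebraMap]
    exact hxy
  have h2 : Valued.v ((a x : v.adicCompletion F) - a y) ≤ exp (-(n : ℤ)) := by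
    rw [show (a x : v.adicCompletion F) - a y =
      (algebraMap F (v.adicCompletion F) (r x : F) - algebraMap F (v.adicCompletion F) (r y : F)) -
      (algebraMap F (v.adicCompletion F) (r x : F) - a x) +
      (algebraMap F (v.adicCompletion F) (r y : F) - a y) by ring]
    refine (Valued.v.map_add _ _).trans (max_le ((Valued.v.map_sub _ _).trans
      (max_le h1 (har x))) (har y))
  apply Subtype.ext
  rw [← ha x, ← ha y, ← mul_inv_eq_one, ← map_inv, ← map_mul, C0v.mk_eq_one_iff]
  apply hn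
  have h3 : ((a x * (a y)⁻¹ : (v.adicCompletion F)ˣ) : v.adicCompletion F) - 1 =
      ((a x : v.adicCompletion F) - a y) * (a y : v.adicCompletion F)⁻¹ := by
    rw [Units.val_mul, Units.val_inv_eq_inv_val, sub_mul, mul_inv_cancel₀ (a y).ne_zero]
  rw [h3, map_mul, map_inv₀, ha1 y, inv_one, mul_one]
  exact h2

end Local

section Global

variable {F : Type*} [Field F] [NumberField F] (U : Lev F)

/-- the divisor of an element of `C₀` -/
def divC : C0 U →* Multiplicative (HeightOneSpectrum (𝓞 F) →₀ ℤ) where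
  toFun c := Multiplicative.ofAdd (Finsupp.ofSupportFinite
    (fun v => (ordC U v ((c : ∀ v, C0v U v) v)).toAdd) ((show {v | (c : ∀ v, C0v U v) v ≠ 1}.Finite
      from c.2).subset fun v hv h => hv (by
        show (ordC U v ((c : ∀ v, C0v U v) v)).toAdd = 0
        rw [h, map_one, toAdd_one])))
  map_one' := by
    apply Multiplicative.toAdd.injective
    ext v
    show (ordC U v 1).toAdd = 0
    rw [map_one, toAdd_one]
  map_mul' c c' := by
    apply Multiplicative.toAdd.injective
    ext v
    show (ordC U v ((c : ∀ v, C0v U v) v * (c' : ∀ v, C0v U v) v)).toAdd = _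
    rw [map_mul, toAdd_mul]
    rfl

variable {U}

theorem divC_apply (c : C0 U) (v : HeightOneSpectrum (𝓞 F)) :
    (divC U c).toAdd v = (ordC U v ((c : ∀ v, C0v U v) v)).toAdd := rfl

theorem divC_i0 (a : Fˣ) : divC U (i0 U a) = Multiplicative.ofAdd (div a) := by
  apply Multiplicative.toAdd.injective
  ext v
  rw [divC_apply, i0_apply, ordC_mk, ordv_uv]
  rfl

theorem mem_ker_divC {c : C0 U} : c ∈ (divC U).ker ↔
    ∀ v, ordC U v ((c : ∀ v, C0v U v) v) = 1 := by
  rw [MonoidHom.mem_ker]
  constructor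
  · intro h v
    have := DFunLike.congr_fun (congrArg Multiplicative.toAdd h) v
    rw [divC_apply] at this
    exact Multiplicative.toAdd.injective this
  · intro h
    apply Multiplicative.toAdd.injective
    ext v
    rw [divC_apply, h v]
    rfl

variable (U)

theorem finite_ker_divC : Finite (divC U).ker := by
  classical
  have h1 : Finite {v // ¬ Good U v} := (finite_not_good U).to_subtype
  have h2 : ∀ v : {v // ¬ Good U v}, Finite (ordC U v.1).ker := fun v => finite_ker_ordC U v.1
  refine Finite.of_injective (fun (c : (divC U).ker) (v : {v // ¬ Good U v}) =>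
    (⟨((c : C0 U) : ∀ v, C0v U v) v, mem_ker_divC.mp c.2 v⟩ : (ordC U v.1).ker)) ?_
  intro c c' h
  refine Subtype.ext (C0_ext fun v => ?_)
  by_cases hv : Good U v
  · rw [eq_one_of_good hv (mem_ker_divC.mp c.2 v), eq_one_of_good hv (mem_ker_divC.mp c'.2 v)]
  · exact congrArg Subtype.val (congrFun h ⟨v, hv⟩)

theorem mul_aux {G : Type*} [CommGroup G] (s c t : G) : t = (s * (c * s⁻¹ * t⁻¹))⁻¹ * c := by
  have h : s * (c * s⁻¹ * t⁻¹) = c * t⁻¹ := by
    rw [mul_assoc c, mul_left_comm s c, mul_inv_cancel_left s]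
  rw [h, _root_.mul_inv_rev, inv_inv, mul_assoc, inv_mul_cancel, mul_one]

/-- **`C₀ / Fˣ` is finite.** -/
theorem finiteIndex_i0 : (i0 U).range.FiniteIndex := by
  classical
  have hW := finite_ker_divC U
  let κ : C0 U →* ClassGroup (𝓞 F) := classOf.comp (divC U)
  let s : ClassGroup (𝓞 F) → C0 U := fun k => if h : ∃ c, κ c = k then h.choose else 1
  have hs : ∀ c, κ (s (κ c)) = κ c := by
    intro c
    have h : ∃ c', κ c' = κ c := ⟨c, rfl⟩
    show κ (if h : ∃ c', κ c' = κ c then h.choose else 1) = κ c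
    rw [dif_pos h]
    exact h.choose_spec
  have hfin : Finite (C0 U ⧸ (i0 U).range) := by
    refine Finite.of_surjective (fun p : ClassGroup (𝓞 F) × (divC U).ker =>
      (QuotientGroup.mk (s p.1 * p.2) : C0 U ⧸ (i0 U).range)) ?_
    intro y
    obtain ⟨c, rfl⟩ := QuotientGroup.mk_surjective y
    have h1 : classOf (divC U (c * (s (κ c))⁻¹)) = 1 := by
      show κ (c * (s (κ c))⁻¹) = 1
      rw [map_mul, map_inv, hs, mul_inv_cancel]
    obtain ⟨x, hx⟩ := (classOf_eq_one_iff _).mp h1
    have h2 : c * (s (κ c))⁻¹ * (i0 U x)⁻¹ ∈ (divC U).ker := by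
      rw [MonoidHom.mem_ker, map_mul, map_inv, divC_i0, hx]
      exact mul_inv_cancel _
    refine ⟨(κ c, ⟨_, h2⟩), ?_⟩
    show (QuotientGroup.mk (s (κ c) * (c * (s (κ c))⁻¹ * (i0 U x)⁻¹)) : C0 U ⧸ (i0 U).range) = _
    rw [QuotientGroup.eq]
    exact ⟨x, mul_aux _ _ _⟩
  exact Subgroup.finiteIndex_of_finite_quotient

/-! ### The norm -/

/-- the inverse norm of a divisor -/
def nmD : Multiplicative (HeightOneSpectrum (𝓞 F) →₀ ℤ) →* ℝ where
  toFun D := D.toAdd.prod fun v n => ((Ideal.absNorm v.asIdeal : ℝ)) ^ (-n)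
  map_one' := by
    rw [toAdd_one, Finsupp.prod_zero_index]
  map_mul' D E := by
    classical
    rw [toAdd_mul, Finsupp.prod_add_index']
    · intro v
      rw [neg_zero, zpow_zero]
    · intro v a b
      rw [neg_add, zpow_add₀]
      exact_mod_cast (Ideal.absNorm_ne_zero_iff _).mpr (Ideal.finiteQuotientOfFreeOfNeBot _ v.ne_bot)

/-- the norm on `C₀` -/
def nmC : C0 U →* ℝ := nmD.comp (divC U)

theorem nmC_pos (c : C0 U) : 0 < nmC U c := by
  refine Finset.prod_pos fun v _ => ?_
  refine zpow_pos ?_ _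
  exact_mod_cast Nat.pos_of_ne_zero
    ((Ideal.absNorm_ne_zero_iff _).mpr (Ideal.finiteQuotientOfFreeOfNeBot _ v.ne_bot))

theorem adicAbv_eq (v : HeightOneSpectrum (𝓞 F)) (a : Fˣ) :
    ‖FinitePlace.embedding (K := F) v (a : F)‖ = (Ideal.absNorm v.asIdeal : ℝ) ^ (-(ord v a)) := by
  rw [FinitePlace.norm_embedding', valuation_eq_exp_neg_ord,
    WithZeroMulInt.toNNReal_neg_apply _ exp_ne_zero]
  push_cast
  rfl

theorem nmC_i0 [IsTotallyComplex F] (a : Fˣ) :
    nmC U (i0 U a) * ∏ w : InfinitePlace F, w (a : F) ^ 2 = 1 := by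
  have h1 := prod_abs_eq_one (K := F) a.ne_zero
  have h2 : nmC U (i0 U a) = ∏ᶠ w : FinitePlace F, w (a : F) := by
    rw [← finprod_comp_equiv FinitePlace.equivHeightOneSpectrum.symm]
    simp only [FinitePlace.equivHeightOneSpectrum_symm_apply, adicAbv_eq]
    show nmD (divC U (i0 U a)) = _
    rw [divC_i0]
    show (div a).prod (fun v n => ((Ideal.absNorm v.asIdeal : ℝ)) ^ (-n)) = _
    rw [Finsupp.prod, finprod_eq_prod_of_mulSupport_subset]
    · rfl
    · intro v hv
      rw [Finset.mem_coe, Finsupp.mem_support_iff]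
      intro h
      refine hv ?_
      show (Ideal.absNorm v.asIdeal : ℝ) ^ (-(ord v a)) = 1
      rw [show ord v a = 0 from h, neg_zero, zpow_zero]
  rw [h2, mul_comm, ← h1]
  congr 1
  refine Finset.prod_congr rfl fun w _ => ?_
  rw [InfinitePlace.mult, if_neg]
  exact InfinitePlace.not_isReal_iff_isComplex.mpr (IsTotallyComplex.isComplex w)

/-! ### The classes of the places -/

variable {U} in
open Classical in
/-- The element of `C₀` with component `x` at `v` and `1` elsewhere. -/
def sgl (v : HeightOneSpectrum (𝓞 F)) : C0v U v →* C0 U where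
  toFun x := ⟨Pi.mulSingle v x, (Set.finite_singleton v).subset fun w hw => by
    by_contra h
    exact hw (Pi.mulSingle_eq_of_ne h x)⟩
  map_one' := Subtype.ext (Pi.mulSingle_one v)
  map_mul' x y := Subtype.ext (Pi.mulSingle_mul v x y)

variable {U}

theorem sgl_same (v : HeightOneSpectrum (𝓞 F)) (x : C0v U v) :
    (sgl v x : ∀ v, C0v U v) v = x := by
  classical exact Pi.mulSingle_eq_same v x

theorem sgl_ne {v w : HeightOneSpectrum (𝓞 F)} (h : w ≠ v) (x : C0v U v) :
    (sgl v x : ∀ v, C0v U v) w = 1 := by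
  classical exact Pi.mulSingle_eq_of_ne h x

theorem divC_sgl (v : HeightOneSpectrum (𝓞 F)) (x : C0v U v) :
    (divC U (sgl v x)).toAdd = Finsupp.single v (ordC U v x).toAdd := by
  classical
  ext w
  rw [divC_apply]
  by_cases h : w = v
  · subst h
    rw [sgl_same, Finsupp.single_eq_same]
  · rw [sgl_ne h, map_one, toAdd_one, Finsupp.single_eq_of_ne h]

end Global

end Fermat.Agent.LT.Aleph

end
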