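import Fermat.Agent.LT.Aleph.Algebra

/-!
# The operator killing the constant terms, as a finite combination of words in the `T_v` and convolutions
-/

set_option autoImplicit false

open scoped BigOperators
open MeasureTheory

noncomputable section

namespace Fermat.Agent.LT.Aleph

variable {ι V : Type} {C : Type} [CommGroup C]

/-! ### Real coefficients -/

/-- Complex conjugation of the coefficients. -/
def conjOp : Op ι V →+* Op ι V :=
  MvPolynomial.map (AddMonoidAlgebra.mapRingHom (ι → ℝ) (starRingEnd ℂ))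

lemma conjOp_X (v : V) : conjOp (MvPolynomial.X v : Op ι V) = MvPolynomial.X v := by
  rw [conjOp, MvPolynomial.map_X]

lemma conjOp_tr (a : ℂ) (t : ι → ℝ) :
    conjOp (V := V) (MvPolynomial.C (a • tr t)) = MvPolynomial.C ((starRingEnd ℂ a) • tr t) := by
  rw [conjOp, MvPolynomial.map_C]
  congr 1
  simp [tr]

/-- Every element of the group algebra is a combination of the `tr t`. -/
lemma eq_sum_tr (g : AddMonoidAlgebra ℂ (ι → ℝ)) :
    g = ∑ t ∈ g.coeff.support, g.coeff t • tr t := by
  classical
  refine AddMonoidAlgebra.ext (Finsupp.ext fun u => ?_)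
  rw [AddMonoidAlgebra.coeff_sum, Finsupp.finsetSum_apply]
  have h : ∀ t ∈ g.coeff.support, (g.coeff t • tr t : AddMonoidAlgebra ℂ (ι → ℝ)).coeff u =
      if u = t then g.coeff t else 0 := by
    intro t _
    rw [tr, AddMonoidAlgebra.smul_single, smul_eq_mul, mul_one, AddMonoidAlgebra.coeff_single,
      Finsupp.single_apply]
    simp only [eq_comm]
  rw [Finset.sum_congr rfl h, Finset.sum_ite_eq]
  split_ifs with h1
  · rfl
  · exact Finsupp.notMem_support_iff.mp h1

lemma prod_map_toMultiset (m : V →₀ ℕ) :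
    ((Finsupp.toMultiset m).map (MvPolynomial.X : V → Op ι V)).prod = MvPolynomial.monomial m 1 := by
  induction m using Finsupp.induction_linear with
  | zero => simp
  | add f g hf hg =>
    rw [map_add, Multiset.map_add, Multiset.prod_add, hf, hg, MvPolynomial.monomial_mul, one_mul]
  | single v k =>
    rw [Finsupp.toMultiset_single, Multiset.map_nsmul, Multiset.map_singleton,
      Multiset.prod_nsmul, Multiset.prod_singleton, MvPolynomial.X_pow_eq_monomial]

/-- Every formal operator is a finite sum of elementary ones. -/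
lemma eq_sum (D : Op ι V) :
    D = ∑ m ∈ D.support, ∑ t ∈ (MvPolynomial.coeff m D).coeff.support,
      MvPolynomial.C ((MvPolynomial.coeff m D).coeff t • tr t) *
        ((Finsupp.toMultiset m).toList.map MvPolynomial.X).prod := by
  conv_lhs => rw [← MvPolynomial.support_sum_monomial_coeff D]
  refine Finset.sum_congr rfl fun m _ => ?_
  rw [← Finset.sum_mul, ← map_sum, ← eq_sum_tr]
  have h1 : ((Finsupp.toMultiset m).toList.map (MvPolynomial.X : V → Op ι V)).prod =
      MvPolynomial.monomial m 1 := by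
    rw [← prod_map_toMultiset, ← Multiset.prod_coe, ← Multiset.map_coe, Multiset.coe_toList]
  rw [h1, MvPolynomial.C_mul_monomial, mul_one]

/-- The group ring element acting as `T_v`. -/
def tv (p : V → C) (v : V) : MonoidAlgebra ℂ C :=
  MonoidAlgebra.single (p v) 1 + MonoidAlgebra.single (p v)⁻¹ 1

/-- **The data of an operator killing the constant terms**: a real combination of words in the `T_v`
and shifts; `kill` is the algebraic form of the vanishing, `value_ne` says that the operator does not
vanish at the system of eigenvalues `x` (and at the origin at infinity). -/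
structure Data (E : Multiplicative (ι → ℝ) →* C) (p : V → C) (x : V → ℂ) where
  n : ℕ
  word : Fin n → List V
  shift : Fin n → ι → ℝ
  coef : Fin n → ℝ
  kill : ∀ s : ι → ℤˣ, ∑ j, (coef j : ℂ) •
    (MonoidAlgebra.single (E (Multiplicative.ofAdd (flip s (shift j)))) 1 *
      ((word j).map (tv p)).prod) = 0
  value_ne : ∑ j, (coef j : ℂ) * ((word j).map x).prod ≠ 0

lemma evC_elem (E : Multiplicative (ι → ℝ) →* C) (p : V → C) (a : ℂ) (t : ι → ℝ) (l : List V) :
    evC E p (MvPolynomial.C (a • tr t) * (l.map MvPolynomial.X).prod) =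
      a • (MonoidAlgebra.single (E (Multiplicative.ofAdd t)) 1 * (l.map (tv p)).prod) := by
  rw [map_mul, evC_tr, map_list_prod, List.map_map, smul_mul_assoc]
  congr 3
  exact List.map_congr_left fun v _ => evC_X E p v

lemma ev_elem (x : V → ℂ) (a : ℂ) (t : ι → ℝ) (l : List V) :
    ev x (MvPolynomial.C (a • tr t) * (l.map MvPolynomial.X).prod) = a * (l.map x).prod := by
  rw [map_mul, ev_tr, map_list_prod, List.map_map]
  congr 2
  exact List.map_congr_left fun v _ => ev_X x v

lemma flipOp_elem (s : ι → ℤˣ) (a : ℂ) (t : ι → ℝ) (l : List V) :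
    flipOp (ι := ι) s (MvPolynomial.C (a • tr t) * (l.map MvPolynomial.X).prod) =
      MvPolynomial.C (a • tr (flip s t)) * (l.map MvPolynomial.X).prod := by
  rw [map_mul, flipOp_tr, map_list_prod, List.map_map]
  congr 2
  exact List.map_congr_left fun v _ => flipOp_X s v

lemma flipOp_conjOp (s : ι → ℤˣ) (D : Op ι V) : flipOp s (conjOp D) = conjOp (flipOp s D) := by
  induction D using MvPolynomial.induction_on with
  | C g =>
    rw [eq_sum_tr g, map_sum, map_sum, map_sum, map_sum, map_sum]
    exact Finset.sum_congr rfl fun t _ => by rw [conjOp_tr, flipOp_tr, flipOp_tr, conjOp_tr]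
  | add f g hf hg => rw [map_add, map_add, map_add, map_add, hf, hg]
  | mul_X f v hf => rw [map_mul, map_mul, map_mul, map_mul, hf, conjOp_X, flipOp_X, conjOp_X]

lemma conjOp_conjOp (D : Op ι V) : conjOp (conjOp D) = D := by
  induction D using MvPolynomial.induction_on with
  | C g =>
    rw [eq_sum_tr g, map_sum, map_sum, map_sum]
    exact Finset.sum_congr rfl fun t _ => by rw [conjOp_tr, conjOp_tr, Complex.conj_conj]
  | add f g hf hg => rw [map_add, map_add, hf, hg]
  | mul_X f v hf => rw [map_mul, map_mul, hf, conjOp_X, conjOp_X]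

lemma ev_conjOp {x : V → ℂ} (hx : ∀ v, starRingEnd ℂ (x v) = x v) (D : Op ι V) :
    ev x (conjOp D) = starRingEnd ℂ (ev x D) := by
  induction D using MvPolynomial.induction_on with
  | C g =>
    rw [eq_sum_tr g]
    simp only [map_sum]
    exact Finset.sum_congr rfl fun t _ => by rw [conjOp_tr, ev_tr, ev_tr]
  | add f g hf hg => rw [map_add, map_add, map_add, map_add, hf, hg]
  | mul_X f v hf => rw [map_mul, map_mul, map_mul, map_mul, hf, conjOp_X, ev_X, hx]

lemma coeff_conjOp (D : Op ι V) (m : V →₀ ℕ) (t : ι → ℝ) :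
    (MvPolynomial.coeff m (conjOp D)).coeff t =
      starRingEnd ℂ ((MvPolynomial.coeff m D).coeff t) := by
  rw [conjOp, MvPolynomial.coeff_map, AddMonoidAlgebra.coeff_mapRingHom]

/-- **Existence of the data.** -/
theorem exists_data [Finite ι] (E : Multiplicative (ι → ℝ) →* C) (p : V → C)
    (hE : E.range.FiniteIndex) (x : V → ℂ) (hxr : ∀ v, starRingEnd ℂ (x v) = x v)
    (hx : ∀ χ : C →* ℂˣ, (∀ t, χ (E t) = 1) → ∃ v, x v ≠ χ (p v) + ((χ (p v))⁻¹ : ℂˣ)) :
    Nonempty (Data E p x) := by
  classical
  obtain ⟨D₀, h1, h2, h3⟩ := exists_aleph E p hE x hx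
  set D : Op ι V := D₀ * conjOp D₀ with hD
  have hflip : ∀ s, flipOp s D = D := fun s => by rw [hD, map_mul, flipOp_conjOp, h1]
  have hev0 : evC E p D = 0 := by rw [hD, map_mul, h2, zero_mul]
  have hev : ev x D ≠ 0 := by
    rw [hD, map_mul, ev_conjOp hxr]
    exact mul_ne_zero h3 ((map_ne_zero _).mpr h3)
  have hconj : conjOp D = D := by rw [hD, map_mul, conjOp_conjOp, mul_comm]
  -- the index set
  let J : Finset (Σ _ : V →₀ ℕ, ι → ℝ) :=
    D.support.sigma fun m => (MvPolynomial.coeff m D).coeff.support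
  let e : Fin (Fintype.card J) ≃ J := (Fintype.equivFin J).symm
  let c : (Σ _ : V →₀ ℕ, ι → ℝ) → ℂ := fun j => (MvPolynomial.coeff j.1 D).coeff j.2
  let l : (Σ _ : V →₀ ℕ, ι → ℝ) → List V := fun j => (Finsupp.toMultiset j.1).toList
  have hc : ∀ j, ((c j).re : ℂ) = c j := by
    intro j
    have h5 : starRingEnd ℂ (c j) = c j := by
      have := coeff_conjOp D j.1 j.2
      rw [hconj] at this
      exact this.symm
    exact Complex.conj_eq_iff_re.mp h5
  have hsum : D = ∑ j : Fin (Fintype.card J), MvPolynomial.C (c (e j) • tr (e j : Σ _ : V →₀ ℕ, ι → ℝ).2) *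
      ((l (e j)).map MvPolynomial.X).prod := by
    conv_lhs => rw [eq_sum D]
    rw [Equiv.sum_comp e (fun j : J => MvPolynomial.C (c j • tr (j : Σ _ : V →₀ ℕ, ι → ℝ).2) *
      ((l j).map MvPolynomial.X).prod), Finset.sum_coe_sort J (fun j =>
      MvPolynomial.C (c j • tr j.2) * ((l j).map MvPolynomial.X).prod)]
    exact Finset.sum_sigma' _ _ _
  refine ⟨⟨Fintype.card J, fun j => l (e j), fun j => (e j : Σ _ : V →₀ ℕ, ι → ℝ).2,
    fun j => (c (e j)).re, fun s => ?_, ?_⟩⟩
  · have h6 : evC E p (flipOp s D) = 0 := by rw [hflip, hev0]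
    rw [hsum, map_sum, map_sum] at h6
    rw [← h6]
    exact Finset.sum_congr rfl fun j _ => by rw [flipOp_elem, evC_elem, hc]
  · intro h6
    apply hev
    rw [hsum, map_sum, ← h6]
    exact Finset.sum_congr rfl fun j _ => by rw [ev_elem, hc]

/-! ### The action on functions -/

/-- Translation. -/
def trans : C →* Module.End ℂ (C → ℂ) where
  toFun c :=
    { toFun := fun φ a => φ (a * c)
      map_add' := fun _ _ => rfl
      map_smul' := fun _ _ => rfl }
  map_one' := by ext φ a; simp
  map_mul' c c' := by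
    ext φ a
    change φ (a * (c * c')) = φ (a * c * c')
    rw [mul_assoc]

/-- The action of the group ring. -/
def act : MonoidAlgebra ℂ C →ₐ[ℂ] Module.End ℂ (C → ℂ) :=
  MonoidAlgebra.lift ℂ (Module.End ℂ (C → ℂ)) C trans

lemma act_single_mul (c : C) (g : MonoidAlgebra ℂ C) (φ : C → ℂ) (a : C) :
    act (MonoidAlgebra.single c 1 * g) φ a = act g φ (a * c) := by
  rw [map_mul]
  change (act (MonoidAlgebra.single c 1)) (act g φ) a = _
  rw [act, MonoidAlgebra.lift_single, one_smul]
  rfl

/-- The Hecke operator on functions on `C`. -/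
def Tv (p : V → C) (v : V) : Module.End ℂ (C → ℂ) where
  toFun φ a := φ (a * p v) + φ (a * (p v)⁻¹)
  map_add' φ ψ := by
    funext a
    change (φ _ + ψ _) + (φ _ + ψ _) = (φ _ + φ _) + (ψ _ + ψ _)
    ring
  map_smul' z φ := by
    funext a
    change z * φ _ + z * φ _ = z * (φ _ + φ _)
    ring

lemma Tv_apply (p : V → C) (v : V) (φ : C → ℂ) (a : C) :
    Tv p v φ a = φ (a * p v) + φ (a * (p v)⁻¹) := rfl

lemma act_tv (p : V → C) (v : V) : act (tv p v) = Tv p v := by
  ext φ a
  rw [tv, map_add, act, MonoidAlgebra.lift_single, MonoidAlgebra.lift_single, one_smul, one_smul]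
  rfl

/-- The composition of the Hecke operators along a word. -/
def wordOp (p : V → C) (l : List V) : Module.End ℂ (C → ℂ) := (l.map (Tv p)).prod

lemma wordOp_nil (p : V → C) (φ : C → ℂ) : wordOp p [] φ = φ := rfl

lemma wordOp_cons (p : V → C) (v : V) (l : List V) (φ : C → ℂ) :
    wordOp p (v :: l) φ = Tv p v (wordOp p l φ) := rfl

lemma act_word (p : V → C) (l : List V) : act ((l.map (tv p)).prod) = wordOp p l := by
  rw [map_list_prod, List.map_map, wordOp]
  congr 1
  exact List.map_congr_left fun v _ => act_tv p v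

variable {E : Multiplicative (ι → ℝ) →* C} {p : V → C} {x : V → ℂ}

theorem Data.kill_apply (D : Data E p x) (s : ι → ℤˣ) (φ : C → ℂ) (b : C) :
    ∑ j, (D.coef j : ℂ) *
      wordOp p (D.word j) φ (b * E (Multiplicative.ofAdd (flip s (D.shift j)))) = 0 := by
  have h1 := congrArg (fun g => act g φ b) (D.kill s)
  simp only [map_sum, map_smul, map_zero, LinearMap.zero_apply, Pi.zero_apply] at h1
  rw [← h1, LinearMap.sum_apply, Finset.sum_apply]
  refine Finset.sum_congr rfl fun j _ => ?_
  change _ = (D.coef j : ℂ) * (act (_ * _) φ b)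
  rw [act_single_mul, act_word]

/-! ### Convolutions -/

lemma wordOp_apply_eq (p : V → C) (l : List V) (c : C) (φ : C → ℂ) (a : C) :
    wordOp p l (fun b => φ (b * c)) a = wordOp p l φ (a * c) := by
  induction l generalizing a with
  | nil => rfl
  | cons v l ih =>
    rw [wordOp_cons, wordOp_cons, Tv_apply, Tv_apply, ih, ih, mul_right_comm a (p v),
      mul_right_comm a (p v)⁻¹]

lemma locallyIntegrable_wordOp [Fintype ι] (E : Multiplicative (ι → ℝ) →* C) (p : V → C)
    {φ : C → ℂ}
    (hφ : ∀ a, LocallyIntegrable fun u : ι → ℝ => φ (a * E (Multiplicative.ofAdd u)))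
    (l : List V) (a : C) :
    LocallyIntegrable fun u : ι → ℝ => wordOp p l φ (a * E (Multiplicative.ofAdd u)) := by
  induction l generalizing a with
  | nil => exact hφ a
  | cons v l ih =>
    have h1 : (fun u : ι → ℝ => wordOp p (v :: l) φ (a * E (Multiplicative.ofAdd u))) =
        (fun u => wordOp p l φ (a * p v * E (Multiplicative.ofAdd u))) +
          fun u => wordOp p l φ (a * (p v)⁻¹ * E (Multiplicative.ofAdd u)) := by
      funext u
      rw [wordOp_cons, Tv_apply, Pi.add_apply, mul_right_comm a _ (p v),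
        mul_right_comm a _ (p v)⁻¹]
    rw [h1]
    exact (ih _).add (ih _)

variable [Fintype ι] [DecidableEq ι]

/-- **Vanishing, analytic form** for an arbitrary function `H` on `ℝ^ι`. -/
theorem Data.kill_int (D : Data E p x) (φ : C → ℂ) (a : C) (H : (ι → ℝ) → ℂ)
    (hint : ∀ j (s : ι → ℤˣ), Integrable fun u : ι → ℝ =>
      H (u - flip s (D.shift j)) * wordOp p (D.word j) φ (a * E (Multiplicative.ofAdd u))) :
    ∑ j, (D.coef j : ℂ) * ∫ u : ι → ℝ, (∑ s : ι → ℤˣ, H (u - flip s (D.shift j))) *
      wordOp p (D.word j) φ (a * E (Multiplicative.ofAdd u)) = 0 := by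
  have key : ∀ j (s : ι → ℤˣ) (u : ι → ℝ),
      H (u + flip s (D.shift j) - flip s (D.shift j)) *
        wordOp p (D.word j) φ (a * E (Multiplicative.ofAdd (u + flip s (D.shift j)))) =
      H u * wordOp p (D.word j) φ
        (a * E (Multiplicative.ofAdd u) * E (Multiplicative.ofAdd (flip s (D.shift j)))) := by
    intro j s u
    rw [add_sub_cancel_right, ofAdd_add, map_mul, mul_assoc]
  have hint' : ∀ j (s : ι → ℤˣ), Integrable fun u : ι → ℝ =>
      H u * wordOp p (D.word j) φ
        (a * E (Multiplicative.ofAdd u) * E (Multiplicative.ofAdd (flip s (D.shift j)))) := by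
    intro j s
    have := (hint j s).comp_add_right (flip s (D.shift j))
    exact this.congr (Filter.Eventually.of_forall fun u => key j s u)
  have h1 : ∀ j, ∫ u : ι → ℝ, (∑ s : ι → ℤˣ, H (u - flip s (D.shift j))) *
      wordOp p (D.word j) φ (a * E (Multiplicative.ofAdd u)) =
      ∑ s : ι → ℤˣ, ∫ u : ι → ℝ, H u * wordOp p (D.word j) φ
        (a * E (Multiplicative.ofAdd u) * E (Multiplicative.ofAdd (flip s (D.shift j)))) := by
    intro j
    rw [show (fun u : ι → ℝ => (∑ s : ι → ℤˣ, H (u - flip s (D.shift j))) *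
      wordOp p (D.word j) φ (a * E (Multiplicative.ofAdd u))) = fun u => ∑ s : ι → ℤˣ,
        H (u - flip s (D.shift j)) * wordOp p (D.word j) φ (a * E (Multiplicative.ofAdd u)) from
      funext fun u => Finset.sum_mul _ _ _, integral_finsetSum _ fun s _ => hint j s]
    refine Finset.sum_congr rfl fun s _ => ?_
    rw [← integral_add_right_eq_self _ (flip s (D.shift j))]
    exact integral_congr_ae (Filter.Eventually.of_forall fun u => key j s u)
  simp only [h1, Finset.mul_sum]
  rw [Finset.sum_comm]
  refine Finset.sum_eq_zero fun s _ => ?_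
  simp only [← integral_const_mul]
  rw [← integral_finsetSum _ fun j _ => (hint' j s).const_mul _]
  refine integral_eq_zero_of_ae (Filter.Eventually.of_forall fun u => ?_)
  change ∑ j, (D.coef j : ℂ) * (H u * _) = 0
  have h2 := congrArg (fun z => H u * z) (D.kill_apply s φ (a * E (Multiplicative.ofAdd u)))
  simp only [mul_zero, Finset.mul_sum] at h2
  rw [← h2]
  exact Finset.sum_congr rfl fun j _ => by ring

/-- The symmetrised shift of a function of one real variable. -/
def sym (h : ℝ → ℂ) (t u : ℝ) : ℂ := (h (u - t) + h (u + t)) / 2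

lemma sym_even {h : ℝ → ℂ} (hh : ∀ u, h (-u) = h u) (t u : ℝ) : sym h t (-u) = sym h t u := by
  rw [sym, sym, show -u - t = -(u + t) by ring, show -u + t = -(u - t) by ring, hh, hh, add_comm]

lemma continuous_sym {h : ℝ → ℂ} (hh : Continuous h) (t : ℝ) : Continuous (sym h t) := by
  unfold sym; fun_prop

lemma contDiff_sym {h : ℝ → ℂ} {n : WithTop ℕ∞} (hh : ContDiff ℝ n h) (t : ℝ) :
    ContDiff ℝ n (sym h t) := by
  unfold sym
  exact ((hh.comp (contDiff_id.sub contDiff_const)).add
    (hh.comp (contDiff_id.add contDiff_const))).div_const 2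

lemma hasCompactSupport_sym {h : ℝ → ℂ} (hh : HasCompactSupport h) (t : ℝ) :
    HasCompactSupport (sym h t) := by
  have h1 : HasCompactSupport fun u => h (u - t) := by
    rw [show (fun u => h (u - t)) = h ∘ Homeomorph.addRight (-t) from
      funext fun u => by rw [sub_eq_add_neg]; rfl]
    exact hh.comp_homeomorph _
  have h2 : HasCompactSupport fun u => h (u + t) := hh.comp_homeomorph (Homeomorph.addRight t)
  exact (h1.add h2).mul_right (f' := fun _ => (2 : ℂ)⁻¹)

lemma integral_sym {h : ℝ → ℂ} (hh : Integrable h) (t : ℝ) : ∫ u, sym h t u = ∫ u, h u := by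
  unfold sym
  rw [integral_div, integral_add (hh.comp_sub_right t) (hh.comp_add_right t),
    integral_sub_right_eq_self, integral_add_right_eq_self]
  ring

/-- The transform of the symmetrised shift: `∫ sym h t · e^(ν u) = cosh (ν t) ∫ h · e^(ν u)`. -/
lemma integral_sym_mul_exp {h : ℝ → ℂ} (ν : ℂ)
    (hi : Integrable fun u : ℝ => h u * Complex.exp (ν * u)) (t : ℝ) :
    ∫ u : ℝ, sym h t u * Complex.exp (ν * u) =
      Complex.cosh (ν * t) * ∫ u : ℝ, h u * Complex.exp (ν * u) := by
  have e1 : ∀ u : ℝ, h (u - t) * Complex.exp (ν * u) =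
      Complex.exp (ν * t) * (h (u - t) * Complex.exp (ν * (u - t : ℝ))) := by
    intro u
    rw [mul_left_comm, ← Complex.exp_add]
    congr 2
    push_cast
    ring
  have e2 : ∀ u : ℝ, h (u + t) * Complex.exp (ν * u) =
      Complex.exp (-(ν * t)) * (h (u + t) * Complex.exp (ν * (u + t : ℝ))) := by
    intro u
    rw [mul_left_comm, ← Complex.exp_add]
    congr 2
    push_cast
    ring
  have e0 : ∀ u : ℝ, sym h t u * Complex.exp (ν * u) =
      (Complex.exp (ν * t) * (h (u - t) * Complex.exp (ν * (u - t : ℝ))) +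
        Complex.exp (-(ν * t)) * (h (u + t) * Complex.exp (ν * (u + t : ℝ)))) / 2 := by
    intro u
    rw [← e1, ← e2, sym]
    ring
  simp only [e0]
  rw [integral_div, integral_add ((hi.comp_sub_right t).const_mul _)
    ((hi.comp_add_right t).const_mul _), integral_const_mul, integral_const_mul,
    integral_sub_right_eq_self (fun u : ℝ => h u * Complex.exp (ν * u)) t,
    integral_add_right_eq_self (fun u : ℝ => h u * Complex.exp (ν * u)) t, Complex.cosh]
  ring

lemma sum_units_prod (h : ι → ℝ → ℂ) (t u : ι → ℝ) :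
    ∑ s : ι → ℤˣ, ∏ i, h i ((u - flip s t) i) = 2 ^ Fintype.card ι * ∏ i, sym (h i) (t i) (u i) := by
  have h1 : ∀ i, ∑ e : ℤˣ, h i (u i - ((e : ℤ) : ℝ) * t i) = 2 * sym (h i) (t i) (u i) := by
    intro i
    rw [show (Finset.univ : Finset ℤˣ) = {1, -1} from rfl, Finset.sum_pair (by decide), sym]
    push_cast
    rw [one_mul, neg_mul, one_mul, sub_neg_eq_add]
    ring
  have h2 := Finset.prod_univ_sum (fun _ : ι => (Finset.univ : Finset ℤˣ))
    fun i e => h i (u i - ((e : ℤ) : ℝ) * t i)
  simp only [h1, Finset.prod_mul_distrib, Finset.prod_const, Finset.card_univ,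
    Fintype.piFinset_univ] at h2
  rw [h2]
  rfl

/-- **Vanishing, product form**: the operator `Σ_j coef j T^(word j) ⊗_i (h_i symmetrically shifted)`
kills every function on `C`. -/
theorem Data.kill_prod (D : Data E p x) {φ : C → ℂ}
    (hφ : ∀ a, LocallyIntegrable fun u : ι → ℝ => φ (a * E (Multiplicative.ofAdd u))) (a : C)
    {h : ι → ℝ → ℂ} (hc : ∀ i, Continuous (h i)) (hs : ∀ i, HasCompactSupport (h i)) :
    ∑ j, (D.coef j : ℂ) * ∫ u : ι → ℝ, (∏ i, sym (h i) (D.shift j i) (u i)) *
      wordOp p (D.word j) φ (a * E (Multiplicative.ofAdd u)) = 0 := by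
  have hH : Continuous fun u : ι → ℝ => ∏ i, h i (u i) :=
    continuous_finsetProd _ fun i _ => (hc i).comp (continuous_apply i)
  have hHs : HasCompactSupport fun u : ι → ℝ => ∏ i, h i (u i) := by
    refine HasCompactSupport.of_support_subset_isCompact
      (isCompact_univ_pi fun i => hs i) fun u hu i _ => ?_
    refine subset_tsupport _ fun h0 => hu ?_
    exact Finset.prod_eq_zero (Finset.mem_univ i) h0
  have h1 := D.kill_int φ a (fun u => ∏ i, h i (u i)) fun j s => by
    have h2 := (locallyIntegrable_wordOp E p hφ (D.word j) a).integrable_smul_left_of_hasCompactSupport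
      (g := fun u : ι → ℝ => ∏ i, h i ((u - flip s (D.shift j)) i))
      (hH.comp (continuous_id.sub continuous_const))
      (hHs.comp_homeomorph (Homeomorph.addRight (-(flip s (D.shift j)))))
    exact h2
  simp only [sum_units_prod, mul_assoc, integral_const_mul] at h1
  simp only [mul_left_comm _ ((2 : ℂ) ^ Fintype.card ι), ← Finset.mul_sum] at h1
  exact (mul_eq_zero.mp h1).resolve_left (pow_ne_zero _ two_ne_zero)

/-- The value of the operator at the system `x` and at the origin at infinity. -/
theorem Data.value_eq (D : Data E p x) {h : ι → ℝ → ℂ} (hi : ∀ i, Integrable (h i)) :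
    ∑ j, (D.coef j : ℂ) * (((D.word j).map x).prod * ∏ i, ∫ u, sym (h i) (D.shift j i) u) =
      (∑ j, (D.coef j : ℂ) * ((D.word j).map x).prod) * ∏ i, ∫ u, h i u := by
  rw [Finset.sum_mul]
  refine Finset.sum_congr rfl fun j _ => ?_
  rw [mul_assoc]
  congr 2
  exact Finset.prod_congr rfl fun i _ => integral_sym (hi i) _

theorem Data.value_ne_zero (D : Data E p x) {h : ι → ℝ → ℂ} (hi : ∀ i, Integrable (h i))
    (h0 : ∀ i, ∫ u, h i u ≠ 0) :
    ∑ j, (D.coef j : ℂ) * (((D.word j).map x).prod * ∏ i, ∫ u, sym (h i) (D.shift j i) u) ≠ 0 := by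
  rw [D.value_eq hi]
  exact mul_ne_zero D.value_ne (Finset.prod_ne_zero_iff.mpr fun i _ => h0 i)

end Fermat.Agent.LT.Aleph

end
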