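import Fermat.Agent.LT.NonVan3

/-!
# Non-vanishing of aleph: adaptor to characters of idele class groups
-/

set_option autoImplicit false

namespace Fermat.Agent.LT.NV

open IsDedekindDomain NumberField WithZero
open Fermat.Agent.CFT.SUnits (ord)
open Fermat.Agent.CFT.Global (E mem_E cong mem_cong locPow mem_locPow AboveP above mem_above)

section Places

variable {F : Type*} [Field F] [NumberField F]

lemma finite_natCast_mem {N : ℕ} (hN : N ≠ 0) :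
    {v : HeightOneSpectrum (𝓞 F) | (N : 𝓞 F) ∈ v.asIdeal}.Finite := by
  have hN0 : Ideal.span {(N : 𝓞 F)} ≠ ⊥ := by
    rw [Ne, Ideal.span_singleton_eq_bot]
    exact_mod_cast hN
  refine (Ideal.finite_factors hN0).subset fun v hv => ?_
  exact Ideal.dvd_span_singleton.mpr hv

/-- the set of places dividing `N` -/
noncomputable def placesDvd (F : Type*) [Field F] [NumberField F] (N : ℕ) (hN : N ≠ 0) :
    Finset (HeightOneSpectrum (𝓞 F)) := (finite_natCast_mem (F := F) hN).toFinset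

lemma mem_placesDvd {N : ℕ} {hN : N ≠ 0} {v : HeightOneSpectrum (𝓞 F)} :
    v ∈ placesDvd F N hN ↔ (N : 𝓞 F) ∈ v.asIdeal := by
  rw [placesDvd, Set.Finite.mem_toFinset]
  exact Iff.rfl

/-- an integer contained in all places of a finite set -/
lemma exists_natCast_mem (T : Finset (HeightOneSpectrum (𝓞 F))) :
    ∃ m : ℕ, m ≠ 0 ∧ ∀ v ∈ T, (m : 𝓞 F) ∈ v.asIdeal := by
  classical
  refine ⟨∏ v ∈ T, Ideal.absNorm v.asIdeal, ?_, fun v hv => ?_⟩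
  · refine Finset.prod_ne_zero_iff.mpr fun v _ => ?_
    exact fun h => v.ne_bot (Ideal.absNorm_eq_zero_iff.mp h)
  · obtain ⟨c, hc⟩ := Finset.dvd_prod_of_mem (fun v : HeightOneSpectrum (𝓞 F) =>
      Ideal.absNorm v.asIdeal) hv
    rw [hc, Nat.cast_mul]
    exact v.asIdeal.mul_mem_right _ (Ideal.absNorm_mem v.asIdeal)

lemma exists_mem_E_placesDvd (a : Fˣ) : ∃ m : ℕ, m ≠ 0 ∧ ∀ (N : ℕ) (hN : N ≠ 0), m ∣ N →
    a ∈ E (placesDvd F N hN) := by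
  obtain ⟨m, hm, h⟩ := exists_natCast_mem
    (Fermat.Agent.CFT.SUnits.div a : HeightOneSpectrum (𝓞 F) →₀ ℤ).support
  refine ⟨m, hm, fun N hN hmN => mem_E.mpr fun v hv => ?_⟩
  by_contra hcon
  apply hv
  rw [mem_placesDvd]
  obtain ⟨c, rfl⟩ := hmN
  rw [Nat.cast_mul]
  refine v.asIdeal.mul_mem_right _ (h v ?_)
  rw [Finsupp.mem_support_iff]
  exact hcon

end Places

section Glue

variable {L : Type} [Field L] [NumberField L] [IsTotallyComplex L]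

/-- **NV for `L`**, adapted to characters of a group `C0` (ideles of `L` modulo an open compact
subgroup): `hray` = Artin reciprocity is trivial here, `i0 a = ∏ p v ^ ord v a` for `a` close to one
at finitely many places. -/
theorem exists_ne_of_hom {C0 : Type*} [CommGroup C0] (i0 : Lˣ →* C0)
    (p0 : HeightOneSpectrum (𝓞 L) → C0)
    (hray : ∃ (S : Finset (HeightOneSpectrum (𝓞 L))) (n : ℕ), ∀ a : Lˣ, (∀ v ∈ S, a ∈ cong v n) →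
      (rayVal S (fun v => Additive.ofMul (p0 v)) a).toAdd = Additive.ofMul (i0 a))
    {a b : Lˣ} (hna : ∀ c : Lˣ, c ^ 2 ≠ a) (hnb : ∀ c : Lˣ, c ^ 2 ≠ b)
    (hnab : ∀ c : Lˣ, c ^ 2 ≠ a * b) {k : ℕ} (hk : k ≠ 0) {x : HeightOneSpectrum (𝓞 L) → ℂ}
    (hx : ∀ v : HeightOneSpectrum (𝓞 L), (Ideal.absNorm v.asIdeal).Prime →
      (k : 𝓞 L) ∉ v.asIdeal →
      (x v = 0 ∧ ¬ (a ∈ locPow 2 v ∧ b ∈ locPow 2 v)) ∨
      ((x v = 2 ∨ x v = -2) ∧ a ∈ locPow 2 v ∧ b ∈ locPow 2 v))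
    (χ : C0 →* ℂˣ) (hχ : ∀ a, χ (i0 a) = 1) :
    ∃ v : HeightOneSpectrum (𝓞 L), (Ideal.absNorm v.asIdeal).Prime ∧ (k : 𝓞 L) ∉ v.asIdeal ∧
      x v ≠ (χ (p0 v) : ℂ) + (χ (p0 v) : ℂ)⁻¹ := by
  classical
  obtain ⟨S₀, n, hS₀⟩ := hray
  obtain ⟨m₁, hm₁, h₁⟩ := exists_natCast_mem S₀
  obtain ⟨m₂, hm₂, h₂⟩ := exists_mem_E_placesDvd a
  obtain ⟨m₃, hm₃, h₃⟩ := exists_mem_E_placesDvd b
  set N : ℕ := 2 * (2 * Module.finrank ℚ L).factorial * m₁ * m₂ * m₃ with hNdef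
  have hN : N ≠ 0 := by
    simp only [hNdef, ne_eq, mul_eq_zero, not_or]
    exact ⟨⟨⟨⟨two_ne_zero, Nat.factorial_ne_zero _⟩, hm₁⟩, hm₂⟩, hm₃⟩
  have hd1 : m₁ ∣ N := ⟨2 * (2 * Module.finrank ℚ L).factorial * m₂ * m₃, by rw [hNdef]; ring⟩
  have hd2 : m₂ ∣ N := ⟨2 * (2 * Module.finrank ℚ L).factorial * m₁ * m₃, by rw [hNdef]; ring⟩
  have hd3 : m₃ ∣ N := ⟨2 * (2 * Module.finrank ℚ L).factorial * m₁ * m₂, by rw [hNdef]; ring⟩
  have hdf : (2 * Module.finrank ℚ L).factorial ∣ N := ⟨2 * m₁ * m₂ * m₃, by rw [hNdef]; ring⟩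
  have hd4 : 2 ∣ N := ⟨(2 * Module.finrank ℚ L).factorial * m₁ * m₂ * m₃, by rw [hNdef]; ring⟩
  have hsub : S₀ ⊆ placesDvd L N hN := by
    intro v hv
    rw [mem_placesDvd]
    obtain ⟨c, hc⟩ := hd1
    rw [hc, Nat.cast_mul]
    exact v.asIdeal.mul_mem_right _ (h₁ v hv)
  have hr : IsRay S₀ n (fun v => Additive.ofMul (χ (p0 v))) := isRay_of_hom hS₀ χ hχ
  obtain ⟨v, -, hv1, hv2, hv3⟩ := exists_ne_of_isRay hN hd4 (fun p hp hle =>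
    ((Nat.Prime.dvd_factorial hp).mpr hle).trans hdf) (fun v => mem_placesDvd (hN := hN))
    (h₂ N hN hd2) (h₃ N hN hd3) hna hnb hnab hk (fun v _ h1 h2 => hx v h1 h2) (hr.mono_set hsub)
  exact ⟨v, hv1, hv2, hv3⟩

/-- **NV for `K`**, adapted to characters of a group `C0` (ideles of `K` modulo an open compact
subgroup), `L/K` Galois. -/
theorem exists_ne_of_hom_base {K : Type*} [Field K] [NumberField K] [Algebra K L] [IsGalois K L]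
    {C0 : Type*} [CommGroup C0] (i0 : Kˣ →* C0) (p0 : HeightOneSpectrum (𝓞 K) → C0)
    (hray : ∃ (S : Finset (HeightOneSpectrum (𝓞 K))) (n : ℕ), ∀ a : Kˣ, (∀ v ∈ S, a ∈ cong v n) →
      (rayVal S (fun v => Additive.ofMul (p0 v)) a).toAdd = Additive.ofMul (i0 a))
    {a b : Lˣ} (hna : ∀ c : Lˣ, c ^ 2 ≠ a) (hnb : ∀ c : Lˣ, c ^ 2 ≠ b)
    (hnab : ∀ c : Lˣ, c ^ 2 ≠ a * b) {k : ℕ} (hk : k ≠ 0) {x : HeightOneSpectrum (𝓞 L) → ℂ}
    (hx : ∀ v : HeightOneSpectrum (𝓞 L), (Ideal.absNorm v.asIdeal).Prime →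
      (k : 𝓞 L) ∉ v.asIdeal →
      (x v = 0 ∧ ¬ (a ∈ locPow 2 v ∧ b ∈ locPow 2 v)) ∨
      ((x v = 2 ∨ x v = -2) ∧ a ∈ locPow 2 v ∧ b ∈ locPow 2 v))
    (χ : C0 →* ℂˣ) (hχ : ∀ a, χ (i0 a) = 1) :
    ∃ w : HeightOneSpectrum (𝓞 L), (Ideal.absNorm w.asIdeal).Prime ∧ (k : 𝓞 L) ∉ w.asIdeal ∧
      (Ideal.absNorm (w.under (𝓞 K)).asIdeal).Prime ∧ (k : 𝓞 K) ∉ (w.under (𝓞 K)).asIdeal ∧
      fdeg K w = 1 ∧
      x w ≠ (χ (p0 (w.under (𝓞 K))) : ℂ) + (χ (p0 (w.under (𝓞 K))) : ℂ)⁻¹ := by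
  classical
  obtain ⟨S₀, n, hS₀⟩ := hray
  obtain ⟨m₁, hm₁, h₁⟩ := exists_natCast_mem S₀
  obtain ⟨m₂, hm₂, h₂⟩ := exists_mem_E_placesDvd a
  obtain ⟨m₃, hm₃, h₃⟩ := exists_mem_E_placesDvd b
  set N : ℕ := 2 * (2 * Module.finrank ℚ L).factorial * m₁ * m₂ * m₃ with hNdef
  have hN : N ≠ 0 := by
    simp only [hNdef, ne_eq, mul_eq_zero, not_or]
    exact ⟨⟨⟨⟨two_ne_zero, Nat.factorial_ne_zero _⟩, hm₁⟩, hm₂⟩, hm₃⟩
  have hd1 : m₁ ∣ N := ⟨2 * (2 * Module.finrank ℚ L).factorial * m₂ * m₃, by rw [hNdef]; ring⟩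
  have hd2 : m₂ ∣ N := ⟨2 * (2 * Module.finrank ℚ L).factorial * m₁ * m₃, by rw [hNdef]; ring⟩
  have hd3 : m₃ ∣ N := ⟨2 * (2 * Module.finrank ℚ L).factorial * m₁ * m₂, by rw [hNdef]; ring⟩
  have hdf : (2 * Module.finrank ℚ L).factorial ∣ N := ⟨2 * m₁ * m₂ * m₃, by rw [hNdef]; ring⟩
  have hd4 : 2 ∣ N := ⟨(2 * Module.finrank ℚ L).factorial * m₁ * m₂ * m₃, by rw [hNdef]; ring⟩
  have hsub : S₀ ⊆ placesDvd K N hN := by
    intro v hv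
    rw [mem_placesDvd]
    obtain ⟨c, hc⟩ := hd1
    rw [hc, Nat.cast_mul]
    exact v.asIdeal.mul_mem_right _ (h₁ v hv)
  have hr : IsRay S₀ n (fun v => Additive.ofMul (χ (p0 v))) := isRay_of_hom hS₀ χ hχ
  obtain ⟨w, -, h4, h5, h6, h7, -, h8, h9⟩ := exists_ne_of_isRay_base (K₀ := K) hN hd4
    (fun p hp hle => ((Nat.Prime.dvd_factorial hp).mpr hle).trans hdf)
    (fun v => mem_placesDvd (hN := hN)) (fun v => mem_placesDvd (hN := hN))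
    (h₂ N hN hd2) (h₃ N hN hd3) hna hnb hnab hk (fun v _ h1 h2 => hx v h1 h2) (hr.mono_set hsub)
  exact ⟨w, h4, h5, h6, h7, h8, h9⟩

end Glue

end Fermat.Agent.LT.NV
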