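import Fermat.Agent.LT.Aleph.Eigen
import Fermat.Agent.LT.Iso.Cat

/-!
# The polynomial in the letters of an operator killing the constant terms

Letters: `κ = W ⊕ 𝒦₀` (`W` : places, `𝒦₀` : full kernels). `alW A sq k : List κ →₀ ℂ` is the
polynomial `∑ j, coef j * (sq (word j))⁻¹ • k_j · word_j` of the data `A : Aleph.Data`.
-/

set_option autoImplicit false

noncomputable section

open scoped ComplexConjugate BigOperators

namespace Fermat.Agent.LT.Aleph

open Fermat.Agent.LT.Iso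

variable {W 𝒦₀ : Type*}

/-- the word `k · v₁ ⋯ v_r` -/
def lw (k : 𝒦₀) (l : List W) : List (W ⊕ 𝒦₀) := Sum.inr k :: l.map Sum.inl

theorem map_lw {M : Type*} (φ : W ⊕ 𝒦₀ → M) (k : 𝒦₀) (l : List W) :
    (lw k l).map φ = φ (Sum.inr k) :: l.map fun v => φ (Sum.inl v) := by
  rw [lw, List.map_cons, List.map_map]
  rfl

theorem prod_lw {M : Type*} [Monoid M] (φ : W ⊕ 𝒦₀ → M) (k : 𝒦₀) (l : List W) :
    ((lw k l).map φ).prod = φ (Sum.inr k) * (l.map fun v => φ (Sum.inl v)).prod := by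
  rw [map_lw, List.prod_cons]

/-- the polynomial of finitely many coefficients, kernels and words -/
def polyW {n : ℕ} (c : Fin n → ℝ) (k : Fin n → 𝒦₀) (l : Fin n → List W) : List (W ⊕ 𝒦₀) →₀ ℂ :=
  ∑ j, Finsupp.single (lw (k j) (l j)) ((c j : ℝ) : ℂ)

section polyW

variable {n : ℕ} (c : Fin n → ℝ) (k : Fin n → 𝒦₀) (l : Fin n → List W)

theorem realW_polyW : RealW (polyW c k l) := RealW.sum fun _ _ => realW_single _ _

theorem evA_polyW {M : Type*} [Semiring M] [Module ℂ M] (φ : W ⊕ 𝒦₀ → M) :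
    evA φ (polyW c k l) = ∑ j, ((c j : ℝ) : ℂ) •
      (φ (Sum.inr (k j)) * ((l j).map fun v => φ (Sum.inl v)).prod) := by
  rw [polyW, evA_sum]
  exact Finset.sum_congr rfl fun j _ => by rw [evA_single, prod_lw]

theorem exists_of_mem_polyW {m : List (W ⊕ 𝒦₀)} (h : polyW c k l m ≠ 0) :
    ∃ j, m = lw (k j) (l j) := by
  classical
  by_contra hne
  push Not at hne
  refine h ?_
  rw [polyW, Finsupp.finsetSum_apply]
  refine Finset.sum_eq_zero fun j _ => ?_
  rw [Finsupp.single_apply, if_neg fun e => hne j e.symm]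

theorem exists_inr_mem {m : List (W ⊕ 𝒦₀)} (h : polyW c k l m ≠ 0) :
    ∃ k, (Sum.inr k : W ⊕ 𝒦₀) ∈ m := by
  obtain ⟨j, rfl⟩ := exists_of_mem_polyW c k l h
  exact ⟨k j, List.mem_cons_self⟩

end polyW

/-- Some word of a product contains a kernel. -/
theorem exists_inr_mem_mulW {P Q : List (W ⊕ 𝒦₀) →₀ ℂ}
    (hP : ∀ m, P m ≠ 0 → ∃ k, (Sum.inr k : W ⊕ 𝒦₀) ∈ m) {m : List (W ⊕ 𝒦₀)}
    (h : mulW P Q m ≠ 0) : ∃ k, (Sum.inr k : W ⊕ 𝒦₀) ∈ m := by
  obtain ⟨m₁, h₁, m₂, _, rfl⟩ := exists_of_mem_mulW h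
  obtain ⟨k, hk⟩ := hP m₁ (Finsupp.mem_support_iff.mp h₁)
  exact ⟨k, List.mem_append_left _ hk⟩

section value

variable {W : Type}

theorem prod_sqrt_mul (q x : W → ℝ) (l : List W) :
    (l.map fun v => Real.sqrt (q v) * x v).prod =
      (l.map fun v => Real.sqrt (q v)).prod * (l.map x).prod := by
  induction l with
  | nil => simp
  | cons v l ih => simp only [List.map_cons, List.prod_cons, ih]; ring

theorem ofReal_prod_map (x : W → ℝ) (l : List W) :
    (((l.map x).prod : ℝ) : ℂ) = (l.map fun v => (x v : ℂ)).prod := by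
  induction l with
  | nil => simp
  | cons v l ih => simp only [List.map_cons, List.prod_cons, Complex.ofReal_mul, ih]

variable {F : Type} [Field F] [NumberField F] {D : Type} [MulAction (GL (Fin 2) F) D]
  {B : Bdry F D W} {x : W → ℝ}

/-- **The polynomial of the operator killing the constant terms.** -/
def alW (A : Data B.E B.pc fun v => (x v : ℂ)) (k : Fin A.n → 𝒦₀) : List (W ⊕ 𝒦₀) →₀ ℂ :=
  polyW (fun j => A.coef j * (B.sq (A.word j))⁻¹) k A.word

/-- **Its value** at a system of numbers. -/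
theorem evN_alW (A : Data B.E B.pc fun v => (x v : ℂ)) (k : Fin A.n → 𝒦₀) {y : W ⊕ 𝒦₀ → ℝ}
    {c : ℝ} (hy : ∀ v, y (Sum.inl v) = Real.sqrt (B.q v) * x v)
    (hc : ∀ j, y (Sum.inr (k j)) = c) :
    evN y (alW A k) = (c : ℂ) * ∑ j, (A.coef j : ℂ) * ((A.word j).map fun v => (x v : ℂ)).prod := by
  rw [evN_eq_evA, alW, evA_polyW, Finset.mul_sum]
  refine Finset.sum_congr rfl fun j _ => ?_
  have h1 : ((A.word j).map fun v => ((y (Sum.inl v) : ℝ) : ℂ)).prod =
      ((B.sq (A.word j) : ℝ) : ℂ) * ((A.word j).map fun v => (x v : ℂ)).prod := by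
    rw [← ofReal_prod_map, ← ofReal_prod_map, ← Complex.ofReal_mul]
    simp only [hy]
    rw [prod_sqrt_mul]
    rfl
  have h2 : ((B.sq (A.word j) : ℝ) : ℂ) ≠ 0 := by exact_mod_cast (B.sq_pos (A.word j)).ne'
  rw [h1, hc, smul_eq_mul]
  push_cast
  field_simp

/-- **The value is not zero.** -/
theorem evN_alW_ne_zero (A : Data B.E B.pc fun v => (x v : ℂ)) (k : Fin A.n → 𝒦₀)
    {y : W ⊕ 𝒦₀ → ℝ} {c : ℝ} (hy : ∀ v, y (Sum.inl v) = Real.sqrt (B.q v) * x v)
    (hc : ∀ j, y (Sum.inr (k j)) = c) (hc0 : c ≠ 0) : evN y (alW A k) ≠ 0 := by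
  rw [evN_alW A k hy hc]
  exact mul_ne_zero (by exact_mod_cast hc0) A.value_ne

theorem realW_alW (A : Data B.E B.pc fun v => (x v : ℂ)) (k : Fin A.n → 𝒦₀) :
    RealW (alW A k) := realW_polyW _ _ _

theorem evA_alW (A : Data B.E B.pc fun v => (x v : ℂ)) (k : Fin A.n → 𝒦₀) {M : Type*}
    [Semiring M] [Module ℂ M] (φ : W ⊕ 𝒦₀ → M) :
    evA φ (alW A k) = ∑ j, ((A.coef j : ℂ) * ((B.sq (A.word j) : ℝ) : ℂ)⁻¹) •
      (φ (Sum.inr (k j)) * ((A.word j).map fun v => φ (Sum.inl v)).prod) := by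
  rw [alW, evA_polyW]
  exact Finset.sum_congr rfl fun j _ => by push_cast; rfl

end value

end Fermat.Agent.LT.Aleph

end
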