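import Fermat.Agent.LT.Aleph.RowHK
import Fermat.Agent.LT.Aleph.Main
import Fermat.Agent.LT.Auto.Diag
import Fermat.Agent.LT.Desc.Reg

/-!
# `R(ℵ)` as a linear combination of symbols (helper36)

* `arep_opF`: the class of `R(k ⊗ a) f`;
* `AlSym`: data representing `R(ℵ)` by symbols; `AlSym.op f` is the class of `Ral A h f`;
* `AlSym.mem_cuspL2`: `R(ℵ)` (times any symbol) maps `L²` to `L²_cusp`.
-/

set_option autoImplicit false
set_option linter.unusedSectionVars false

open MeasureTheory NumberField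
open scoped ENNReal InnerProductSpace ComplexConjugate

noncomputable section

namespace Fermat.Agent.LT

section Gen

open H3 Red Desc

variable {F : Type*} [Field F] [NumberField F]

theorem Desc.IsCBKer.integrable_mul {κ : Xi F → Xi F → ℂ} (h : IsCBKer κ) {f : Xi F → ℂ}
    (hl : LocallyIntegrable f) (x : Xi F) : Integrable fun x' => κ x x' * f x' := by
  obtain ⟨R, hR⟩ := h.supp
  refine hl.integrable_smul_left_of_hasCompactSupport (g := κ x) (h.cont.uncurry_left x) ?_
  refine HasCompactSupport.intro (isCompact_xball R x) fun x' hx' => ?_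
  by_contra h'
  exact hx' (hR x x' h')

variable {D : Type*} [MeasurableSpace D]
  [MeasurableSingletonClass D] [Countable D] [MulAction (GL (Fin 2) F) D]
  [IsTotallyComplex F] [IsLevel F D] {𝒦 : Type*} [Mul 𝒦]
  (κ : KerSg (PG F) (volume : Measure (Xi F)) 𝒦) {w : Xi F × D → ℝ≥0∞}
  (hT : ∃ T : Finset D, ∀ d, ∃ g : PG F, g • d ∈ T) (hw : IsWeight (PG F) w)

/-- **The class of `R(k ⊗ a) f`.** -/
theorem arep_opF {k : 𝒦} (hk : IsCBKer (κ.kap k)) (a : HK (PG F) D)
    (f : autL2 (PG F) ((muXD (volume : Measure (Xi F)) D).withDensity w)) :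
    arep (opF κ hT hw k a f) =ᵐ[muXD (volume : Measure (Xi F)) D]
      fun z => ∫ x', κ.kap k z.1 x' * a.act (fun d' => arep f (x', d')) z.2 := by
  refine (isRegRep_opF_arep κ hT hw hk a f).ae.trans (Filter.Eventually.of_forall fun z => ?_)
  have h1 : ∀ x', κ.kap k z.1 x' * a.act (fun d' => arep f (x', d')) z.2 =
      ∑ d' ∈ (a.finite_row z.2).toFinset, a.ker z.2 d' * (κ.kap k z.1 x' * arep f (x', d')) := by
    intro x'
    rw [HK.act_apply, Finset.mul_sum]
    exact Finset.sum_congr rfl fun d' _ => by rw [smul_eq_mul]; ring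
  simp only [h1]
  rw [integral_finsetSum _ fun d' _ =>
    (hk.integrable_mul (locallyIntegrable_arep hw f d') z.1).const_mul _]
  simp only [integral_const_mul]
  rw [tsum_eq_sum]
  intro d' hd'
  rw [Set.Finite.mem_toFinset, Set.mem_ofPred_eq, not_not] at hd'
  rw [hd', zero_mul]

end Gen

namespace Aleph

open Lvl Desc

variable {F : Type} [Field F] [NumberField F] {D V : Type} [MulAction (GL (Fin 2) F) D]
  [MeasurableSpace D] [MeasurableSingletonClass D] [Countable D]
  [IsTotallyComplex F] [IsLevel F D] {B : Bdry F D V} {x : V → ℂ} (A : Data B.E B.pc x)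
  {h : InfinitePlace F → ℝ → ℂ}

section Op

variable {𝒦 : Type*} [Mul 𝒦] (κ : KerSg (PG F) (volume : Measure (Xi F)) 𝒦)

/-- The elements `kk j` have the kernels of `R(ℵ)`. -/
def AlKer (h : InfinitePlace F → ℝ → ℂ) (kk : Fin A.n → 𝒦) : Prop :=
  ∀ j x x', κ.kap (kk j) x x' = H3.pk (fun w => symKer (h w) (A.shift j w)) x x'

/-- The coefficients. -/
def alCoef (j : Fin A.n) : ℂ := (A.coef j : ℂ) * (B.sq (A.word j) : ℂ)⁻¹

theorem conj_alCoef (j : Fin A.n) : conj (alCoef A j) = alCoef A j := by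
  rw [alCoef, map_mul, map_inv₀, Complex.conj_ofReal, Complex.conj_ofReal]

variable {κ} in
theorem AlKer.isCBKer {kk : Fin A.n → 𝒦} (hκ : AlKer A κ h kk) (hh : ∀ w, IsTest (h w))
    (j : Fin A.n) : IsCBKer (κ.kap (kk j)) := by
  have h1 : κ.kap (kk j) = fun x x' => H3.pk (fun w => symKer (h w) (A.shift j w)) x x' := by
    funext x x'
    exact hκ j x x'
  rw [h1]
  exact isCBKer_pk fun w => (hh w).isKer _

variable {w : Xi F × D → ℝ≥0∞}
  (hT : ∃ T : Finset D, ∀ d, ∃ g : PG F, g • d ∈ T) (hw : IsWeight (PG F) w)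

/-- The operator `R(ℵ)` on `L²`. -/
def alOp (kk : Fin A.n → 𝒦) (t : V → HK (PG F) D) :
    autL2 (PG F) ((muXD (volume : Measure (Xi F)) D).withDensity w) →L[ℂ]
      autL2 (PG F) ((muXD (volume : Measure (Xi F)) D).withDensity w) :=
  ∑ j, alCoef A j • opF κ hT hw (kk j) ((A.word j).map t).prod

variable {κ}

theorem alOp_apply (kk : Fin A.n → 𝒦) (t : V → HK (PG F) D)
    (f : autL2 (PG F) ((muXD (volume : Measure (Xi F)) D).withDensity w)) :
    alOp A κ hT hw kk t f = ∑ j, alCoef A j • opF κ hT hw (kk j) ((A.word j).map t).prod f :=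
  sum_smul_apply' _ _ _ f

include hw in
theorem arep_sum {ι : Type*} (s : Finset ι) (c : ι → ℂ)
    (f : ι → autL2 (PG F) ((muXD (volume : Measure (Xi F)) D).withDensity w)) :
    arep (∑ j ∈ s, c j • f j) =ᵐ[(muXD (volume : Measure (Xi F)) D).withDensity w]
      fun z => ∑ j ∈ s, c j * arep (f j) z := by
  classical
  induction s using Finset.induction_on with
  | empty =>
    have h1 := (isRegRep_zero (G := PG F) (mX := (volume : Measure (Xi F))) (D := D) hw).aeν
    simpa using h1
  | insert i s hi ih =>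
    rw [Finset.sum_insert hi]
    filter_upwards [arep_add (c i • f i) (∑ j ∈ s, c j • f j), ih, arep_csmul (c i) (f i)]
      with z h1 h2 h3
    rw [h1, Pi.add_apply, h2, h3, Finset.sum_insert hi]
    rfl

/-- **The class of `R(ℵ) f`.** -/
theorem arep_alOp {kk : Fin A.n → 𝒦} (hκ : AlKer A κ h kk) (hh : ∀ w, IsTest (h w))
    {t : V → HK (PG F) D} (ht : B.Rep t)
    (f : autL2 (PG F) ((muXD (volume : Measure (Xi F)) D).withDensity w)) :
    arep (alOp A κ hT hw kk t f) =ᵐ[(muXD (volume : Measure (Xi F)) D).withDensity w]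
      Ral A h (arep f) := by
  rw [alOp_apply]
  refine (arep_sum hw _ _ _).trans ?_
  have h1 : ∀ j : Fin A.n, ∀ᵐ z ∂(muXD (volume : Measure (Xi F)) D).withDensity w,
      arep (opF κ hT hw (kk j) ((A.word j).map t).prod f) z =
        Rz (fun w => symKer (h w) (A.shift j w)) (Tzw B (A.word j) (arep f)) z := by
    intro j
    have h2 := (withDensity_ac (muXD (volume : Measure (Xi F)) D) w).ae_eq
      (arep_opF κ hT hw (hκ.isCBKer A hh j) ((A.word j).map t).prod f)
    filter_upwards [h2] with z hz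
    rw [hz, Rz]
    congr 1
    funext x'
    rw [hκ j, ht.Tzw]
  filter_upwards [ae_all_iff.mpr h1] with z hz
  rw [Ral]
  exact Finset.sum_congr rfl fun j _ => by rw [hz j, alCoef]

/-- **`R(ℵ)` maps `L²` to `L²_cusp`.** -/
theorem alOp_mem_cuspL2 {kk : Fin A.n → 𝒦} (hκ : AlKer A κ h kk) (hh : ∀ w, IsTest (h w))
    {t : V → HK (PG F) D} (ht : B.Rep t)
    (f : autL2 (PG F) ((muXD (volume : Measure (Xi F)) D).withDensity w)) :
    (alOp A κ hT hw kk t f : Lp ℂ 2 ((muXD (volume : Measure (Xi F)) D).withDensity w)) ∈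
      cuspL2 hw := by
  have hinv : Inv (arep f) := fun g x d => arep_smul f (QuotientGroup.mk g : PG F) (x, d)
  have hm : ∀ d, Measurable fun x : Xi F => arep f (x, d) := fun d =>
    (measurable_arep f).comp measurable_prodMk_right
  have hi : ∀ d, LocallyIntegrable fun x : Xi F => arep f (x, d) := fun d =>
    locallyIntegrable_arep hw f d
  have h1 : IsCusp (Ral A h (arep f)) := isCusp_Ral A hh hinv hm hi
  refine (mem_cuspL2_iff_of_ae (hw := hw) ?_ ?_
    ((coeFn_ae_arep (alOp A κ hT hw kk t f)).trans (arep_alOp A hT hw hκ hh ht f))).mpr h1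
  · exact measurable_from_prod_countable_left fun d => measurable_Ral A hh hm d
  · rintro g z
    obtain ⟨g, rfl⟩ := QuotientGroup.mk_surjective g
    exact inv_Ral A hinv g z.1 z.2

end Op

/-! ### Symbols -/

section Symb

variable {𝒦 : Type*} [Semigroup 𝒦] {κ : KerSg (PG F) (volume : Measure (Xi F)) 𝒦}
  {w : Xi F × D → ℝ≥0∞}
  (hT : ∃ T : Finset D, ∀ d, ∃ g : PG F, g • d ∈ T) (hw : IsWeight (PG F) w)

/-- The symbols of `R(ℵ)`. -/
def alSym (kk : Fin A.n → 𝒦) (t : V → HK (PG F) D) (j : Fin A.n) : Symb (PG F) D 𝒦 :=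
  ((kk j : WithOne 𝒦), ((A.word j).map t).prod)

theorem alSym_mem_fullS (kk : Fin A.n → 𝒦) (t : V → HK (PG F) D) (j : Fin A.n) :
    alSym A kk t j ∈ fullS (PG F) D 𝒦 := WithOne.coe_ne_one

theorem linS_alSym (kk : Fin A.n → 𝒦) (t : V → HK (PG F) D) :
    linS κ hT hw Finset.univ (alCoef A) (alSym A kk t) = alOp A κ hT hw kk t := rfl

theorem linS_mul_right [StarMul 𝒦] {ι : Type*} (T : Finset ι) (c : ι → ℂ) (s : ι → Symb (PG F) D 𝒦)
    (s' : Symb (PG F) D 𝒦) (f : autL2 (PG F) ((muXD (volume : Measure (Xi F)) D).withDensity w)) :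
    linS κ hT hw T c (fun i => s i * s') f = linS κ hT hw T c s (symOp κ hT hw s' f) := by
  rw [linS_apply, linS_apply]
  exact Finset.sum_congr rfl fun i _ => by rw [map_mul]; rfl

/-- **`R(ℵ)` times any symbol maps `L²` to `L²_cusp`.** -/
theorem linS_mem_cuspL2 [StarMul 𝒦] {kk : Fin A.n → 𝒦} (hκ : AlKer A κ h kk) (hh : ∀ w, IsTest (h w))
    {t : V → HK (PG F) D} (ht : B.Rep t) (s' : Symb (PG F) D 𝒦)
    (f : autL2 (PG F) ((muXD (volume : Measure (Xi F)) D).withDensity w)) :
    (linS κ hT hw Finset.univ (alCoef A) (fun j => alSym A kk t j * s') f :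
      Lp ℂ 2 ((muXD (volume : Measure (Xi F)) D).withDensity w)) ∈ cuspL2 hw := by
  rw [linS_mul_right, linS_alSym]
  exact alOp_mem_cuspL2 A hT hw hκ hh ht _

theorem star_word {t : V → HK (PG F) D} (hs : ∀ v, star (t v) = t v)
    (hc : ∀ v v', Commute (t v) (t v')) (l : List V) : star (l.map t).prod = (l.map t).prod := by
  induction l with
  | nil => rw [List.map_nil, List.prod_nil, star_one]
  | cons v l ih =>
    rw [List.map_cons, List.prod_cons, star_mul, ih, hs]
    refine (Commute.list_prod_right _ _ fun y hy => ?_).symm.eq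
    obtain ⟨v', _, rfl⟩ := List.mem_map.mp hy
    exact hc v v'

theorem sstar_alSym [Star 𝒦] {kk : Fin A.n → 𝒦} (hk : ∀ j, star (kk j) = kk j)
    {t : V → HK (PG F) D} (hs : ∀ v, star (t v) = t v) (hc : ∀ v v', Commute (t v) (t v'))
    (j : Fin A.n) : sstar (alSym A kk t j) = alSym A kk t j := by
  rw [alSym, sstar_coe, hk, star_word hs hc]

/-- **`R(ℵ)` is self-adjoint.** -/
theorem adjoint_alOp [StarMul 𝒦]
    (hstar : ∀ (k : 𝒦) x x', κ.kap (star k) x x' = conj (κ.kap k x' x)) {kk : Fin A.n → 𝒦}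
    (hk : ∀ j, star (kk j) = kk j) {t : V → HK (PG F) D} (hs : ∀ v, star (t v) = t v)
    (hc : ∀ v v', Commute (t v) (t v')) :
    ContinuousLinearMap.adjoint (alOp A κ hT hw kk t) = alOp A κ hT hw kk t := by
  rw [← linS_alSym, adjoint_linS hstar]
  congr 1
  · funext j
    exact conj_alCoef A j
  · funext j
    exact sstar_alSym A hk hs hc j

/-- **The value of `R(ℵ)` on a joint eigenvector.** -/
theorem alOp_eq_smul {kk : Fin A.n → 𝒦} {t : V → HK (PG F) D} {a : V → ℂ} {lam : Fin A.n → ℂ}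
    {f : autL2 (PG F) ((muXD (volume : Measure (Xi F)) D).withDensity w)}
    (hf : ∀ v, symOp κ hT hw (1, t v) f = a v • f)
    (hl : ∀ j, symOp κ hT hw ((kk j : WithOne 𝒦), 1) f = lam j • f) :
    alOp A κ hT hw kk t f = (∑ j, alCoef A j * (((A.word j).map a).prod * lam j)) • f := by
  have h1 : ∀ l : List V, symOp κ hT hw (1, (l.map t).prod) f = (l.map a).prod • f := by
    intro l
    induction l with
    | nil =>
      rw [List.map_nil, List.prod_nil, List.map_nil, List.prod_nil, one_smul]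
      have := map_one (symOp κ hT hw)
      exact DFunLike.congr_fun this f
    | cons v l ih =>
      have h2 : ((1, ((v :: l).map t).prod) : Symb (PG F) D 𝒦) =
          (1, t v) * (1, (l.map t).prod) := by
        rw [Prod.mk_mul_mk, one_mul, List.map_cons, List.prod_cons]
      rw [h2, map_mul]
      change symOp κ hT hw (1, t v) (symOp κ hT hw (1, (l.map t).prod) f) = _
      rw [ih, map_smul, hf, smul_smul, List.map_cons, List.prod_cons, mul_comm]
  rw [alOp_apply, Finset.sum_smul]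
  refine Finset.sum_congr rfl fun j _ => ?_
  rw [mul_smul]
  congr 1
  have h3 : opF κ hT hw (kk j) ((A.word j).map t).prod f =
      symOp κ hT hw ((1, ((A.word j).map t).prod) * ((kk j : WithOne 𝒦), 1)) f := by
    rw [Prod.mk_mul_mk, one_mul, mul_one]
    rfl
  rw [h3, map_mul]
  change symOp κ hT hw (1, ((A.word j).map t).prod) (symOp κ hT hw ((kk j : WithOne 𝒦), 1) f) = _
  rw [hl, map_smul, h1, smul_smul, mul_comm]

end Symb

end Aleph

end Fermat.Agent.LT

end
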