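import Fermat.Agent.LT.Aleph.Sy
import Fermat.Agent.LT.Aleph.Eigen
import Fermat.Agent.LT.Auto.Pack
import Fermat.Agent.LT.Tr.SymKer

/-!
# `R(ℵ)` and the package `KDat` (helper36)

* `Bdry.Rep.comap`: other letters; `alKer_kerSgOf`: semigroups mapping to `Kinf F`;
* `isCusp_alOp`, `isCusp_linS`: the values of `R(ℵ)` (times any symbol) are cuspidal;
* `KDat.opSum_al_mem_V`, `KDat.opSum_al_eq_zero`: on the Hilbert space `V`.
-/

set_option autoImplicit false
set_option linter.unusedSectionVars false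

open MeasureTheory NumberField
open scoped ENNReal InnerProductSpace ComplexConjugate

noncomputable section

namespace Fermat.Agent.LT.Aleph

open Lvl Desc

theorem Bdry.Rep.comap {F : Type} [Field F] [NumberField F] {D : Type} [MulAction (GL (Fin 2) F) D]
    {V : Type} {G : Type*} [Group G] [MulAction G D] {B : Bdry F D V} {t : V → HK G D}
    (h : B.Rep t) {V' : Type} (g : V' → V) : (B.comap g).Rep fun v => t (g v) where
  ker v d d' := h.ker (g v) d d'

variable {F : Type} [Field F] [NumberField F] {D V : Type} [MulAction (GL (Fin 2) F) D]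
  {B : Bdry F D V} {x : V → ℂ} (A : Data B.E B.pc x) {h : InfinitePlace F → ℝ → ℂ}

/-- Semigroups of kernels at infinity which map to `Kinf F`. -/
theorem alKer_kerSgOf {𝒦 : Type*} [Mul 𝒦] (i : 𝒦 → Tr.Kinf F) (hi : ∀ k l, i (k * l) = i k * i l)
    (hh : ∀ w, IsTest (h w)) {kk : Fin A.n → 𝒦}
    (hk : ∀ j w, i (kk j) w = Tr.Rad.of (symKer (h w) (A.shift j w)) ((hh w).isKer _)) :
    AlKer A (Tr.kerSgOf i hi) h kk := by
  intro j x x'
  rw [Tr.kerSgOf_kap, Tr.Kinf.ker_def]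
  unfold H3.pk
  refine Finset.prod_congr rfl fun w _ => ?_
  rw [hk, Tr.Rad.of_cu]

variable [MeasurableSpace D] [DiscreteMeasurableSpace D] [Countable D]
  [IsTotallyComplex F] [IsLevel F D] {w : Xi F × D → ℝ≥0∞}

section Sg

variable {𝒦 : Type*} [Semigroup 𝒦] {κ : KerSg (PG F) (volume : Measure (Xi F)) 𝒦}
  (hT : ∃ T : Finset D, ∀ d, ∃ g : PG F, g • d ∈ T) (hw : IsWeight (PG F) w)

/-- **The values of `R(ℵ)` are cuspidal.** -/
theorem isCusp_alOp {kk : Fin A.n → 𝒦} (hκ : AlKer A κ h kk) (hh : ∀ w, IsTest (h w))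
    {t : V → HK (PG F) D} (ht : B.Rep t)
    (f : autL2 (PG F) ((muXD (volume : Measure (Xi F)) D).withDensity w)) :
    IsCusp (arep (alOp A κ hT hw kk t f)) :=
  coe_mem_cuspL2.mp (alOp_mem_cuspL2 A hT hw hκ hh ht f)

/-- `R(ℵ)` times any symbol. -/
theorem isCusp_linS [StarMul 𝒦] {kk : Fin A.n → 𝒦} (hκ : AlKer A κ h kk)
    (hh : ∀ w, IsTest (h w)) {t : V → HK (PG F) D} (ht : B.Rep t) (s' : Symb (PG F) D 𝒦)
    (f : autL2 (PG F) ((muXD (volume : Measure (Xi F)) D).withDensity w)) :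
    IsCusp (arep (linS κ hT hw Finset.univ (alCoef A) (fun j => alSym A kk t j * s') f)) :=
  coe_mem_cuspL2.mp (linS_mem_cuspL2 A hT hw hκ hh ht s' f)

end Sg

section Pack

variable {𝒦 : Type*} [Semigroup 𝒦] [StarMul 𝒦] (K : KDat F D 𝒦) (hw : IsWeight (PG F) w)

/-- **`R(ℵ)` (times any symbol) maps `L²` to `V`.** -/
theorem opSum_al_mem_V {kk : Fin A.n → 𝒦} (hκ : AlKer A K.toKerSg h kk)
    (hh : ∀ w, IsTest (h w)) {t : V → HK (PG F) D} (ht : B.Rep t) (s' : Symb (PG F) D 𝒦)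
    (f : autL2 (PG F) ((muXD (volume : Measure (Xi F)) D).withDensity w)) :
    (K.opSum hw Finset.univ (alCoef A) (fun j => alSym A kk t j * s') f :
      Lp ℂ 2 ((muXD (volume : Measure (Xi F)) D).withDensity w)) ∈ K.V hw := by
  refine K.opSum_mem_V hw (fun j _ => ?_) (isCusp_linS A (exists_orbits F D) hw hκ hh ht s' f)
  obtain ⟨y, b⟩ := s'
  induction y using WithOne.recOneCoe with
  | one => rw [alSym, Prod.mk_mul_mk, mul_one]; exact coe_mem_fullS _ _
  | coe l => rw [alSym, Prod.mk_mul_mk, ← WithOne.coe_mul]; exact coe_mem_fullS _ _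

/-- **`R(ℵ)` kills the orthogonal complement of `V`.** -/
theorem opSum_al_eq_zero {kk : Fin A.n → 𝒦} (hκ : AlKer A K.toKerSg h kk)
    (hh : ∀ w, IsTest (h w)) (hk : ∀ j, star (kk j) = kk j) {t : V → HK (PG F) D} (ht : B.Rep t)
    (hs : ∀ v, star (t v) = t v) (hc : ∀ v v', Commute (t v) (t v'))
    {f : autL2 (PG F) ((muXD (volume : Measure (Xi F)) D).withDensity w)}
    (hfo : (f : Lp ℂ 2 ((muXD (volume : Measure (Xi F)) D).withDensity w)) ∈ (K.V hw)ᗮ) :
    K.opSum hw Finset.univ (alCoef A) (alSym A kk t) f = 0 := by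
  refine K.opSum_eq_zero hw (fun j _ => alSym_mem_fullS A kk t j) (fun g => ?_) hfo
  have h1 : (fun j => conj (alCoef A j)) = alCoef A := funext fun j => conj_alCoef A j
  have h2 : (fun j => sstar (alSym A kk t j)) = alSym A kk t :=
    funext fun j => sstar_alSym A hk hs hc j
  rw [h1, h2]
  exact isCusp_alOp A (exists_orbits F D) hw hκ hh ht g

end Pack

end Fermat.Agent.LT.Aleph

end
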