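import Fermat.Agent.LT.Level.Defs

/-!
# The quotient `N \ X` of a `GL₂(K)`-set (helper36)

* `un b = n(b)`, `dg a = diag(a, 1)`, `dg_mul_un`.
* `NQ K X` : the set of the orbits of `N(K)` on a `GL₂(K)`-set `X`, with the action
  `a • [x] = [diag(a,1) x]` of `Kˣ`.
* `NQ.*` : the structure of `N \ GL₂(E)/(H Eˣ)` for `H ≤ GL₂(O)`.
-/

set_option autoImplicit false

open Matrix

noncomputable section

namespace Fermat.Agent.LT.Aleph

open Lvl

section Basic

variable {K : Type*} [Field K]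

/-- `n(b)` -/
abbrev un (b : K) : GL (Fin 2) K := bor 1 b

/-- `diag(a, 1)` -/
abbrev dg (a : Kˣ) : GL (Fin 2) K := bor a 0

theorem un_zero : un (0 : K) = 1 := bor_one

theorem un_add (b c : K) : un (b + c) = un b * un c := by
  rw [un, un, un, bor_mul]
  congr 1
  · simp
  · simp [add_comm]

theorem un_neg (b : K) : un (-b) = (un b)⁻¹ := by
  rw [eq_inv_iff_mul_eq_one, ← un_add, neg_add_cancel, un_zero]

theorem dg_one : dg (1 : Kˣ) = 1 := bor_one

theorem dg_mul (a b : Kˣ) : dg (a * b) = dg a * dg b := by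
  rw [dg, dg, dg, bor_mul]
  congr 1
  simp

theorem un_mul_dg (a : Kˣ) (b : K) : un b * dg a = bor a b := by
  rw [un, dg, bor_mul]
  congr 1
  · simp
  · simp

theorem dg_mul_un (a : Kˣ) (b : K) : dg a * un b = un (a * b) * dg a := by
  rw [un_mul_dg, un, dg, bor_mul]
  congr 1
  · simp
  · simp

end Basic

/-! ### The quotient by `N` -/

section NQ

variable (K : Type*) [Field K] (X : Type*) [MulAction (GL (Fin 2) K) X]

/-- `y = n(b) x` for some `b` -/
def nSetoid : Setoid X where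
  r x y := ∃ b : K, un b • x = y
  iseqv := {
    refl := fun x => ⟨0, by rw [un_zero, one_smul]⟩
    symm := by
      rintro x y ⟨b, rfl⟩
      exact ⟨-b, by rw [← mul_smul, ← un_add, neg_add_cancel, un_zero, one_smul]⟩
    trans := by
      rintro x y z ⟨b, rfl⟩ ⟨c, rfl⟩
      exact ⟨c + b, by rw [un_add, mul_smul]⟩ }

/-- The set of the `N(K)`-orbits on `X`. -/
def NQ : Type _ := Quotient (nSetoid K X)

variable {X}

/-- the orbit of `x` -/
def NQ.mk (x : X) : NQ K X := Quotient.mk (nSetoid K X) x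

variable {K}

theorem NQ.mk_surjective : Function.Surjective (NQ.mk K : X → NQ K X) := Quotient.mk_surjective

theorem NQ.mk_eq_iff {x y : X} : NQ.mk K x = NQ.mk K y ↔ ∃ b : K, un b • x = y :=
  ⟨fun h => Quotient.exact h, fun h => Quotient.sound h⟩

@[simp] theorem NQ.mk_un_smul (b : K) (x : X) : NQ.mk K (un b • x) = NQ.mk K x :=
  (NQ.mk_eq_iff.mpr ⟨b, rfl⟩).symm

/-- the function on `NQ K X` defined by an `N(K)`-invariant function -/
def NQ.lift {M : Type*} (f : X → M) (hf : ∀ (b : K) x, f (un b • x) = f x) : NQ K X → M :=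
  Quotient.lift f (by
    rintro x y ⟨b, rfl⟩
    exact (hf b x).symm)

@[simp] theorem NQ.lift_mk {M : Type*} (f : X → M) (hf : ∀ (b : K) x, f (un b • x) = f x)
    (x : X) : NQ.lift f hf (NQ.mk K x) = f x := rfl

instance : MulAction Kˣ (NQ K X) where
  smul a := NQ.lift (fun x => NQ.mk K (dg a • x)) fun b x => by
    rw [← mul_smul, dg_mul_un, mul_smul, NQ.mk_un_smul]
  one_smul := by
    intro x
    obtain ⟨x, rfl⟩ := NQ.mk_surjective x
    show NQ.mk K (dg 1 • x) = _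
    rw [dg_one, one_smul]
  mul_smul := by
    intro a b x
    obtain ⟨x, rfl⟩ := NQ.mk_surjective x
    show NQ.mk K (dg (a * b) • x) = NQ.mk K (dg a • dg b • x)
    rw [dg_mul, mul_smul]

theorem NQ.smul_mk (a : Kˣ) (x : X) : a • NQ.mk K x = NQ.mk K (dg a • x) := rfl

theorem NQ.mk_bor_smul (a : Kˣ) (b : K) (x : X) : NQ.mk K (bor a b • x) = a • NQ.mk K x := by
  rw [← un_mul_dg, mul_smul, NQ.mk_un_smul, NQ.smul_mk]

end NQ

/-! ### The local quotients -/

section Val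

variable {E Γ : Type*} [Field E] [LinearOrderedCommGroupWithZero Γ] {w : Valuation E Γ}
  {H : Subgroup (GL (Fin 2) E)}

theorem NQ.exists_rep (w : Valuation E Γ) (x : NQ E (Cos H)) :
    ∃ (a : Eˣ) (k : GL (Fin 2) E), k ∈ GLO w ∧ x = a • NQ.mk E (Cos.mk H k) := by
  obtain ⟨d, rfl⟩ := NQ.mk_surjective x
  obtain ⟨g, rfl⟩ := Cos.mk_surjective d
  obtain ⟨z, a, b, k, hk, rfl⟩ := exists_iwasawa (w := w) g
  refine ⟨a, k, hk, ?_⟩
  rw [mul_assoc, Cos.mk_scalar_mul, ← Cos.smul_mk, NQ.mk_bor_smul]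

/-- Elements close to `1` act trivially. -/
theorem NQ.smul_eq_self_of_cong {γ : Γ}
    (hH : ∀ g : GL (Fin 2) E, Bd w ((g : Matrix (Fin 2) (Fin 2) E) - 1) γ → g ∈ H)
    {a : Eˣ} (ha : w ((a : E) - 1) ≤ γ) (x : NQ E (Cos H)) : a • x = x := by
  obtain ⟨a', k, hk, rfl⟩ := NQ.exists_rep w x
  rw [← mul_smul, mul_comm, mul_smul]
  congr 1
  rw [NQ.smul_mk, Cos.smul_mk]
  congr 1
  have h1 : k⁻¹ * dg a * k ∈ H := by
    apply hH
    have h2 : ((k⁻¹ * dg a * k : GL (Fin 2) E) : Matrix (Fin 2) (Fin 2) E) - 1 =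
        ((k⁻¹ : GL (Fin 2) E) : Matrix (Fin 2) (Fin 2) E) *
          ((dg a : Matrix (Fin 2) (Fin 2) E) - 1) * (k : Matrix (Fin 2) (Fin 2) E) := by
      rw [mul_sub, sub_mul, mul_one, ← Units.val_mul, ← Units.val_mul, ← Units.val_mul,
        inv_mul_cancel, Units.val_one]
    rw [h2]
    have h3 : Bd w ((dg a : Matrix (Fin 2) (Fin 2) E) - 1) γ := by
      intro i j
      rw [coe_bor, Matrix.sub_apply]
      fin_cases i <;> fin_cases j <;> simp [ha]
    have h4 := (((GLO w).inv_mem hk).1.mul h3).mul hk.1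
    rwa [one_mul, mul_one] at h4
  have h5 : dg a * k = k * (k⁻¹ * dg a * k) := by group
  rw [h5, Cos.mk_mul h1]

/-- For the full group `GL₂(O)` all units act trivially. -/
theorem NQ.smul_eq_self_of_unit {a : Eˣ} (ha : w (a : E) = 1) (x : NQ E (Cos (GLO w))) :
    a • x = x := by
  obtain ⟨a', k, hk, rfl⟩ := NQ.exists_rep w x
  rw [← mul_smul, mul_comm, mul_smul]
  congr 1
  rw [NQ.smul_mk, Cos.smul_mk]
  congr 1
  have h1 : k⁻¹ * dg a * k ∈ GLO w :=
    (GLO w).mul_mem ((GLO w).mul_mem ((GLO w).inv_mem hk) (bor_mem_GLO ha (by simp))) hk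
  have h5 : dg a * k = k * (k⁻¹ * dg a * k) := by group
  rw [h5, Cos.mk_mul h1]

theorem NQ.exists_eq_smul_base (x : NQ E (Cos (GLO w))) :
    ∃ a : Eˣ, x = a • NQ.mk E (Cos.mk (GLO w) 1) := by
  obtain ⟨a', k, hk, rfl⟩ := NQ.exists_rep w x
  refine ⟨a', ?_⟩
  congr 2
  have := Cos.mk_mul (H := GLO w) (g := 1) hk
  rwa [one_mul] at this

/-- The stabiliser of the base point consists of units. -/
theorem NQ.val_eq_one_of_smul_base (hH : H ≤ GLO w) {a : Eˣ}
    (h : a • NQ.mk E (Cos.mk H 1) = NQ.mk E (Cos.mk H 1)) : w (a : E) = 1 := by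
  rw [NQ.smul_mk, NQ.mk_eq_iff] at h
  obtain ⟨b, hb⟩ := h
  rw [← mul_smul, un_mul_dg, Cos.smul_mk, mul_one, Cos.mk_eq_one_iff] at hb
  obtain ⟨z, k, hk, hz⟩ := hb
  have hk' := hH hk
  have e1 : ∀ i j, bor a b i j = (z : E) * k i j := by
    intro i j
    rw [hz, GeneralLinearGroup.coe_mul, GeneralLinearGroup.coe_scalar]
    simp [Matrix.scalar_apply, Matrix.diagonal_mul]
  have e11 : (1 : E) = z * k 1 1 := by rw [← e1 1 1]; rfl
  have e00 : (a : E) = z * k 0 0 := by rw [← e1 0 0]; rfl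
  have hdet : w (k 0 0 * k 1 1) = 1 := by
    have h10 : k 1 0 = 0 := by
      have := e1 1 0
      rw [bor_10] at this
      exact (mul_eq_zero.mp this.symm).resolve_left z.ne_zero
    have := hk'.2
    rw [GeneralLinearGroup.val_det_apply, Matrix.det_fin_two, h10, mul_zero, sub_zero] at this
    exact this
  have hk0 : w (k 0 0) ≤ 1 := hk'.1 0 0
  have hk1 : w (k 1 1) ≤ 1 := hk'.1 1 1
  rw [map_mul] at hdet
  have h0 : w (k 0 0) = 1 := by
    refine le_antisymm hk0 ?_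
    by_contra hlt
    rw [not_le] at hlt
    have : w (k 0 0) * w (k 1 1) < 1 := mul_lt_one_of_lt_of_le hlt hk1
    exact absurd hdet this.ne
  have h1 : w (k 1 1) = 1 := by rwa [h0, one_mul] at hdet
  have hz1 : w (z : E) = 1 := by
    have := congrArg w e11
    rw [map_one, map_mul, h1, mul_one] at this
    exact this.symm
  rw [e00, map_mul, hz1, h0, one_mul]

/-- `diag(1, ϖ)` modulo the centre. -/
theorem eq_scalar_mul_dg {g : GL (Fin 2) E} {ϖ : Eˣ}
    (hg : (g : Matrix (Fin 2) (Fin 2) E) = !![1, 0; 0, (ϖ : E)]) :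
    g = GeneralLinearGroup.scalar (Fin 2) ϖ * dg ϖ⁻¹ := by
  ext i j
  rw [hg, GeneralLinearGroup.coe_mul, GeneralLinearGroup.coe_scalar, coe_bor]
  fin_cases i <;> fin_cases j <;> simp [Matrix.scalar_apply, Matrix.diagonal_mul]

theorem NQ.mk_scalar_mul_bor (z a : Eˣ) (b : E) (g : GL (Fin 2) E) :
    NQ.mk E (Cos.mk H (GeneralLinearGroup.scalar (Fin 2) z * bor a b * g)) =
      a • NQ.mk E (Cos.mk H g) := by
  rw [mul_assoc, Cos.mk_scalar_mul, ← Cos.smul_mk, NQ.mk_bor_smul]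

/-- the neighbours in the direction of `(ϖ b; 0 1)`. -/
theorem NQ.mk_mul_bor {g : GL (Fin 2) E} (hg : g 1 0 = 0) (ϖ : Eˣ) (b : E) :
    NQ.mk E (Cos.mk H (g * bor ϖ b)) = ϖ • NQ.mk E (Cos.mk H g) := by
  obtain ⟨z, a, c, rfl⟩ := exists_bor_of_lower_zero hg
  have h1 := NQ.mk_scalar_mul_bor (H := H) z a c 1
  rw [mul_one] at h1
  rw [NQ.mk_scalar_mul_bor, h1, ← mul_smul, mul_comm, mul_smul]
  congr 1
  have h2 := NQ.mk_scalar_mul_bor (H := H) 1 ϖ b 1
  rwa [map_one, one_mul, mul_one] at h2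

/-- the neighbour in the direction of `(1 0; 0 ϖ)`. -/
theorem NQ.mk_mul_dh {g h : GL (Fin 2) E} (hg : g 1 0 = 0) {ϖ : Eˣ}
    (hh : (h : Matrix (Fin 2) (Fin 2) E) = !![1, 0; 0, (ϖ : E)]) :
    NQ.mk E (Cos.mk H (g * h)) = ϖ⁻¹ • NQ.mk E (Cos.mk H g) := by
  rw [eq_scalar_mul_dg hh, ← mul_assoc, ← scalar_mul_comm, mul_assoc, Cos.mk_scalar_mul]
  exact NQ.mk_mul_bor hg _ _

/-- an upper triangular representative -/
theorem NQ.exists_upper (d : Cos (GLO w)) :
    ∃ g : GL (Fin 2) E, g 1 0 = 0 ∧ Cos.mk (GLO w) g = d := by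
  obtain ⟨g, rfl⟩ := Cos.mk_surjective d
  obtain ⟨z, a, b, k, hk, rfl⟩ := exists_iwasawa (w := w) g
  refine ⟨bor a b, bor_10 _ _, ?_⟩
  rw [mul_assoc, Cos.mk_scalar_mul, Cos.mk_mul hk]

/-- **The Hecke operator on `N \ X`**: `q` neighbours in the class `ϖ • [x]`, one in the class
`ϖ⁻¹ • [x]`. -/
theorem NQ.sum_nbr {M : Type*} [AddCommMonoid M] {B : Finset E} {ϖ : Eˣ} {h : GL (Fin 2) E}
    (hh : (h : Matrix (Fin 2) (Fin 2) E) = !![1, 0; 0, (ϖ : E)])
    (S : (Cos (GLO w) → M) → Cos (GLO w) → M)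
    (hS : ∀ f g, S f (Cos.mk _ g) =
      ∑ b ∈ B, f (Cos.mk _ (g * bor ϖ b)) + f (Cos.mk _ (g * h)))
    (φ : NQ E (Cos (GLO w)) → M) (x : Cos (GLO w)) :
    S (fun y => φ (NQ.mk E y)) x =
      B.card • φ (ϖ • NQ.mk E x) + φ (ϖ⁻¹ • NQ.mk E x) := by
  obtain ⟨g, hg, rfl⟩ := NQ.exists_upper x
  rw [hS, NQ.mk_mul_dh hg hh]
  congr 1
  rw [Finset.sum_congr rfl fun b _ => by rw [NQ.mk_mul_bor hg ϖ b], Finset.sum_const]

end Val

end Fermat.Agent.LT.Aleph

end
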